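import Mathlib

set_option autoImplicit false
set_option linter.unusedSectionVars false

/-!
Pure algebra of the two-division cubic `f = 4x^3 + B2 x^2 + 2 B4 x + B6` over a field.
`cq = 4 * psi_3`, `cR5 = -64 * psi_5`.
-/

namespace Fermat.Agent.S51

variable {F : Type*} [Field F]

/-- the two-division cubic `psi_2 ^ 2` -/
def cf (B2 B4 B6 x : F) : F := 4 * x ^ 3 + B2 * x ^ 2 + 2 * B4 * x + B6

/-- derivative of the two-division cubic -/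
def cf1 (B2 B4 x : F) : F := 12 * x ^ 2 + 2 * B2 * x + 2 * B4

/-- `4 * psi_3`, written without `b8` -/
def cq (B2 B4 B6 x : F) : F :=
  12 * x ^ 4 + 4 * B2 * x ^ 3 + 12 * B4 * x ^ 2 + 12 * B6 * x + (B2 * B6 - B4 ^ 2)

/-- `-64 * psi_5` -/
def cR5 (B2 B4 B6 x : F) : F :=
  64 * cf B2 B4 B6 x ^ 4 - 8 * cf1 B2 B4 x * cq B2 B4 B6 x * cf B2 B4 B6 x ^ 2 + cq B2 B4 B6 x ^ 3

/-- x-coordinate of the double -/
noncomputable def cdbl (B2 B4 B6 x : F) : F := x - cq B2 B4 B6 x / (4 * cf B2 B4 B6 x)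

/-- Tate normal form parameter `b` of the point with x-coordinate `x` -/
noncomputable def cb (B2 B4 B6 x : F) : F := -cq B2 B4 B6 x ^ 3 / (64 * cf B2 B4 B6 x ^ 4)

/-- the scaling `u^2` to Tate normal form -/
noncomputable def cu (B2 B4 B6 x : F) : F := 16 * cf B2 B4 B6 x ^ 3 / cq B2 B4 B6 x ^ 2

/-- `c4` -/
def cc4 (B2 B4 : F) : F := B2 ^ 2 - 24 * B4

/-- `4 * Δ` -/
def cD (B2 B4 B6 : F) : F :=
  -B2 ^ 2 * (B2 * B6 - B4 ^ 2) - 32 * B4 ^ 3 - 108 * B6 ^ 2 + 36 * B2 * B4 * B6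

lemma cq_eq (B2 B4 B6 x : F) :
    4 * cq B2 B4 B6 x = 4 * cf B2 B4 B6 x * (12 * x + B2) - cf1 B2 B4 x ^ 2 := by
  simp only [cq, cf, cf1]; ring

lemma cf_taylor (B2 B4 B6 x h : F) :
    cf B2 B4 B6 (x + h) = cf B2 B4 B6 x + cf1 B2 B4 x * h + (12 * x + B2) * h ^ 2 + 4 * h ^ 3 := by
  simp only [cf, cf1]; ring

/-- translation/scaling covariance of `cf`, `cq`, `cR5`, `cc4`, `cD`. -/
lemma cubic_translate {B2 B4 B6 x u B2' B4' B6' : F}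
    (h2 : B2 + 12 * x = u * B2') (h4 : B4 + B2 * x + 6 * x ^ 2 = u ^ 2 * B4')
    (h6 : cf B2 B4 B6 x = u ^ 3 * B6') :
    (∀ X : F, cf B2 B4 B6 (x + u * X) = u ^ 3 * cf B2' B4' B6' X) ∧
    (∀ X : F, cf1 B2 B4 (x + u * X) = u ^ 2 * cf1 B2' B4' X) ∧
    (∀ X : F, cq B2 B4 B6 (x + u * X) = u ^ 4 * cq B2' B4' B6' X) ∧
    (∀ X : F, cR5 B2 B4 B6 (x + u * X) = u ^ 12 * cR5 B2' B4' B6' X) ∧
    cc4 B2 B4 = u ^ 2 * cc4 B2' B4' ∧ cD B2 B4 B6 = u ^ 6 * cD B2' B4' B6' := by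
  have e2 : B2 = u * B2' - 12 * x := by linear_combination h2
  have e4 : B4 = u ^ 2 * B4' - B2 * x - 6 * x ^ 2 := by linear_combination h4
  have e6 : B6 = u ^ 3 * B6' - (4 * x ^ 3 + B2 * x ^ 2 + 2 * B4 * x) := by
    simp only [cf] at h6; linear_combination h6
  subst e6
  subst e4
  subst e2
  refine ⟨?_, ?_, ?_, ?_, ?_, ?_⟩
  · intro X; simp only [cf]; ring
  · intro X; simp only [cf1]; ring
  · intro X; simp only [cq]; ring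
  · intro X; simp only [cR5, cf, cf1, cq]; ring
  · simp only [cc4]; ring
  · simp only [cD]; ring

section tate

variable [CharZero F]

/-- Tate cubic: `B2' = b^2 - 6b + 1`, `B4' = b^2 - b`, `B6' = b^2`. -/
lemma tate_cov {B2 B4 B6 x : F} (hf : cf B2 B4 B6 x ≠ 0) (hq : cq B2 B4 B6 x ≠ 0)
    (h5 : cR5 B2 B4 B6 x = 0) :
    B2 + 12 * x = cu B2 B4 B6 x * (cb B2 B4 B6 x ^ 2 - 6 * cb B2 B4 B6 x + 1) ∧
    B4 + B2 * x + 6 * x ^ 2 = cu B2 B4 B6 x ^ 2 * (cb B2 B4 B6 x ^ 2 - cb B2 B4 B6 x) ∧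
    cf B2 B4 B6 x = cu B2 B4 B6 x ^ 3 * cb B2 B4 B6 x ^ 2 := by
  have hq4 := cq_eq B2 B4 B6 x
  have h1 : 2 * (B4 + B2 * x + 6 * x ^ 2) = cf1 B2 B4 x := by simp only [cf1]; ring
  set f := cf B2 B4 B6 x with hfdef
  set q := cq B2 B4 B6 x with hqdef
  set f1 := cf1 B2 B4 x with hf1def
  have h5' : 64 * f ^ 4 - 8 * f1 * q * f ^ 2 + q ^ 3 = 0 := h5
  have hf1 : f1 = (q ^ 3 + 64 * f ^ 4) / (8 * q * f ^ 2) := by
    field_simp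
    linear_combination -h5'
  have hL : 12 * x + B2 = (4 * q + f1 ^ 2) / (4 * f) := by
    field_simp
    linear_combination -hq4
  refine ⟨?_, ?_, ?_⟩
  · have : B2 + 12 * x = (4 * q + f1 ^ 2) / (4 * f) := by rw [← hL]; ring
    rw [this, hf1]
    simp only [cu, cb, ← hfdef, ← hqdef]
    field_simp
    ring
  · have : B4 + B2 * x + 6 * x ^ 2 = f1 / 2 := by
      rw [← h1]; ring
    rw [this, hf1]
    simp only [cu, cb, ← hfdef, ← hqdef]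
    field_simp
    ring
  · simp only [cu, cb, ← hfdef, ← hqdef]
    field_simp
    norm_num

/-- coefficients of the Tate cubic -/
def tB2 (b : F) : F := b ^ 2 - 6 * b + 1
/-- coefficients of the Tate cubic -/
def tB4 (b : F) : F := b ^ 2 - b
/-- coefficients of the Tate cubic -/
def tB6 (b : F) : F := b ^ 2

lemma tate_cf_b (b : F) : cf (tB2 b) (tB4 b) (tB6 b) b = b ^ 4 := by
  simp only [cf, tB2, tB4, tB6]; ring

lemma tate_cq_b (b : F) : cq (tB2 b) (tB4 b) (tB6 b) b = 4 * b ^ 5 := by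
  simp only [cq, tB2, tB4, tB6]; ring

lemma tate_cR5_b (b : F) : cR5 (tB2 b) (tB4 b) (tB6 b) b = 0 := by
  simp only [cR5, cf, cf1, cq, tB2, tB4, tB6]; ring

lemma tate_cc4 (b : F) :
    cc4 (tB2 b) (tB4 b) = b ^ 4 - 12 * b ^ 3 + 14 * b ^ 2 + 12 * b + 1 := by
  simp only [cc4, tB2, tB4]; ring

lemma tate_cD (b : F) :
    cD (tB2 b) (tB4 b) (tB6 b) = 4 * (b ^ 5 * (b ^ 2 - 11 * b - 1)) := by
  simp only [cD, tB2, tB4, tB6]; ring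

/-- the curve `C_1'` relating `b` and `ρ` -/
def cC1 (b ρ : F) : F := ρ ^ 3 * b ^ 2 + 3 * ρ ^ 2 * (ρ - 1) ^ 2 * b + (ρ - 1) ^ 3

lemma tate_cq_mul (b ρ : F) :
    cq (tB2 b) (tB4 b) (tB6 b) (b * ρ) = 4 * b ^ 3 * cC1 b ρ := by
  simp only [cq, tB2, tB4, tB6, cC1]; ring

/-- the model of `X_0(15)` -/
def cG (ω Bp : F) : F :=
  ω ^ 3 * Bp ^ 2 - 3 * (3 * ω + 1) * ω ^ 2 * Bp - 9 * ω ^ 4 + (4 * ω + 1) * (ω + 1) ^ 2

lemma cG_of_cC1 {b ρ : F} (hb : b ≠ 0) (h : cC1 b ρ = 0) :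
    cG (ρ * (ρ - 1)) (b - 1 / b) = 0 := by
  have key : cG (ρ * (ρ - 1)) (b - 1 / b) * b ^ 2 =
      cC1 b ρ * (ρ ^ 3 - 3 * ρ ^ 2 * (ρ - 1) ^ 2 * b + (ρ - 1) ^ 3 * b ^ 2) := by
    simp only [cG, cC1]
    field_simp
    ring
  rw [h] at key
  have hb2 : b ^ 2 ≠ 0 := pow_ne_zero _ hb
  have := mul_eq_zero.mp (key.trans (by ring))
  tauto

/-- Summary of the Tate normal form data attached to the x-coordinate `x` of a point of order 5. -/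
theorem five_data {B2 B4 B6 x : F} (hf : cf B2 B4 B6 x ≠ 0) (hq : cq B2 B4 B6 x ≠ 0)
    (h5 : cR5 B2 B4 B6 x = 0) :
    cu B2 B4 B6 x ≠ 0 ∧ cb B2 B4 B6 x ≠ 0 ∧
    cdbl B2 B4 B6 x = x + cu B2 B4 B6 x * cb B2 B4 B6 x ∧
    cf B2 B4 B6 (cdbl B2 B4 B6 x) = cu B2 B4 B6 x ^ 3 * cb B2 B4 B6 x ^ 4 ∧
    cq B2 B4 B6 (cdbl B2 B4 B6 x) = 4 * cu B2 B4 B6 x ^ 4 * cb B2 B4 B6 x ^ 5 ∧
    cR5 B2 B4 B6 (cdbl B2 B4 B6 x) = 0 ∧
    cdbl B2 B4 B6 (cdbl B2 B4 B6 x) = x ∧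
    cb B2 B4 B6 (cdbl B2 B4 B6 x) = -1 / cb B2 B4 B6 x ∧
    cc4 B2 B4 = cu B2 B4 B6 x ^ 2 * (cb B2 B4 B6 x ^ 4 - 12 * cb B2 B4 B6 x ^ 3 +
      14 * cb B2 B4 B6 x ^ 2 + 12 * cb B2 B4 B6 x + 1) ∧
    cD B2 B4 B6 = cu B2 B4 B6 x ^ 6 * (4 * (cb B2 B4 B6 x ^ 5 *
      (cb B2 B4 B6 x ^ 2 - 11 * cb B2 B4 B6 x - 1))) ∧
    ∀ x₃ : F, cq B2 B4 B6 x₃ = 0 →
      cC1 (cb B2 B4 B6 x) ((x₃ - x) / (cdbl B2 B4 B6 x - x)) = 0 := by
  obtain ⟨h2, h4, h6⟩ := tate_cov hf hq h5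
  have hu : cu B2 B4 B6 x ≠ 0 := by
    simp only [cu]; exact div_ne_zero (mul_ne_zero (by norm_num) (pow_ne_zero _ hf)) (pow_ne_zero _ hq)
  have hb : cb B2 B4 B6 x ≠ 0 := by
    simp only [cb]
    exact div_ne_zero (neg_ne_zero.mpr (pow_ne_zero _ hq)) (mul_ne_zero (by norm_num) (pow_ne_zero _ hf))
  have hd : cdbl B2 B4 B6 x = x + cu B2 B4 B6 x * cb B2 B4 B6 x := by
    simp only [cdbl, cu, cb]
    field_simp
    ring
  set u := cu B2 B4 B6 x with hudef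
  set b := cb B2 B4 B6 x with hbdef
  have h2' : B2 + 12 * x = u * tB2 b := by rw [h2]; simp only [tB2]
  have h4' : B4 + B2 * x + 6 * x ^ 2 = u ^ 2 * tB4 b := by rw [h4]; simp only [tB4]
  have h6' : cf B2 B4 B6 x = u ^ 3 * tB6 b := by rw [h6]; simp only [tB6]
  obtain ⟨tf, -, tq, tR, tc4, tD⟩ := cubic_translate h2' h4' h6'
  have hfx2 : cf B2 B4 B6 (cdbl B2 B4 B6 x) = u ^ 3 * b ^ 4 := by
    rw [hd, tf, tate_cf_b]
  have hqx2 : cq B2 B4 B6 (cdbl B2 B4 B6 x) = 4 * u ^ 4 * b ^ 5 := by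
    rw [hd, tq, tate_cq_b]; ring
  refine ⟨hu, hb, hd, hfx2, hqx2, ?_, ?_, ?_, ?_, ?_, ?_⟩
  · rw [hd, tR, tate_cR5_b, mul_zero]
  · rw [cdbl, hfx2, hqx2, hd]
    field_simp
    ring
  · rw [cb, hfx2, hqx2]
    field_simp
    ring
  · rw [tc4, tate_cc4]
  · rw [tD, tate_cD]
  · intro x₃ hx₃
    have hx : x₃ = x + u * (b * ((x₃ - x) / (cdbl B2 B4 B6 x - x))) := by
      rw [hd]
      field_simp
      ring
    rw [hx, tq, tate_cq_mul] at hx₃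
    have h4u : (u ^ 4 * (4 * b ^ 3)) ≠ 0 :=
      mul_ne_zero (pow_ne_zero _ hu) (mul_ne_zero (by norm_num) (pow_ne_zero _ hb))
    have := mul_eq_zero.mp (show (u ^ 4 * (4 * b ^ 3)) *
      cC1 b ((x₃ - x) / (cdbl B2 B4 B6 x - x)) = 0 by rw [← hx₃]; ring)
    tauto

lemma cq_taylor (B2 B4 B6 x h : F) :
    cq B2 B4 B6 (x + h) = cq B2 B4 B6 x + 12 * cf B2 B4 B6 x * h + 6 * cf1 B2 B4 x * h ^ 2 +
      4 * (12 * x + B2) * h ^ 3 + 12 * h ^ 4 := by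
  simp only [cq, cf, cf1]; ring

lemma five_forward {B2 B4 B6 x : F} (hf : cf B2 B4 B6 x ≠ 0)
    (hf2 : cf B2 B4 B6 (cdbl B2 B4 B6 x) ≠ 0)
    (h : cdbl B2 B4 B6 (cdbl B2 B4 B6 x) = x) :
    cq B2 B4 B6 x * cR5 B2 B4 B6 x = 0 := by
  have hL := cq_eq B2 B4 B6 x
  have h1 : cq B2 B4 B6 (cdbl B2 B4 B6 x) * cf B2 B4 B6 x +
      cq B2 B4 B6 x * cf B2 B4 B6 (cdbl B2 B4 B6 x) = 0 := by
    have h' := h
    rw [cdbl] at h'
    have e : cdbl B2 B4 B6 x - x = - cq B2 B4 B6 x / (4 * cf B2 B4 B6 x) := by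
      rw [cdbl]; ring
    have e2 : cq B2 B4 B6 (cdbl B2 B4 B6 x) / (4 * cf B2 B4 B6 (cdbl B2 B4 B6 x)) =
        - cq B2 B4 B6 x / (4 * cf B2 B4 B6 x) := by
      rw [← e]; linear_combination -h'
    field_simp at e2
    linear_combination e2
  have hx2 : cdbl B2 B4 B6 x = x + (- cq B2 B4 B6 x / (4 * cf B2 B4 B6 x)) := by
    rw [cdbl]; ring
  rw [hx2, cq_taylor, cf_taylor] at h1
  simp only [cR5]
  set f := cf B2 B4 B6 x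
  set q := cq B2 B4 B6 x
  set f1 := cf1 B2 B4 x
  have hLL : (12 * x + B2) = (4 * q + f1 ^ 2) / (4 * f) := by
    field_simp
    linear_combination -hL
  rw [hLL] at h1
  field_simp at h1
  have hf3 : f ^ 3 ≠ 0 := pow_ne_zero _ hf
  linear_combination (-1/4 : F) * h1

end tate

end Fermat.Agent.S51
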