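import Mathlib
import Fermat.Agent.S51.Cubic

set_option autoImplicit false
set_option linter.unusedSectionVars false

namespace Fermat.Agent.S51

open WeierstrassCurve WeierstrassCurve.Affine

variable {F : Type*} [Field F] [DecidableEq F] [CharZero F] (W : WeierstrassCurve F)

lemma cf_eq_sq {x y : F} (h : W.toAffine.Equation x y) :
    cf W.b₂ W.b₄ W.b₆ x = (2 * y + W.a₁ * x + W.a₃) ^ 2 := by
  rw [Affine.equation_iff] at h
  simp only [cf, WeierstrassCurve.b₂, WeierstrassCurve.b₄, WeierstrassCurve.b₆]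
  linear_combination (-4 : F) * h

lemma cf1_eq (x y : F) :
    cf1 W.b₂ W.b₄ x = -4 * (W.a₁ * y - (3 * x ^ 2 + 2 * W.a₂ * x + W.a₄)) +
      2 * W.a₁ * (2 * y + W.a₁ * x + W.a₃) := by
  simp only [cf1, WeierstrassCurve.b₂, WeierstrassCurve.b₄]
  ring

lemma cf1_ne_zero_of_cf_eq_zero {x y : F} (h : W.toAffine.Nonsingular x y)
    (hf : cf W.b₂ W.b₄ W.b₆ x = 0) : cf1 W.b₂ W.b₄ x ≠ 0 := by
  rw [Affine.nonsingular_iff] at h
  obtain ⟨he, hns⟩ := h
  rw [cf_eq_sq W he] at hf
  have hy : 2 * y + W.a₁ * x + W.a₃ = 0 := by simpa using hf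
  rw [cf1_eq W x y, hy]
  have hy' : y = -y - W.a₁ * x - W.a₃ := by linear_combination hy
  rcases hns with h1 | h1
  · intro h0
    apply h1
    linear_combination (-1/4 : F) * h0
  · exact absurd hy' h1

lemma cq_ne_zero_of_cf_eq_zero {x y : F} (h : W.toAffine.Nonsingular x y)
    (hf : cf W.b₂ W.b₄ W.b₆ x = 0) : cq W.b₂ W.b₄ W.b₆ x ≠ 0 := by
  have h1 := cf1_ne_zero_of_cf_eq_zero W h hf
  have h4 := cq_eq W.b₂ W.b₄ W.b₆ x
  rw [hf] at h4
  intro h0
  rw [h0] at h4
  apply h1
  have : cf1 W.b₂ W.b₄ x ^ 2 = 0 := by linear_combination h4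
  simpa using this

end Fermat.Agent.S51

namespace Fermat.Agent.S51

open WeierstrassCurve WeierstrassCurve.Affine

variable {F : Type*} [Field F] [DecidableEq F] [CharZero F] (W : WeierstrassCurve F)

lemma dbl_formula (a1 a2 a3 a4 a6 x y : F)
    (he : y ^ 2 + a1 * x * y + a3 * y = x ^ 3 + a2 * x ^ 2 + a4 * x + a6)
    (hD : 2 * y + a1 * x + a3 ≠ 0) :
    ((3 * x ^ 2 + 2 * a2 * x + a4 - a1 * y) / (2 * y + a1 * x + a3)) ^ 2 +
      a1 * ((3 * x ^ 2 + 2 * a2 * x + a4 - a1 * y) / (2 * y + a1 * x + a3)) - a2 - x - x =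
    x - cq (a1 ^ 2 + 4 * a2) (2 * a4 + a1 * a3) (a3 ^ 2 + 4 * a6) x /
      (4 * (2 * y + a1 * x + a3) ^ 2) := by
  have key : 4 * (3 * x ^ 2 + 2 * a2 * x + a4 - a1 * y) ^ 2 +
      4 * a1 * (3 * x ^ 2 + 2 * a2 * x + a4 - a1 * y) * (2 * y + a1 * x + a3) -
      4 * (a2 + 3 * x) * (2 * y + a1 * x + a3) ^ 2 +
      cq (a1 ^ 2 + 4 * a2) (2 * a4 + a1 * a3) (a3 ^ 2 + 4 * a6) x = 0 := by
    simp only [cq]
    linear_combination (-4 * a1 ^ 2 - 16 * a2 - 48 * x) * he
  set D := 2 * y + a1 * x + a3 with hDdef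
  set N := 3 * x ^ 2 + 2 * a2 * x + a4 - a1 * y with hNdef
  set Q := cq (a1 ^ 2 + 4 * a2) (2 * a4 + a1 * a3) (a3 ^ 2 + 4 * a6) x with hQdef
  field_simp
  linear_combination key

/-- the x-coordinate of a point (`none` for the point at infinity) -/
def px : W.toAffine.Point → Option F
  | .zero => none
  | .some x _ _ => some x

variable {W}

@[simp] lemma px_zero : px W (0 : W.toAffine.Point) = none := rfl

@[simp] lemma px_some {x y : F} (h : W.toAffine.Nonsingular x y) :
    px W (Point.some x y h) = some x := rfl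

lemma px_eq_none_iff {P : W.toAffine.Point} : px W P = none ↔ P = 0 := by
  cases P with
  | zero => exact ⟨fun _ => rfl, fun _ => rfl⟩
  | some x y h => exact ⟨fun h' => (by simp [px] at h'), fun h' => absurd h' (Point.some_ne_zero h)⟩

lemma exists_of_px_eq_some {P : W.toAffine.Point} {x : F} (hP : px W P = some x) :
    ∃ y h, P = Point.some x y h := by
  cases P with
  | zero => simp [px] at hP
  | some x' y h =>
    simp only [px_some, Option.some.injEq] at hP
    subst hP
    exact ⟨y, h, rfl⟩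

@[simp] lemma px_neg (P : W.toAffine.Point) : px W (-P) = px W P := by
  cases P with
  | zero => rfl
  | some x y h => rfl

lemma px_eq_iff {P Q : W.toAffine.Point} : px W P = px W Q ↔ P = Q ∨ P = -Q := by
  constructor
  · intro h
    cases P with
    | zero =>
      have : Q = 0 := px_eq_none_iff.mp h.symm
      subst this; left; rfl
    | some x y hxy =>
      cases Q with
      | zero => simp [← Point.zero_def] at h
      | some x' y' hxy' =>
        simp only [px_some, Option.some.injEq] at h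
        exact Point.X_eq_iff.mp h
  · rintro (rfl | rfl)
    · rfl
    · simp

lemma add_self_eq_zero_iff {P : W.toAffine.Point} {x : F} (hP : px W P = some x) :
    P + P = 0 ↔ cf W.b₂ W.b₄ W.b₆ x = 0 := by
  obtain ⟨y, h, rfl⟩ := exists_of_px_eq_some hP
  rw [cf_eq_sq W h.1]
  constructor
  · intro h0
    by_contra hne
    have hy : y ≠ W.toAffine.negY x y := by
      intro hy
      apply hne
      have : 2 * y + W.a₁ * x + W.a₃ = 0 := by
        simp only [Affine.negY] at hy
        linear_combination hy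
      rw [this]; ring
    rw [Point.add_self_of_Y_ne hy] at h0
    exact Point.some_ne_zero _ h0
  · intro h0
    have h1 : 2 * y + W.a₁ * x + W.a₃ = 0 := by simpa using h0
    apply Point.add_self_of_Y_eq
    simp only [Affine.negY]
    linear_combination h1

lemma px_add_self {P : W.toAffine.Point} {x : F} (hP : px W P = some x)
    (hf : cf W.b₂ W.b₄ W.b₆ x ≠ 0) : px W (P + P) = some (cdbl W.b₂ W.b₄ W.b₆ x) := by
  obtain ⟨y, h, rfl⟩ := exists_of_px_eq_some hP
  have hfe := cf_eq_sq W h.1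
  have hy0 : 2 * y + W.a₁ * x + W.a₃ ≠ 0 := by
    intro h0
    apply hf
    rw [hfe, h0]; ring
  have hy : y ≠ W.toAffine.negY x y := by
    intro hy
    apply hy0
    simp only [Affine.negY] at hy
    linear_combination hy
  rw [Point.add_self_of_Y_ne hy, px_some]
  congr 1
  rw [Affine.slope_of_Y_ne rfl hy]
  have he := (Affine.equation_iff ..).mp h.1
  have := dbl_formula W.a₁ W.a₂ W.a₃ W.a₄ W.a₆ x y he hy0
  simp only [Affine.addX, Affine.negY, cdbl]
  rw [hfe]
  have hd : y - (-y - W.a₁ * x - W.a₃) = 2 * y + W.a₁ * x + W.a₃ := by ring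
  rw [hd]
  simp only [WeierstrassCurve.b₂, WeierstrassCurve.b₄, WeierstrassCurve.b₆]
  exact this

end Fermat.Agent.S51

namespace Fermat.Agent.S51

open WeierstrassCurve WeierstrassCurve.Affine

variable {F : Type*} [Field F] [DecidableEq F] [CharZero F] {W : WeierstrassCurve F}

lemma ne_zero_of_px {P : W.toAffine.Point} {x : F} (hP : px W P = some x) : P ≠ 0 := by
  rintro rfl
  simp at hP

lemma cq_ne_zero_of_cf_eq_zero' {P : W.toAffine.Point} {x : F} (hP : px W P = some x)
    (hf : cf W.b₂ W.b₄ W.b₆ x = 0) : cq W.b₂ W.b₄ W.b₆ x ≠ 0 := by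
  obtain ⟨y, h, rfl⟩ := exists_of_px_eq_some hP
  exact cq_ne_zero_of_cf_eq_zero W h hf

/-- `3 • P = 0` iff `psi_3 (x(P)) = 0`. -/
lemma three_nsmul_eq_zero_iff {P : W.toAffine.Point} {x : F} (hP : px W P = some x) :
    (3 : ℕ) • P = 0 ↔ cq W.b₂ W.b₄ W.b₆ x = 0 := by
  have hP0 := ne_zero_of_px hP
  have h3 : (3 : ℕ) • P = 0 ↔ P + P = -P := by
    rw [show (3 : ℕ) • P = P + P + P by abel]
    exact add_eq_zero_iff_eq_neg
  rw [h3]
  constructor
  · intro h
    have hf : cf W.b₂ W.b₄ W.b₆ x ≠ 0 := by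
      intro hf
      have := (add_self_eq_zero_iff hP).mpr hf
      rw [this] at h
      exact hP0 (neg_eq_zero.mp h.symm)
    have h2 := px_add_self hP hf
    rw [h, px_neg, hP] at h2
    have h2' : x = cdbl W.b₂ W.b₄ W.b₆ x := Option.some.inj h2
    rw [cdbl] at h2'
    have : cq W.b₂ W.b₄ W.b₆ x / (4 * cf W.b₂ W.b₄ W.b₆ x) = 0 := by linear_combination h2'
    rcases div_eq_zero_iff.mp this with h0 | h0
    · exact h0
    · exact absurd h0 (mul_ne_zero (by norm_num) hf)
  · intro hq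
    have hf : cf W.b₂ W.b₄ W.b₆ x ≠ 0 := fun hf => cq_ne_zero_of_cf_eq_zero' hP hf hq
    have h2 := px_add_self hP hf
    have hx : cdbl W.b₂ W.b₄ W.b₆ x = x := by rw [cdbl, hq]; simp
    rw [hx, ← hP] at h2
    rcases px_eq_iff.mp h2 with h | h
    · exact absurd (by simpa using h) hP0
    · exact h

end Fermat.Agent.S51

namespace Fermat.Agent.S51

open WeierstrassCurve WeierstrassCurve.Affine

variable {F : Type*} [Field F] [DecidableEq F] [CharZero F] {W : WeierstrassCurve F}

/-- `5 • P = 0` iff `psi_5 (x(P)) = 0`. -/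
lemma five_nsmul_eq_zero_iff {P : W.toAffine.Point} {x : F} (hP : px W P = some x) :
    (5 : ℕ) • P = 0 ↔ cR5 W.b₂ W.b₄ W.b₆ x = 0 := by
  have hP0 := ne_zero_of_px hP
  constructor
  · intro h5
    have hf : cf W.b₂ W.b₄ W.b₆ x ≠ 0 := by
      intro hf
      have h2 := (add_self_eq_zero_iff hP).mpr hf
      apply hP0
      have : (5 : ℕ) • P = P + (P + P) + (P + P) := by abel
      rw [this, h2] at h5
      simpa using h5
    have h2 := px_add_self hP hf
    have hf2 : cf W.b₂ W.b₄ W.b₆ (cdbl W.b₂ W.b₄ W.b₆ x) ≠ 0 := by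
      intro hf2
      have h4 := (add_self_eq_zero_iff h2).mpr hf2
      apply hP0
      have : (5 : ℕ) • P = P + ((P + P) + (P + P)) := by abel
      rw [this, h4] at h5
      simpa using h5
    have h4 := px_add_self h2 hf2
    have e4 : (P + P) + (P + P) = -P := by
      have : (5 : ℕ) • P = P + ((P + P) + (P + P)) := by abel
      rw [this] at h5
      exact (neg_eq_of_add_eq_zero_right h5).symm ▸ rfl
    rw [e4, px_neg, hP] at h4
    have hdd : cdbl W.b₂ W.b₄ W.b₆ (cdbl W.b₂ W.b₄ W.b₆ x) = x := (Option.some.inj h4).symm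
    have hq : cq W.b₂ W.b₄ W.b₆ x ≠ 0 := by
      intro hq
      have h3 := (three_nsmul_eq_zero_iff hP).mpr hq
      apply hP0
      have : P = (2 : ℕ) • ((3 : ℕ) • P) - (5 : ℕ) • P := by
        rw [← mul_nsmul]; simp only [Nat.reduceMul]
        rw [show (6 : ℕ) • P = (5 : ℕ) • P + P by
          rw [show (6 : ℕ) = 5 + 1 by norm_num, add_nsmul, one_nsmul]]
        abel
      rw [this, h3, h5]; simp
    rcases mul_eq_zero.mp (five_forward hf hf2 hdd) with h | h
    · exact absurd h hq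
    · exact h
  · intro hR
    have hf : cf W.b₂ W.b₄ W.b₆ x ≠ 0 := by
      intro hf
      have hq := cq_ne_zero_of_cf_eq_zero' hP hf
      rw [cR5, hf] at hR
      apply hq
      have : cq W.b₂ W.b₄ W.b₆ x ^ 3 = 0 := by linear_combination hR
      exact pow_eq_zero_iff (by norm_num) |>.mp this
    have hq : cq W.b₂ W.b₄ W.b₆ x ≠ 0 := by
      intro hq
      rw [cR5, hq] at hR
      apply hf
      have : cf W.b₂ W.b₄ W.b₆ x ^ 4 = 0 := by linear_combination (1 / 64 : F) * hR
      exact pow_eq_zero_iff (by norm_num) |>.mp this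
    obtain ⟨hu, hb, -, hf2, -, -, hdd, -⟩ := five_data hf hq hR
    have hf2' : cf W.b₂ W.b₄ W.b₆ (cdbl W.b₂ W.b₄ W.b₆ x) ≠ 0 := by
      rw [hf2]; exact mul_ne_zero (pow_ne_zero _ hu) (pow_ne_zero _ hb)
    have h2 := px_add_self hP hf
    have h4 := px_add_self h2 hf2'
    rw [hdd, ← hP] at h4
    have e5 : (5 : ℕ) • P = P + ((P + P) + (P + P)) := by abel
    rcases px_eq_iff.mp h4 with h | h
    · exfalso
      apply hq
      apply (three_nsmul_eq_zero_iff hP).mp
      have : (3 : ℕ) • P = ((P + P) + (P + P)) - P := by abel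
      rw [this, h]; simp
    · rw [e5, h]; simp

end Fermat.Agent.S51
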