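import Mathlib
import Fermat.Prelude.Def_FLTPrelim_Modularity

set_option autoImplicit false

namespace Fermat.Agent.S51

section GaloisDescent

/-- An element of `ℚ̄` fixed by the absolute Galois group is rational. -/
theorem exists_rat_of_fixed (x : AlgebraicClosure ℚ)
    (h : ∀ σ : AlgebraicClosure ℚ ≃ₐ[ℚ] AlgebraicClosure ℚ, σ x = x) :
    ∃ q : ℚ, algebraMap ℚ (AlgebraicClosure ℚ) q = x := by
  have halg : (DivisionRing.toRatAlgebra : Algebra ℚ (AlgebraicClosure ℚ)) =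
      AlgebraicClosure.instAlgebra ℚ := Subsingleton.elim _ _
  have hcl : IsAlgClosure ℚ (AlgebraicClosure ℚ) := by rw [halg]; infer_instance
  have hgal : IsGalois ℚ (AlgebraicClosure ℚ) := inferInstance
  exact (InfiniteGalois.mem_range_algebraMap_iff_fixed (k := ℚ) (K := AlgebraicClosure ℚ) x).mpr h

end GaloisDescent

section Semistable

open WeierstrassCurve

/-- Semistability at `5`: if `den * c₄³ = num * Δ` with `5 ∣ num`, `5 ∤ den` and `125 ∤ num`,
we get a contradiction. -/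
theorem false_of_five_adic (W : WeierstrassCurve ℤ) (hW : W.IsSemistableModel)
    (num den : ℤ) (hj : den * W.c₄ ^ 3 = num * W.Δ) (h5num : (5 : ℤ) ∣ num)
    (h5den : ¬ (5 : ℤ) ∣ den) (h125 : ¬ (125 : ℤ) ∣ num) : False := by
  have hp : Prime (5 : ℤ) := by norm_num
  -- `5 ∣ c₄`
  have h1 : (5 : ℤ) ∣ den * W.c₄ ^ 3 := hj ▸ Dvd.dvd.mul_right h5num _
  have hc4 : (5 : ℤ) ∣ W.c₄ := by
    rcases hp.dvd_or_dvd h1 with h | h
    · exact absurd h h5den
    · exact hp.dvd_of_dvd_pow h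
  -- hence `125 ∣ num * Δ`, so `5 ∣ Δ`
  have h2 : (125 : ℤ) ∣ num * W.Δ := by
    rw [← hj]
    obtain ⟨k, hk⟩ := hc4
    exact ⟨den * k ^ 3, by rw [hk]; ring⟩
  have hΔ5 : (5 : ℤ) ∣ W.Δ := by
    by_contra hnot
    -- then `5^3 ∣ num`
    have hcop : IsCoprime (125 : ℤ) W.Δ := by
      have : IsCoprime (5 : ℤ) W.Δ := (hp.coprime_iff_not_dvd).mpr hnot
      have h3 : (125 : ℤ) = 5 ^ 3 := by norm_num
      rw [h3]
      exact this.pow_left
    exact h125 (hcop.dvd_of_dvd_mul_right h2)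
  exact hW 5 (by norm_num) (by exact_mod_cast hΔ5) (by exact_mod_cast hc4)

/-- The four `j`-invariants of the non-cuspidal rational points of `X₀(15)` are excluded by
semistability. -/
theorem false_of_j (W : WeierstrassCurve ℤ) (hW : W.IsSemistableModel)
    (num den : ℤ) (hj : den * W.c₄ ^ 3 = num * W.Δ)
    (h : (num = -25 ∧ den = 2) ∨ (num = -349938025 ∧ den = 8) ∨ (num = -121945 ∧ den = 32) ∨
      (num = 46969655 ∧ den = 32768)) : False := by
  rcases h with ⟨rfl, rfl⟩ | ⟨rfl, rfl⟩ | ⟨rfl, rfl⟩ | ⟨rfl, rfl⟩ <;>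
    exact false_of_five_adic W hW _ _ hj (by norm_num) (by norm_num) (by norm_num)

end Semistable

end Fermat.Agent.S51
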