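import Mathlib
import Fermat.Agent.S51.GroupLaw

set_option autoImplicit false
set_option linter.unusedSectionVars false

namespace Fermat.Agent.S51

open WeierstrassCurve WeierstrassCurve.Affine Polynomial

variable {F : Type*} [Field F] [DecidableEq F] [CharZero F]

/-- If the x-coordinates of the nonzero `n`-torsion points are roots of a nonzero polynomial of
degree `≤ d`, then there are at most `2 d + 1` such points. -/
theorem torsion_finite_card_le (W : WeierstrassCurve F) (n d : ℕ) (p : Polynomial F) (hp : p ≠ 0)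
    (hd : p.natDegree ≤ d)
    (h : ∀ (P : W.toAffine.Point) (x : F), n • P = 0 → px W P = some x → p.eval x = 0) :
    Finite (Submodule.torsionBy ℤ W.toAffine.Point n) ∧
      Nat.card (Submodule.torsionBy ℤ W.toAffine.Point n) ≤ 2 * d + 1 := by
  classical
  have hmemT : ∀ P : Submodule.torsionBy ℤ W.toAffine.Point n,
      n • (P : W.toAffine.Point) = 0 := by
    intro P
    have h1 := P.2
    rw [Submodule.mem_torsionBy_iff] at h1
    rw [← natCast_zsmul]
    exact h1
  let Q : F → W.toAffine.Point := fun x =>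
    if hx : ∃ P : W.toAffine.Point, n • P = 0 ∧ px W P = some x then hx.choose else 0
  have hQ : ∀ (P : W.toAffine.Point) (x : F), n • P = 0 → px W P = some x →
      P = Q x ∨ P = - Q x := by
    intro P x hP hx
    have hex : ∃ P : W.toAffine.Point, n • P = 0 ∧ px W P = some x := ⟨P, hP, hx⟩
    have hQx : px W (Q x) = some x := by
      simp only [Q, dif_pos hex]
      exact hex.choose_spec.2
    exact px_eq_iff.mp (hx.trans hQx.symm)
  let f : W.toAffine.Point → Option (F × Bool) := fun P =>
    (px W P).map (fun x => (x, decide (P = Q x)))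
  let A : Finset (Option (F × Bool)) :=
    Finset.insertNone (p.roots.toFinset ×ˢ (Finset.univ : Finset Bool))
  have hfA : ∀ P : Submodule.torsionBy ℤ W.toAffine.Point n, f (P : W.toAffine.Point) ∈ A := by
    intro P
    rcases hpx : px W (P : W.toAffine.Point) with _ | x
    · simp [f, A, hpx]
    · have hroot : p.eval x = 0 := h P x (hmemT P) hpx
      simp only [f, A, hpx, Option.map_some, Finset.mem_insertNone, Option.mem_def,
        Option.some.injEq, forall_eq', Finset.mem_product, Multiset.mem_toFinset,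
        Finset.mem_univ, and_true]
      exact (mem_roots hp).mpr hroot
  let g : Submodule.torsionBy ℤ W.toAffine.Point n → A := fun P => ⟨f P, hfA P⟩
  have hg : Function.Injective g := by
    intro P P' hPP'
    have hff : f (P : W.toAffine.Point) = f (P' : W.toAffine.Point) := congrArg Subtype.val hPP'
    apply Subtype.ext
    rcases hpx : px W (P : W.toAffine.Point) with _ | x
    · have h0 : (P : W.toAffine.Point) = 0 := px_eq_none_iff.mp hpx
      rcases hpx' : px W (P' : W.toAffine.Point) with _ | x'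
      · have h0' : (P' : W.toAffine.Point) = 0 := px_eq_none_iff.mp hpx'
        rw [h0, h0']
      · simp [f, hpx, hpx'] at hff
    · rcases hpx' : px W (P' : W.toAffine.Point) with _ | x'
      · simp [f, hpx, hpx'] at hff
      · simp only [f, hpx, hpx', Option.map_some, Option.some.injEq, Prod.mk.injEq] at hff
        obtain ⟨hxx, hdec⟩ := hff
        subst hxx
        rcases hQ P x (hmemT P) hpx with h1 | h1
        · have : (P' : W.toAffine.Point) = Q x := by
            have : decide ((P : W.toAffine.Point) = Q x) = true := decide_eq_true h1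
            rw [this] at hdec
            exact of_decide_eq_true hdec.symm
          rw [h1, this]
        · by_cases hPQ : (P : W.toAffine.Point) = Q x
          · have : (P' : W.toAffine.Point) = Q x := by
              have : decide ((P : W.toAffine.Point) = Q x) = true := decide_eq_true hPQ
              rw [this] at hdec
              exact of_decide_eq_true hdec.symm
            rw [hPQ, this]
          · have hP'Q : (P' : W.toAffine.Point) ≠ Q x := by
              intro hP'Q
              have : decide ((P' : W.toAffine.Point) = Q x) = true := decide_eq_true hP'Q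
              rw [this] at hdec
              exact hPQ (of_decide_eq_true hdec)
            rcases hQ P' x (hmemT P') hpx' with h2 | h2
            · exact absurd h2 hP'Q
            · rw [h1, h2]
  have hfin : Finite (Submodule.torsionBy ℤ W.toAffine.Point n) := Finite.of_injective g hg
  refine ⟨hfin, ?_⟩
  have h1 : Nat.card (Submodule.torsionBy ℤ W.toAffine.Point n) ≤ Nat.card A :=
    Nat.card_le_card_of_injective g hg
  have h2 : Nat.card A = A.card := by
    rw [Nat.card_eq_fintype_card, Fintype.card_coe]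
  have h3 : A.card = p.roots.toFinset.card * 2 + 1 := by
    simp only [A, Finset.card_insertNone, Finset.card_product, Finset.card_univ, Fintype.card_bool]
  have h4 : p.roots.toFinset.card ≤ d :=
    (Multiset.toFinset_card_le _).trans ((card_roots' p).trans hd)
  omega


section polys

variable (B2 B4 B6 : F)

/-- polynomial whose evaluation is `cq` -/
noncomputable def torsPoly3 : F[X] :=
  C 12 * X ^ 4 + C (4 * B2) * X ^ 3 + C (12 * B4) * X ^ 2 + C (12 * B6) * X +
    C (B2 * B6 - B4 ^ 2)

lemma eval_torsPoly3 (x : F) : (torsPoly3 B2 B4 B6).eval x = cq B2 B4 B6 x := by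
  simp [torsPoly3, cq]

lemma natDegree_torsPoly3_le : (torsPoly3 B2 B4 B6).natDegree ≤ 4 := by
  unfold torsPoly3
  compute_degree

lemma torsPoly3_ne_zero : torsPoly3 B2 B4 B6 ≠ 0 := by
  intro h
  have h1 := congrArg (fun q : F[X] => q.coeff 4) h
  simp only [torsPoly3, coeff_add, coeff_C_mul_X_pow, coeff_C_mul_X, coeff_C, coeff_zero] at h1
  norm_num at h1

/-- polynomial whose evaluation is `cR5` -/
noncomputable def torsPoly5 : F[X] :=
  C (-320) * X ^ 12 +
    C (-320*B2) * X ^ 11 +
    C (-64*B2^2 - 1984*B4) * X ^ 10 +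
    C (-640*B2*B4 - 6080*B6) * X ^ 9 +
    C (-4560*B2*B6 + 1680*B4^2) * X ^ 8 +
    C (-1440*B2^2*B6 + 1440*B2*B4^2 - 1920*B4*B6) * X ^ 7 +
    C (-240*B2^3*B6 + 240*B2^2*B4^2 - 1440*B2*B4*B6 + 2400*B4^3 + 960*B6^2) * X ^ 6 +
    C (-16*B2^4*B6 + 16*B2^3*B4^2 - 672*B2^2*B4*B6 + 736*B2*B4^3 + 480*B2*B6^2 + 2784*B4^2*B6) * X ^ 5 +
    C (-80*B2^3*B4*B6 + 80*B2^2*B4^3 - 60*B2^2*B6^2 - 120*B2*B4^2*B6 + 500*B4^4 + 3840*B4*B6^2) * X ^ 4 +
    C (-20*B2^3*B6^2 - 120*B2^2*B4^2*B6 + 140*B2*B4^4 + 480*B2*B4*B6^2 + 160*B4^3*B6 + 1600*B6^3) * X ^ 3 +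
    C (-60*B2^2*B4*B6^2 - 40*B2*B4^3*B6 + 400*B2*B6^3 + 100*B4^5 + 240*B4^2*B6^2) * X ^ 2 +
    C (20*B2^2*B6^3 - 120*B2*B4^2*B6^2 + 100*B4^4*B6 + 320*B4*B6^3) * X +
    C (B2^3*B6^3 - 3*B2^2*B4^2*B6^2 + 3*B2*B4^4*B6 - 16*B2*B4*B6^3 - B4^6 + 16*B4^3*B6^2 + 64*B6^4)

lemma eval_torsPoly5 (x : F) : (torsPoly5 B2 B4 B6).eval x = cR5 B2 B4 B6 x := by
  simp only [torsPoly5, cR5, cf, cf1, cq, eval_add, eval_mul, eval_C, eval_pow, eval_X]
  ring

lemma natDegree_torsPoly5_le : (torsPoly5 B2 B4 B6).natDegree ≤ 12 := by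
  unfold torsPoly5
  compute_degree

lemma torsPoly5_ne_zero : torsPoly5 B2 B4 B6 ≠ 0 := by
  intro h
  have h1 := congrArg (fun q : F[X] => q.coeff 12) h
  simp only [torsPoly5, coeff_add, coeff_C_mul_X_pow, coeff_C_mul_X, coeff_C, coeff_zero] at h1
  norm_num at h1

end polys

/-- at most `9` points of order dividing `3` -/
theorem card_three_le (W : WeierstrassCurve F) :
    Finite (Submodule.torsionBy ℤ W.toAffine.Point 3) ∧
      Nat.card (Submodule.torsionBy ℤ W.toAffine.Point 3) ≤ 9 := by
  have h := torsion_finite_card_le W 3 4 (torsPoly3 W.b₂ W.b₄ W.b₆) (torsPoly3_ne_zero _ _ _)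
    (natDegree_torsPoly3_le _ _ _) (fun P x hP hx => by
      rw [eval_torsPoly3]; exact (three_nsmul_eq_zero_iff hx).mp hP)
  simpa using h

/-- at most `25` points of order dividing `5` -/
theorem card_five_le (W : WeierstrassCurve F) :
    Finite (Submodule.torsionBy ℤ W.toAffine.Point 5) ∧
      Nat.card (Submodule.torsionBy ℤ W.toAffine.Point 5) ≤ 25 := by
  have h := torsion_finite_card_le W 5 12 (torsPoly5 W.b₂ W.b₄ W.b₆) (torsPoly5_ne_zero _ _ _)
    (natDegree_torsPoly5_le _ _ _) (fun P x hP hx => by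
      rw [eval_torsPoly5]; exact (five_nsmul_eq_zero_iff hx).mp hP)
  simpa using h

end Fermat.Agent.S51
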