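import Mathlib
import Fermat.Agent.S51.GroupLaw

set_option autoImplicit false
set_option linter.unusedSectionVars false

/-!
T2c of the S51 blueprint: over an algebraically closed field of characteristic zero, a
Weierstrass curve with `Δ ≠ 0` has nonzero points of order `3` and of order `5`.
-/

namespace Fermat.Agent.S51

open WeierstrassCurve WeierstrassCurve.Affine Polynomial

namespace Exists

variable {F : Type*} [Field F]

/-- the two-division cubic as a polynomial -/
noncomputable def fPoly (B2 B4 B6 : F) : F[X] := C 4 * X ^ 3 + C B2 * X ^ 2 + C (2 * B4) * X + C B6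

/-- its derivative as a polynomial -/
noncomputable def f1Poly (B2 B4 : F) : F[X] := C 12 * X ^ 2 + C (2 * B2) * X + C (2 * B4)

/-- `4 * psi_3` as a polynomial -/
noncomputable def qPoly (B2 B4 B6 : F) : F[X] :=
  C 12 * X ^ 4 + C (4 * B2) * X ^ 3 + C (12 * B4) * X ^ 2 + C (12 * B6) * X + C (B2 * B6 - B4 ^ 2)

/-- `-64 * psi_5` as a polynomial -/
noncomputable def r5Poly (B2 B4 B6 : F) : F[X] :=
  C 64 * fPoly B2 B4 B6 ^ 4 - C 8 * f1Poly B2 B4 * qPoly B2 B4 B6 * fPoly B2 B4 B6 ^ 2 +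
    qPoly B2 B4 B6 ^ 3

/-- the Weierstrass quadratic in `Y` for a given `x` -/
noncomputable def yPoly (a1 a2 a3 a4 a6 x : F) : F[X] :=
  X ^ 2 + C (a1 * x + a3) * X - C (x ^ 3 + a2 * x ^ 2 + a4 * x + a6)

lemma eval_fPoly (B2 B4 B6 x : F) : (fPoly B2 B4 B6).eval x = cf B2 B4 B6 x := by
  simp only [fPoly, cf, eval_add, eval_mul, eval_C, eval_pow, eval_X]

lemma eval_f1Poly (B2 B4 x : F) : (f1Poly B2 B4).eval x = cf1 B2 B4 x := by
  simp only [f1Poly, cf1, eval_add, eval_mul, eval_C, eval_pow, eval_X]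

lemma eval_qPoly (B2 B4 B6 x : F) : (qPoly B2 B4 B6).eval x = cq B2 B4 B6 x := by
  simp only [qPoly, cq, eval_add, eval_mul, eval_C, eval_pow, eval_X]

lemma eval_r5Poly (B2 B4 B6 x : F) : (r5Poly B2 B4 B6).eval x = cR5 B2 B4 B6 x := by
  simp only [r5Poly, cR5, eval_add, eval_sub, eval_mul, eval_C, eval_pow, eval_fPoly,
    eval_f1Poly, eval_qPoly]

lemma degree_qPoly [CharZero F] (B2 B4 B6 : F) : (qPoly B2 B4 B6).degree = 4 := by
  unfold qPoly
  compute_degree!

lemma degree_r5Poly [CharZero F] (B2 B4 B6 : F) : (r5Poly B2 B4 B6).degree = 12 := by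
  unfold r5Poly fPoly f1Poly qPoly
  compute_degree!

lemma degree_yPoly (a1 a2 a3 a4 a6 x : F) : (yPoly a1 a2 a3 a4 a6 x).degree = 2 := by
  unfold yPoly
  compute_degree!

end Exists

variable {F : Type*} [Field F] [DecidableEq F] [CharZero F] [IsAlgClosed F]

/-- Over an algebraically closed field every `x` is the `x`-coordinate of a point. -/
theorem exists_point_of_x (W : WeierstrassCurve F) (hΔ : W.Δ ≠ 0) (x : F) :
    ∃ P : W.toAffine.Point, px W P = some x := by
  obtain ⟨y, hy⟩ := IsAlgClosed.exists_root (Exists.yPoly W.a₁ W.a₂ W.a₃ W.a₄ W.a₆ x) (by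
    rw [Exists.degree_yPoly]; norm_num)
  have he : W.toAffine.Equation x y := by
    rw [Affine.equation_iff]
    simp only [Exists.yPoly, IsRoot.def, eval_sub, eval_add, eval_pow, eval_X, eval_mul,
      eval_C] at hy
    linear_combination hy
  have hns : W.toAffine.Nonsingular x y :=
    (W.toAffine.equation_iff_nonsingular_of_Δ_ne_zero hΔ).mp he
  exact ⟨Point.some x y hns, rfl⟩

/-- T2c: existence of nonzero `3`- and `5`-torsion points. -/
theorem exists_torsion_point (W : WeierstrassCurve F) (hΔ : W.Δ ≠ 0) (n : ℕ)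
    (hn : n = 3 ∨ n = 5) : ∃ P : W.toAffine.Point, P ≠ 0 ∧ n • P = 0 := by
  rcases hn with rfl | rfl
  · obtain ⟨x, hx⟩ := IsAlgClosed.exists_root (Exists.qPoly W.b₂ W.b₄ W.b₆) (by
      rw [Exists.degree_qPoly]; norm_num)
    rw [IsRoot.def, Exists.eval_qPoly] at hx
    obtain ⟨P, hP⟩ := exists_point_of_x W hΔ x
    exact ⟨P, ne_zero_of_px hP, (three_nsmul_eq_zero_iff hP).mpr hx⟩
  · obtain ⟨x, hx⟩ := IsAlgClosed.exists_root (Exists.r5Poly W.b₂ W.b₄ W.b₆) (by
      rw [Exists.degree_r5Poly]; norm_num)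
    rw [IsRoot.def, Exists.eval_r5Poly] at hx
    obtain ⟨P, hP⟩ := exists_point_of_x W hΔ x
    exact ⟨P, ne_zero_of_px hP, (five_nsmul_eq_zero_iff hP).mpr hx⟩

end Fermat.Agent.S51
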