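import Mathlib

set_option autoImplicit false

namespace Fermat.Agent.S51

namespace Selmer81

/-- If `P * Q` is a nonzero square and `P`, `Q` are coprime, then both are `±` squares with the
same sign. -/
theorem sq_classes_of_coprime {P Q k : ℤ} (hk : k ≠ 0) (h : P * Q = k ^ 2)
    (hcop : IsCoprime P Q) :
    ∃ (ε : ℤ) (s t : ℤ), (ε = 1 ∨ ε = -1) ∧ P = ε * s ^ 2 ∧ Q = ε * t ^ 2 := by
  obtain ⟨s, hs⟩ := Int.sq_of_isCoprime hcop h
  obtain ⟨t, ht⟩ := Int.sq_of_isCoprime hcop.symm (by rw [mul_comm]; exact h)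
  have hpos : 0 < P * Q := by rw [h]; positivity
  rcases hs with hs | hs <;> rcases ht with ht | ht
  · exact ⟨1, s, t, Or.inl rfl, by rw [hs]; ring, by rw [ht]; ring⟩
  · exfalso
    rw [hs, ht] at hpos
    nlinarith [sq_nonneg (s * t)]
  · exfalso
    rw [hs, ht] at hpos
    nlinarith [sq_nonneg (s * t)]
  · exact ⟨-1, s, t, Or.inr rfl, by rw [hs]; ring, by rw [ht]; ring⟩

/-- If `P * Q` is a nonzero square and `gcd P Q ∣ 5`, then `P = δ s²`, `Q = δ t²` with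
`δ ∈ {±1, ±5}`. -/
theorem sq_classes_of_gcd_dvd_five {P Q k : ℤ} (hk : k ≠ 0) (h : P * Q = k ^ 2)
    (hg : Int.gcd P Q ∣ 5) :
    ∃ (δ : ℤ) (s t : ℤ), (δ = 1 ∨ δ = -1 ∨ δ = 5 ∨ δ = -5) ∧ P = δ * s ^ 2 ∧ Q = δ * t ^ 2 := by
  rcases (Nat.dvd_prime (by norm_num : Nat.Prime 5)).mp hg with h1 | h5
  · obtain ⟨ε, s, t, hε, hP, hQ⟩ :=
      sq_classes_of_coprime hk h (Int.isCoprime_iff_gcd_eq_one.mpr h1)
    rcases hε with rfl | rfl
    · exact ⟨1, s, t, Or.inl rfl, hP, hQ⟩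
    · exact ⟨-1, s, t, Or.inr (Or.inl rfl), hP, hQ⟩
  · have hP5 : (5 : ℤ) ∣ P := by
      have := Int.gcd_dvd_left P Q
      rw [h5] at this; exact_mod_cast this
    have hQ5 : (5 : ℤ) ∣ Q := by
      have := Int.gcd_dvd_right P Q
      rw [h5] at this; exact_mod_cast this
    obtain ⟨P', rfl⟩ := hP5
    obtain ⟨Q', rfl⟩ := hQ5
    have h5k : (5 : ℤ) ∣ k := by
      have h25 : (5 : ℤ) ∣ k ^ 2 := ⟨5 * P' * Q', by rw [← h]; ring⟩
      exact Int.Prime.dvd_pow' (by norm_num : Nat.Prime 5) h25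
    obtain ⟨k', rfl⟩ := h5k
    have hk' : k' ≠ 0 := by rintro rfl; simp at hk
    have h' : P' * Q' = k' ^ 2 := by
      have : (25 : ℤ) * (P' * Q') = 25 * k' ^ 2 := by linarith [h, (by ring : 5 * P' * (5 * Q') = 25 * (P' * Q')), (by ring : (5 * k') ^ 2 = 25 * k' ^ 2)]
      linarith
    have hcop : IsCoprime P' Q' := by
      rw [Int.isCoprime_iff_gcd_eq_one]
      have : Int.gcd (5 * P') (5 * Q') = 5 * Int.gcd P' Q' := by
        rw [Int.gcd_mul_left]; simp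
      rw [this] at h5
      omega
    obtain ⟨ε, s, t, hε, hP, hQ⟩ := sq_classes_of_coprime hk' h' hcop
    rcases hε with rfl | rfl
    · exact ⟨5, s, t, Or.inr (Or.inr (Or.inl rfl)), by rw [hP]; ring, by rw [hQ]; ring⟩
    · exact ⟨-5, s, t, Or.inr (Or.inr (Or.inr rfl)), by rw [hP]; ring, by rw [hQ]; ring⟩


/-- Integral form of a rational point with `Y ≠ 0` on `Y² = X(X-1)(X-81)`. -/
theorem exists_int_form (X Y : ℚ) (hY : Y ≠ 0) (h : Y ^ 2 = X * (X - 1) * (X - 81)) :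
    ∃ (m e n : ℤ), 0 < e ∧ IsCoprime m e ∧ n ≠ 0 ∧ X = (m : ℚ) / (e : ℚ) ^ 2 ∧
      m * (m - e ^ 2) * (m - 81 * e ^ 2) = n ^ 2 := by
  set p : ℤ := X.num with hp
  set q : ℤ := (X.den : ℤ) with hq
  have hqpos : 0 < q := by rw [hq]; exact_mod_cast X.den_pos
  have hqne : (q : ℚ) ≠ 0 := by exact_mod_cast hqpos.ne'
  have hX : X = (p : ℚ) / (q : ℚ) := by
    rw [hp, hq]; push_cast; exact (Rat.num_div_den X).symm
  have hcop : IsCoprime p q := by
    rw [Int.isCoprime_iff_gcd_eq_one, hp, hq]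
    have := X.reduced
    simpa [Int.gcd, Nat.Coprime] using this
  -- the integer `p (p - q) (p - 81 q) q` is a square
  have hsqQ : ((p * (p - q) * (p - 81 * q) * q : ℤ) : ℚ) = (Y * (q : ℚ) ^ 2) ^ 2 := by
    rw [mul_pow, h, hX]
    push_cast
    field_simp
  have hsq : IsSquare (p * (p - q) * (p - 81 * q) * q : ℤ) := by
    rw [← Rat.isSquare_intCast_iff, hsqQ]
    exact ⟨Y * (q : ℚ) ^ 2, by ring⟩
  obtain ⟨k, hk⟩ := hsq
  have hcop' : IsCoprime q (p * (p - q) * (p - 81 * q)) := by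
    have h1 : IsCoprime q p := hcop.symm
    have h2 : IsCoprime q (p - q) := by
      have := (IsCoprime.add_mul_left_right h1 (-1))
      simpa [sub_eq_add_neg] using this
    have h3 : IsCoprime q (p - 81 * q) := by
      have := (IsCoprime.add_mul_left_right h1 (-81))
      have e : p + q * -81 = p - 81 * q := by ring
      rwa [e] at this
    exact (h1.mul_right h2).mul_right h3
  have hkk : q * (p * (p - q) * (p - 81 * q)) = k ^ 2 := by rw [sq, ← hk]; ring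
  obtain ⟨a, ha⟩ := Int.sq_of_isCoprime hcop' hkk
  have hqa : q = a ^ 2 := by
    rcases ha with ha | ha
    · exact ha
    · exfalso; nlinarith [sq_nonneg a]
  have hane : a ≠ 0 := by rintro rfl; simp at hqa; omega
  set e : ℤ := |a| with he
  have hepos : 0 < e := abs_pos.mpr hane
  have hqe : q = e ^ 2 := by rw [he, sq_abs]; exact hqa
  have hdvd : e ∣ k := by
    have : e ^ 2 ∣ k ^ 2 := ⟨p * (p - q) * (p - 81 * q), by rw [← hkk, hqe]⟩
    exact (Int.pow_dvd_pow_iff two_ne_zero).mp this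
  obtain ⟨n, rfl⟩ := hdvd
  have hmain : p * (p - e ^ 2) * (p - 81 * e ^ 2) = n ^ 2 := by
    have he2 : (e ^ 2 : ℤ) ≠ 0 := pow_ne_zero _ hepos.ne'
    apply mul_left_cancel₀ he2
    rw [← hqe]
    calc q * (p * (p - q) * (p - 81 * q)) = (e * n) ^ 2 := hkk
      _ = e ^ 2 * n ^ 2 := by ring
      _ = q * n ^ 2 := by rw [hqe]
  refine ⟨p, e, n, hepos, ?_, ?_, ?_, hmain⟩
  · have : IsCoprime p (e ^ 2) := hqe ▸ hcop
    exact IsCoprime.of_mul_right_left (by rwa [sq] at this)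
  · rintro rfl
    apply hY
    have hz : (p : ℚ) * (p - q) * (p - 81 * q) = 0 := by
      have h2 : p * (p - q) * (p - 81 * q) = 0 := by rw [hqe, hmain]; ring
      exact_mod_cast h2
    have h0 : X * (X - 1) * (X - 81) = 0 := by
      rw [hX]
      field_simp
      linear_combination hz
    rw [← h] at h0
    exact pow_eq_zero_iff (two_ne_zero) |>.mp h0
  · rw [hX, hqe]; push_cast; ring


theorem exists_sq_of_coprime_pos {a b c : ℤ} (ha : 0 < a) (hc : IsCoprime a b)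
    (h : a * b = c ^ 2) : ∃ U : ℤ, 0 < U ∧ a = U ^ 2 := by
  obtain ⟨U, hU⟩ := Int.sq_of_isCoprime hc h
  rcases hU with hU | hU
  · have hUne : U ≠ 0 := by rintro rfl; simp at hU; omega
    exact ⟨|U|, abs_pos.mpr hUne, by rw [sq_abs]; exact hU⟩
  · exfalso; nlinarith [sq_nonneg U]

theorem pos_of_eq {m e n : ℤ} (he : 0 < e) (hn : n ≠ 0)
    (h : m * (m - e ^ 2) * (m - 81 * e ^ 2) = n ^ 2) : 0 < m := by
  by_contra hm
  have hm := not_lt.mp hm
  have hn2 : 0 < n ^ 2 := by positivity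
  have he2 : 0 < e ^ 2 := by positivity
  have h1 : m - e ^ 2 < 0 := by linarith
  have h2 : m - 81 * e ^ 2 < 0 := by linarith
  have h3 : 0 ≤ (m - e ^ 2) * (m - 81 * e ^ 2) := by nlinarith
  have h4 : m * ((m - e ^ 2) * (m - 81 * e ^ 2)) ≤ 0 := by nlinarith
  nlinarith

theorem mod_three_contra {a b c : ZMod 3} (hb : b ≠ 0) (hc : c ≠ 0)
    (h : a ^ 2 = -(b ^ 2 * c ^ 2)) : False := by
  revert a b c; decide

/-- The numerator `m` of `X` is a perfect square. -/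
theorem numerator_isSquare {m e n : ℤ} (he : 0 < e) (hcop : IsCoprime m e) (hn : n ≠ 0)
    (h : m * (m - e ^ 2) * (m - 81 * e ^ 2) = n ^ 2) : ∃ U : ℤ, 0 < U ∧ m = U ^ 2 := by
  have hm : 0 < m := pos_of_eq he hn h
  have hcop2 : IsCoprime m (e ^ 2) := hcop.pow_right
  by_cases h3 : (3 : ℤ) ∣ m
  swap
  · -- `3 ∤ m`
    have hc3 : IsCoprime m 3 := by
      rw [isCoprime_comm]
      exact (Int.prime_three.coprime_iff_not_dvd).mpr h3
    have hc81 : IsCoprime m (81 * e ^ 2) := by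
      have : IsCoprime m ((3 : ℤ) ^ 4) := hc3.pow_right
      exact IsCoprime.mul_right (by norm_num at this ⊢; exact this) hcop2
    have h1 : IsCoprime m (m - e ^ 2) := by
      have := IsCoprime.add_mul_left_right hcop2.neg_right 1
      simpa [sub_eq_add_neg, add_comm] using this
    have h2 : IsCoprime m (m - 81 * e ^ 2) := by
      have := IsCoprime.add_mul_left_right hc81.neg_right 1
      simpa [sub_eq_add_neg, add_comm] using this
    exact exists_sq_of_coprime_pos hm (h1.mul_right h2) (by rw [← h]; ring)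
  -- `3 ∣ m`, so `3 ∤ e`
  have h3e : ¬ (3 : ℤ) ∣ e := by
    intro h3e
    have : IsUnit (3 : ℤ) := hcop.isUnit_of_dvd' h3 h3e
    rw [Int.isUnit_iff] at this
    omega
  have he3 : ((e : ℤ) : ZMod 3) ≠ 0 := by
    rwa [Ne, ZMod.intCast_zmod_eq_zero_iff_dvd]
  obtain ⟨a, rfl⟩ := h3
  by_cases h9 : (3 : ℤ) ∣ a
  swap
  · -- `3 ∥ m`: contradiction
    exfalso
    have ha3 : ((a : ℤ) : ZMod 3) ≠ 0 := by
      rwa [Ne, ZMod.intCast_zmod_eq_zero_iff_dvd]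
    have hdvd : (3 : ℤ) ^ 2 ∣ n ^ 2 :=
      ⟨a * (3 * a - e ^ 2) * (a - 27 * e ^ 2), by rw [← h]; ring⟩
    obtain ⟨n₁, rfl⟩ := (Int.pow_dvd_pow_iff two_ne_zero).mp hdvd
    have h' : a * (3 * a - e ^ 2) * (a - 27 * e ^ 2) = n₁ ^ 2 := by
      have : (9 : ℤ) * (a * (3 * a - e ^ 2) * (a - 27 * e ^ 2)) = 9 * n₁ ^ 2 := by
        linear_combination h
      linarith
    have hz := congrArg (Int.cast : ℤ → ZMod 3) h'
    push_cast at hz
    have e3 : (3 : ZMod 3) = 0 := by decide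
    have e27 : (27 : ZMod 3) = 0 := by decide
    rw [e3, e27] at hz
    apply mod_three_contra ha3 he3 (a := (n₁ : ZMod 3))
    rw [← hz]; ring
  obtain ⟨b, rfl⟩ := h9
  by_cases h27 : (3 : ℤ) ∣ b
  swap
  · -- `9 ∥ m`
    have hcb : IsCoprime b e := hcop.of_mul_left_right.of_mul_left_right
    have hcb2 : IsCoprime b (e ^ 2) := hcb.pow_right
    have hc3 : IsCoprime b 3 := by
      rw [isCoprime_comm]
      exact (Int.prime_three.coprime_iff_not_dvd).mpr h27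
    have hdvd : (9 : ℤ) ^ 2 ∣ n ^ 2 :=
      ⟨b * (9 * b - e ^ 2) * (b - 9 * e ^ 2), by rw [← h]; ring⟩
    obtain ⟨n₁, rfl⟩ := (Int.pow_dvd_pow_iff two_ne_zero).mp hdvd
    have h' : b * ((9 * b - e ^ 2) * (b - 9 * e ^ 2)) = n₁ ^ 2 := by
      have : (81 : ℤ) * (b * ((9 * b - e ^ 2) * (b - 9 * e ^ 2))) = 81 * n₁ ^ 2 := by
        linear_combination h
      linarith
    have hb : 0 < b := by omega
    have h1 : IsCoprime b (9 * b - e ^ 2) := by
      have := IsCoprime.add_mul_left_right hcb2.neg_right 9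
      have e1 : -e ^ 2 + b * 9 = 9 * b - e ^ 2 := by ring
      rwa [e1] at this
    have h2 : IsCoprime b (b - 9 * e ^ 2) := by
      have h9e : IsCoprime b (9 * e ^ 2) := by
        have : IsCoprime b ((3 : ℤ) ^ 2) := hc3.pow_right
        exact IsCoprime.mul_right (by norm_num at this ⊢; exact this) hcb2
      have := IsCoprime.add_mul_left_right h9e.neg_right 1
      have e1 : -(9 * e ^ 2) + b * 1 = b - 9 * e ^ 2 := by ring
      rwa [e1] at this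
    obtain ⟨U, hU, hbU⟩ := exists_sq_of_coprime_pos hb (h1.mul_right h2) h'
    exact ⟨3 * U, by omega, by rw [hbU]; ring⟩
  obtain ⟨c, rfl⟩ := h27
  by_cases h81 : (3 : ℤ) ∣ c
  swap
  · -- `27 ∥ m`: contradiction
    exfalso
    have hc3 : ((c : ℤ) : ZMod 3) ≠ 0 := by
      rwa [Ne, ZMod.intCast_zmod_eq_zero_iff_dvd]
    have hdvd : (27 : ℤ) ^ 2 ∣ n ^ 2 :=
      ⟨c * (27 * c - e ^ 2) * (c - 3 * e ^ 2), by rw [← h]; ring⟩
    obtain ⟨n₁, rfl⟩ := (Int.pow_dvd_pow_iff two_ne_zero).mp hdvd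
    have h' : c * (27 * c - e ^ 2) * (c - 3 * e ^ 2) = n₁ ^ 2 := by
      have : (729 : ℤ) * (c * (27 * c - e ^ 2) * (c - 3 * e ^ 2)) = 729 * n₁ ^ 2 := by
        linear_combination h
      linarith
    have hz := congrArg (Int.cast : ℤ → ZMod 3) h'
    push_cast at hz
    have e3 : (3 : ZMod 3) = 0 := by decide
    have e27 : (27 : ZMod 3) = 0 := by decide
    rw [e3, e27] at hz
    apply mod_three_contra hc3 he3 (a := (n₁ : ZMod 3))
    rw [← hz]; ring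
  obtain ⟨d, rfl⟩ := h81
  -- `81 ∣ m`
  have hcd : IsCoprime d e :=
    hcop.of_mul_left_right.of_mul_left_right.of_mul_left_right.of_mul_left_right
  have hcd2 : IsCoprime d (e ^ 2) := hcd.pow_right
  have hdvd : (81 : ℤ) ^ 2 ∣ n ^ 2 :=
    ⟨d * (81 * d - e ^ 2) * (d - e ^ 2), by rw [← h]; ring⟩
  obtain ⟨n₁, rfl⟩ := (Int.pow_dvd_pow_iff two_ne_zero).mp hdvd
  have h' : d * ((81 * d - e ^ 2) * (d - e ^ 2)) = n₁ ^ 2 := by
    have : (6561 : ℤ) * (d * ((81 * d - e ^ 2) * (d - e ^ 2))) = 6561 * n₁ ^ 2 := by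
      linear_combination h
    linarith
  have hd : 0 < d := by omega
  have h1 : IsCoprime d (81 * d - e ^ 2) := by
    have := IsCoprime.add_mul_left_right hcd2.neg_right 81
    have e1 : -e ^ 2 + d * 81 = 81 * d - e ^ 2 := by ring
    rwa [e1] at this
  have h2 : IsCoprime d (d - e ^ 2) := by
    have := IsCoprime.add_mul_left_right hcd2.neg_right 1
    have e1 : -e ^ 2 + d * 1 = d - e ^ 2 := by ring
    rwa [e1] at this
  obtain ⟨U, hU, hdU⟩ := exists_sq_of_coprime_pos hd (h1.mul_right h2) h'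
  exact ⟨9 * U, by omega, by rw [hdU]; ring⟩


theorem gcd_dvd_of_sub {B C e c : ℤ} (hcop : IsCoprime B e) (hsub : B - C = c * e ^ 2) :
    (Int.gcd B C : ℤ) ∣ c := by
  have h1 : (Int.gcd B C : ℤ) ∣ B := Int.gcd_dvd_left B C
  have h2 : (Int.gcd B C : ℤ) ∣ C := Int.gcd_dvd_right B C
  have h3 : (Int.gcd B C : ℤ) ∣ c * e ^ 2 := hsub ▸ dvd_sub h1 h2
  have hc : IsCoprime (Int.gcd B C : ℤ) (e ^ 2) :=
    (IsCoprime.of_isCoprime_of_dvd_left hcop h1).pow_right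
  exact hc.dvd_of_dvd_mul_right h3

theorem gcd_dvd_five_of_odd {B C e : ℤ} (hcop : IsCoprime B e) (hodd : Odd B) {j : ℕ}
    (hsub : B - C = (2 ^ j * 5) * e ^ 2) : Int.gcd B C ∣ 5 := by
  have h0 := gcd_dvd_of_sub hcop hsub
  have h1 : (Int.gcd B C : ℤ) ∣ B := Int.gcd_dvd_left B C
  have hc2 : IsCoprime (Int.gcd B C : ℤ) 2 := by
    have hB2 : IsCoprime B 2 := by
      rw [isCoprime_comm]
      exact (Int.prime_two.coprime_iff_not_dvd).mpr (by
        rw [← even_iff_two_dvd]; exact Int.not_even_iff_odd.mpr hodd)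
    exact IsCoprime.of_isCoprime_of_dvd_left hB2 h1
  have hc : IsCoprime (Int.gcd B C : ℤ) (2 ^ j) := hc2.pow_right
  have h5 : (Int.gcd B C : ℤ) ∣ 5 := by
    rw [mul_comm] at h0
    exact hc.dvd_of_dvd_mul_right h0
  exact_mod_cast h5

theorem sq_mod_eight_of_odd {s : ℤ} (hs : Odd s) : s ^ 2 % 8 = 1 := by
  have h2 : s % 2 = 1 := Int.odd_iff.mp hs
  have : s % 8 = 1 ∨ s % 8 = 3 ∨ s % 8 = 5 ∨ s % 8 = 7 := by omega
  rcases this with h | h | h | h <;> simp [pow_two, Int.mul_emod, h]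

/-- The square classes of `U² - e²` and `U² - 81 e²`. -/
theorem classes_of_sq {U e k : ℤ} (hcop : IsCoprime U e) (hk : k ≠ 0)
    (h : (U ^ 2 - e ^ 2) * (U ^ 2 - 81 * e ^ 2) = k ^ 2) :
    ∃ (δ V W : ℤ), (δ = 1 ∨ δ = -1 ∨ δ = 5 ∨ δ = -5) ∧ U ^ 2 - e ^ 2 = δ * V ^ 2 ∧
      U ^ 2 - 81 * e ^ 2 = δ * W ^ 2 := by
  have hcopB : IsCoprime (U ^ 2 - e ^ 2) e := by
    have h1 : IsCoprime (U ^ 2) e := hcop.pow_left
    have := IsCoprime.add_mul_right_left h1 (-e)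
    have e1 : U ^ 2 + -e * e = U ^ 2 - e ^ 2 := by ring
    rwa [e1] at this
  by_cases hpar : Odd U ∧ Odd e
  swap
  · -- `U² - e²` is odd
    have hodd : Odd (U ^ 2 - e ^ 2) := by
      rcases Int.even_or_odd U with hU | hU <;> rcases Int.even_or_odd e with he' | he'
      · exfalso
        have h2U : (2 : ℤ) ∣ U := even_iff_two_dvd.mp hU
        have h2e : (2 : ℤ) ∣ e := even_iff_two_dvd.mp he'
        have : IsUnit (2 : ℤ) := hcop.isUnit_of_dvd' h2U h2e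
        rw [Int.isUnit_iff] at this
        omega
      · exact (Int.even_pow.mpr ⟨hU, two_ne_zero⟩).sub_odd (he'.pow)
      · exact (hU.pow).sub_even (Int.even_pow.mpr ⟨he', two_ne_zero⟩)
      · exact absurd ⟨hU, he'⟩ hpar
    have hg : Int.gcd (U ^ 2 - e ^ 2) (U ^ 2 - 81 * e ^ 2) ∣ 5 :=
      gcd_dvd_five_of_odd (j := 4) hcopB hodd (by ring)
    obtain ⟨δ, s, t, hδ, hP, hQ⟩ := sq_classes_of_gcd_dvd_five hk h hg
    exact ⟨δ, s, t, hδ, hP, hQ⟩
  obtain ⟨hU, he'⟩ := hpar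
  have hU8 := sq_mod_eight_of_odd hU
  have he8 := sq_mod_eight_of_odd he'
  -- `B = 8 B'`, `C = 8 C'`
  have hB8 : (8 : ℤ) ∣ U ^ 2 - e ^ 2 := by omega
  obtain ⟨B', hB'⟩ := hB8
  have hC' : U ^ 2 - 81 * e ^ 2 = 8 * (B' - 10 * e ^ 2) := by linarith
  have hdvd : (8 : ℤ) ^ 2 ∣ k ^ 2 := ⟨B' * (B' - 10 * e ^ 2), by rw [← h, hB', hC']; ring⟩
  obtain ⟨k₁, rfl⟩ := (Int.pow_dvd_pow_iff two_ne_zero).mp hdvd
  have hk₁ : k₁ ≠ 0 := by rintro rfl; simp at hk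
  have h' : B' * (B' - 10 * e ^ 2) = k₁ ^ 2 := by
    have : (64 : ℤ) * (B' * (B' - 10 * e ^ 2)) = 64 * k₁ ^ 2 := by
      rw [hB', hC'] at h; linear_combination h
    linarith
  have hcopB' : IsCoprime B' e := by
    rw [hB'] at hcopB
    exact hcopB.of_mul_left_right
  rcases Int.even_or_odd B' with hB'e | hB'o
  swap
  · -- `B'` odd: contradiction mod 8
    exfalso
    have hg : Int.gcd B' (B' - 10 * e ^ 2) ∣ 5 :=
      gcd_dvd_five_of_odd (j := 1) hcopB' hB'o (by ring)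
    obtain ⟨δ, s, t, hδ, hP, hQ⟩ := sq_classes_of_gcd_dvd_five hk₁ h' hg
    have hδodd : Odd δ := by
      rcases hδ with rfl | rfl | rfl | rfl <;> decide
    have hs : Odd s := by
      have : Odd (δ * s ^ 2) := hP ▸ hB'o
      exact (Int.odd_pow' two_ne_zero).mp (Int.odd_mul.mp this).2
    have hCo : Odd (B' - 10 * e ^ 2) := by
      apply hB'o.sub_even
      exact ⟨5 * e ^ 2, by ring⟩
    have ht : Odd t := by
      have : Odd (δ * t ^ 2) := hQ ▸ hCo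
      exact (Int.odd_pow' two_ne_zero).mp (Int.odd_mul.mp this).2
    have hs8 := sq_mod_eight_of_odd hs
    have ht8 := sq_mod_eight_of_odd ht
    have hrel : δ * s ^ 2 - δ * t ^ 2 = 10 * e ^ 2 := by rw [← hP, ← hQ]; ring
    rcases hδ with rfl | rfl | rfl | rfl <;> omega
  -- `B'` even
  obtain ⟨B'', hB''⟩ := even_iff_two_dvd.mp hB'e
  have hC'' : B' - 10 * e ^ 2 = 2 * (B'' - 5 * e ^ 2) := by rw [hB'']; ring
  have hdvd2 : (2 : ℤ) ^ 2 ∣ k₁ ^ 2 :=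
    ⟨B'' * (B'' - 5 * e ^ 2), by rw [← h', hC'', hB'']; ring⟩
  obtain ⟨k₂, rfl⟩ := (Int.pow_dvd_pow_iff two_ne_zero).mp hdvd2
  have hk₂ : k₂ ≠ 0 := by rintro rfl; simp at hk₁
  have h'' : B'' * (B'' - 5 * e ^ 2) = k₂ ^ 2 := by
    have : (4 : ℤ) * (B'' * (B'' - 5 * e ^ 2)) = 4 * k₂ ^ 2 := by
      rw [hC'', hB''] at h'; linear_combination h'
    linarith
  have hcopB'' : IsCoprime B'' e := by
    rw [hB''] at hcopB'
    exact hcopB'.of_mul_left_right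
  have hg : Int.gcd B'' (B'' - 5 * e ^ 2) ∣ 5 := by
    have := gcd_dvd_of_sub (c := 5) hcopB'' (by ring : B'' - (B'' - 5 * e ^ 2) = 5 * e ^ 2)
    exact_mod_cast this
  obtain ⟨δ, s, t, hδ, hP, hQ⟩ := sq_classes_of_gcd_dvd_five hk₂ h'' hg
  refine ⟨δ, 4 * s, 4 * t, hδ, ?_, ?_⟩
  · rw [hB', hB'', hP]; ring
  · rw [hC', hC'', hQ]; ring

end Selmer81

open Selmer81 in
/-- **Selmer step** (complete 2-descent on `Y² = X(X-1)(X-81)`): a rational point with `Y ≠ 0`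
has `X = U²/e²` with `U² - e² = d V²`, `U² - 81 e² = d W²`, `d ∈ {1, -1, 5, -5}`. -/
theorem selmer81 (X Y : ℚ) (hY : Y ≠ 0) (h : Y ^ 2 = X * (X - 1) * (X - 81)) :
    ∃ (U e V W : ℕ) (d : ℤ), 0 < U ∧ 0 < e ∧ 0 < V ∧ 0 < W ∧ Nat.Coprime U e ∧
      (d = 1 ∨ d = -1 ∨ d = 5 ∨ d = -5) ∧ X = (U : ℚ) ^ 2 / (e : ℚ) ^ 2 ∧
      (U : ℤ) ^ 2 - (e : ℤ) ^ 2 = d * (V : ℤ) ^ 2 ∧
      (U : ℤ) ^ 2 - 81 * (e : ℤ) ^ 2 = d * (W : ℤ) ^ 2 := by
  obtain ⟨m, e, n, he, hcop, hn, hX, hmn⟩ := exists_int_form X Y hY h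
  obtain ⟨U, hU, rfl⟩ := numerator_isSquare he hcop hn hmn
  have hcopU : IsCoprime U e := by
    rw [sq] at hcop
    exact hcop.of_mul_left_left
  -- `U ∣ n`
  have hdvd : U ^ 2 ∣ n ^ 2 := ⟨(U ^ 2 - e ^ 2) * (U ^ 2 - 81 * e ^ 2), by rw [← hmn]; ring⟩
  obtain ⟨k, rfl⟩ := (Int.pow_dvd_pow_iff two_ne_zero).mp hdvd
  have hk : k ≠ 0 := by rintro rfl; simp at hn
  have hU2 : (U ^ 2 : ℤ) ≠ 0 := pow_ne_zero _ hU.ne'
  have hkk : (U ^ 2 - e ^ 2) * (U ^ 2 - 81 * e ^ 2) = k ^ 2 := by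
    apply mul_left_cancel₀ hU2
    rw [← mul_assoc, hmn]; ring
  obtain ⟨δ, V, W, hδ, hB, hC⟩ := classes_of_sq hcopU hk hkk
  have hk2 : k ^ 2 ≠ 0 := pow_ne_zero _ hk
  have hVne : V ≠ 0 := by
    rintro rfl
    apply hk2
    rw [← hkk, hB]; ring
  have hWne : W ≠ 0 := by
    rintro rfl
    apply hk2
    rw [← hkk, hC]; ring
  have hUn : ((U.toNat : ℕ) : ℤ) = U := Int.toNat_of_nonneg hU.le
  have hen : ((e.toNat : ℕ) : ℤ) = e := Int.toNat_of_nonneg he.le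
  have hVn : ((V.natAbs : ℕ) : ℤ) ^ 2 = V ^ 2 := Int.natAbs_sq V
  have hWn : ((W.natAbs : ℕ) : ℤ) ^ 2 = W ^ 2 := Int.natAbs_sq W
  refine ⟨U.toNat, e.toNat, V.natAbs, W.natAbs, δ, ?_, ?_, Int.natAbs_pos.mpr hVne,
    Int.natAbs_pos.mpr hWne, ?_, hδ, ?_, ?_, ?_⟩
  · omega
  · omega
  · rw [← Nat.isCoprime_iff_coprime, hUn, hen]; exact hcopU
  · have h1 : ((U.toNat : ℕ) : ℚ) = (U : ℚ) := by exact_mod_cast hUn
    have h2 : ((e.toNat : ℕ) : ℚ) = (e : ℚ) := by exact_mod_cast hen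
    rw [h1, h2, hX]; push_cast; ring
  · rw [hUn, hen, hVn]; exact hB
  · rw [hUn, hen, hWn]; exact hC

end Fermat.Agent.S51
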