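import Mathlib
import Fermat.Agent.S51.E15Selmer

/-!
# Rational points of `y² = x (x - 16) (x + 9)` via the 2-isogenous curve `Y² = X (X - 1) (X - 81)`

Height-free descent: everything is reduced to a Selmer-type statement `Selmer81`,
which is `Fermat.Agent.S51.selmer81` (file `E15Selmer.lean`).
-/

namespace Fermat.Agent.S51.Iso

/-- The Selmer (complete 2-descent) statement for `Y² = X (X - 1) (X - 81)`. -/
def Selmer81 : Prop :=
  ∀ X Y : ℚ, Y ≠ 0 → Y ^ 2 = X * (X - 1) * (X - 81) →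
    ∃ (U e V W : ℕ) (d : ℤ), 0 < U ∧ 0 < e ∧ 0 < V ∧ 0 < W ∧ Nat.Coprime U e ∧
      (d = 1 ∨ d = -1 ∨ d = 5 ∨ d = -5) ∧ X = (U : ℚ) ^ 2 / (e : ℚ) ^ 2 ∧
      (U : ℤ) ^ 2 - (e : ℤ) ^ 2 = d * (V : ℤ) ^ 2 ∧
      (U : ℤ) ^ 2 - 81 * (e : ℤ) ^ 2 = d * (W : ℤ) ^ 2

/-- Positive solutions of `u² - c² = v²`, `u² - 81 c² = w²`. -/
structure PStar (u v w c : ℤ) : Prop where
  hu : 0 < u
  hv : 0 < v
  hw : 0 < w
  hc : 0 < c
  h1 : u ^ 2 - c ^ 2 = v ^ 2
  h2 : u ^ 2 - 81 * c ^ 2 = w ^ 2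

/-- The halving identity: a `PStar` solution gives a rational point on `Y² = X (X-1) (X-81)`. -/
lemma halving (u v w c : ℚ) (hc : c ≠ 0) (huv : u + v ≠ 0)
    (h1 : u ^ 2 - c ^ 2 = v ^ 2) (h2 : u ^ 2 - 81 * c ^ 2 = w ^ 2) :
    ((w - v) * (u + w) / (c * (u + v))) ^ 2 =
      ((u + w) / (u + v)) * ((u + w) / (u + v) - 1) * ((u + w) / (u + v) - 81) := by
  have e1 : (u + w) / (u + v) - 1 = (w - v) / (u + v) := by
    field_simp
    ring
  have e2 : (u + w) / (u + v) - 81 = (u + w) * (w - v) / c ^ 2 := by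
    field_simp
    linear_combination (-(u + w)) * h1 + (u + v) * h2
  rw [e1, e2]
  field_simp

/-- Translation of Selmer class data to a `PStar` solution. -/
lemma pstar_of_class (U e V W : ℤ) (d : ℤ) (hU : 0 < U) (he : 0 < e) (hV : 0 < V) (hW : 0 < W)
    (hd : d = 1 ∨ d = -1 ∨ d = 5 ∨ d = -5)
    (h1 : U ^ 2 - e ^ 2 = d * V ^ 2) (h2 : U ^ 2 - 81 * e ^ 2 = d * W ^ 2)
    (B : ℤ) (hUB : U ^ 2 ≤ B) (heB : e ^ 2 ≤ B) :
    ∃ u v w c : ℤ, PStar u v w c ∧ u ^ 2 ≤ 81 * B := by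
  rcases hd with rfl | rfl | rfl | rfl
  · refine ⟨U, V, W, e, ⟨hU, hV, hW, he, by linarith, by linarith⟩, ?_⟩
    nlinarith [sq_nonneg U]
  · refine ⟨9 * e, W, 9 * V, U, ⟨by positivity, hW, by positivity, hU, by nlinarith, by nlinarith⟩, ?_⟩
    nlinarith
  · refine ⟨9 * V, 4 * U, 36 * e, W,
      ⟨by positivity, by positivity, by positivity, hW, by nlinarith, by nlinarith⟩, ?_⟩
    nlinarith [sq_nonneg e, sq_nonneg W]
  · refine ⟨W, 4 * e, 4 * U, V,
      ⟨hW, by positivity, by positivity, hV, by nlinarith, by nlinarith⟩, ?_⟩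
    nlinarith [sq_nonneg U, sq_nonneg V]

/-- One descent step. -/
lemma descent_step (hS : Selmer81) (u v w c : ℤ) (h : PStar u v w c) :
    ∃ u' v' w' c' : ℤ, PStar u' v' w' c' ∧ u' < u := by
  obtain ⟨hu, hv, hw, hc, h1, h2⟩ := h
  have hvu : v < u := by nlinarith
  have hwu : w < u := by nlinarith
  have hwv : w ≠ v := by
    rintro rfl
    have : c ^ 2 = 0 := by nlinarith
    have : c = 0 := by simpa using this
    omega
  -- the halved point
  have hcq : (c : ℚ) ≠ 0 := by exact_mod_cast hc.ne'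
  have huvq : (u : ℚ) + v ≠ 0 := by
    have : (0 : ℚ) < (u : ℚ) + v := by exact_mod_cast add_pos hu hv
    exact this.ne'
  have huwq : (u : ℚ) + w ≠ 0 := by
    have : (0 : ℚ) < (u : ℚ) + w := by exact_mod_cast add_pos hu hw
    exact this.ne'
  have hwvq : (w : ℚ) - v ≠ 0 := by
    intro h0
    apply hwv
    have : (w : ℚ) = v := by linarith
    exact_mod_cast this
  have hY : ((w : ℚ) - v) * (u + w) / (c * (u + v)) ≠ 0 := by
    refine div_ne_zero (mul_ne_zero hwvq huwq) (mul_ne_zero hcq huvq)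
  have hEq := halving (u : ℚ) v w c hcq huvq (by exact_mod_cast h1) (by exact_mod_cast h2)
  obtain ⟨U, e, V, W, d, hU, he, hV, hW, hcop, hd, hX, hd1, hd2⟩ := hS _ _ hY hEq
  -- cross-multiplication
  have heq : ((e : ℚ) ^ 2) ≠ 0 := by
    have : (0 : ℚ) < (e : ℚ) := by exact_mod_cast he
    positivity
  have hcross : (u + w) * (e : ℤ) ^ 2 = (U : ℤ) ^ 2 * (u + v) := by
    have := hX
    rw [div_eq_div_iff huvq heq] at this
    exact_mod_cast this
  have hcop2 : IsCoprime ((U : ℤ) ^ 2) ((e : ℤ) ^ 2) := by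
    have : IsCoprime (U : ℤ) (e : ℤ) := by
      rw [Int.isCoprime_iff_gcd_eq_one]
      simpa [Int.gcd_natCast_natCast] using hcop
    exact this.pow
  have hdvdU : (U : ℤ) ^ 2 ∣ u + w := by
    have : (U : ℤ) ^ 2 ∣ (u + w) * (e : ℤ) ^ 2 := ⟨u + v, hcross⟩
    exact hcop2.dvd_of_dvd_mul_right this
  have hdvde : (e : ℤ) ^ 2 ∣ u + v := by
    have : (e : ℤ) ^ 2 ∣ (U : ℤ) ^ 2 * (u + v) := ⟨u + w, by rw [← hcross]; ring⟩
    exact hcop2.symm.dvd_of_dvd_mul_left this
  have hUle : (U : ℤ) ^ 2 ≤ 2 * u - 1 := by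
    have := Int.le_of_dvd (by linarith) hdvdU
    linarith
  have hele : (e : ℤ) ^ 2 ≤ 2 * u - 1 := by
    have := Int.le_of_dvd (by linarith) hdvde
    linarith
  obtain ⟨u', v', w', c', hP, hle⟩ := pstar_of_class (U : ℤ) e V W d (by exact_mod_cast hU)
    (by exact_mod_cast he) (by exact_mod_cast hV) (by exact_mod_cast hW) hd hd1 hd2
    (2 * u - 1) hUle hele
  refine ⟨u', v', w', c', hP, ?_⟩
  -- `c² ≥ 2u - 1` and `u² > 81 c²`
  have hc2 : 2 * u - 1 ≤ c ^ 2 := by nlinarith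
  have hu2 : 81 * c ^ 2 < u ^ 2 := by nlinarith
  have : u' ^ 2 < u ^ 2 := by linarith
  exact lt_of_pow_lt_pow_left₀ 2 hu.le this

/-- There is no `PStar` solution. -/
theorem not_pstar (hS : Selmer81) : ∀ (n : ℕ) (u v w c : ℤ), u < n → ¬ PStar u v w c := by
  intro n
  induction n with
  | zero =>
    intro u v w c hlt h
    have := h.hu
    simp at hlt
    omega
  | succ n ih =>
    intro u v w c hlt h
    obtain ⟨u', v', w', c', h', hlt'⟩ := descent_step hS u v w c h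
    refine ih u' v' w' c' ?_ h'
    push_cast at hlt
    omega

/-- `Y² = X (X - 1) (X - 81)` has only the points with `Y = 0`. -/
theorem E81_of_selmer (hS : Selmer81) (X Y : ℚ) (h : Y ^ 2 = X * (X - 1) * (X - 81)) : Y = 0 := by
  by_contra hY
  obtain ⟨U, e, V, W, d, hU, he, hV, hW, -, hd, -, hd1, hd2⟩ := hS X Y hY h
  obtain ⟨u', v', w', c', hP, -⟩ := pstar_of_class (U : ℤ) e V W d (by exact_mod_cast hU)
    (by exact_mod_cast he) (by exact_mod_cast hV) (by exact_mod_cast hW) hd hd1 hd2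
    (max ((U : ℤ) ^ 2) ((e : ℤ) ^ 2)) (le_max_left _ _) (le_max_right _ _)
  exact not_pstar hS (u'.toNat + 1) u' v' w' c' (by have := hP.hu; push_cast; omega) hP

/-- Reduction of `y² = x (x - 16) (x + 9)` to `Y² = X (X - 1) (X - 81)` (2-isogeny). -/
theorem E15_of_E81 (hE : ∀ X Y : ℚ, Y ^ 2 = X * (X - 1) * (X - 81) → Y = 0)
    (x y : ℚ) (h : y ^ 2 = x * (x - 16) * (x + 9)) :
    x = 0 ∨ x = 16 ∨ x = -9 ∨ x = -4 ∨ x = 36 := by
  by_cases hx : x = 16
  · exact Or.inr (Or.inl hx)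
  have hx' : x - 16 ≠ 0 := sub_ne_zero.mpr hx
  have key : (y * (x + 4) * (x - 36) / (x - 16) ^ 2) ^ 2 =
      (x * (x + 9) / (x - 16)) * (x * (x + 9) / (x - 16) - 1) * (x * (x + 9) / (x - 16) - 81) := by
    have e1 : x * (x + 9) / (x - 16) - 1 = (x + 4) ^ 2 / (x - 16) := by
      field_simp
      ring
    have e2 : x * (x + 9) / (x - 16) - 81 = (x - 36) ^ 2 / (x - 16) := by
      field_simp
      ring
    rw [e1, e2]
    field_simp
    linear_combination ((x + 4) ^ 2 * (x - 36) ^ 2) * h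
  have h0 := hE _ _ key
  rw [div_eq_zero_iff] at h0
  rcases h0 with h0 | h0
  · rcases mul_eq_zero.mp h0 with h1 | h1
    · rcases mul_eq_zero.mp h1 with h2 | h2
      · -- y = 0
        rw [h2] at h
        have : x * (x - 16) * (x + 9) = 0 := by linarith
        rcases mul_eq_zero.mp this with h3 | h3
        · rcases mul_eq_zero.mp h3 with h4 | h4
          · exact Or.inl h4
          · exact absurd h4 hx'
        · right; right; left; linarith
      · right; right; right; left; linarith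
    · right; right; right; right; linarith
  · exact absurd (pow_eq_zero_iff (two_ne_zero) |>.mp h0) hx'

/-- The complete 2-descent statement holds (`E15Selmer.lean`). -/
theorem selmer81_holds : Selmer81 := fun X Y hY h => Fermat.Agent.S51.selmer81 X Y hY h

/-- The only rational points on `Y² = X (X - 1) (X - 81)` are the 2-torsion points. -/
theorem E81_rational_points (X Y : ℚ) (h : Y ^ 2 = X * (X - 1) * (X - 81)) : Y = 0 :=
  E81_of_selmer selmer81_holds X Y h

/-- The rational points of `15a1 : y² = x (x - 16) (x + 9)`. -/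
theorem E15_rational_points (x y : ℚ) (h : y ^ 2 = x * (x - 16) * (x + 9)) :
    x = 0 ∨ x = 16 ∨ x = -9 ∨ x = -4 ∨ x = 36 :=
  E15_of_E81 E81_rational_points x y h

end Fermat.Agent.S51.Iso
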