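import Fermat.Agent.S51.Cubic
import Fermat.Agent.S51.Endgame

set_option autoImplicit false

namespace Fermat.Agent.S51

/-- The point of `E15 : y² = x (x - 16) (x + 9)` attached to a point of the `(ω, B)`-model. -/
theorem e15_point_of_cG {ω B : ℚ} (hG : cG ω B = 0) (hω1 : ω + 1 ≠ 0) :
    (36 * ω * (2 * ω * B - 9 * ω - 3) / (ω + 1)) ^ 2 =
      (36 * ω) * (36 * ω - 16) * (36 * ω + 9) := by
  unfold cG at hG
  have key : ω * (2 * ω * B - 9 * ω - 3) ^ 2 = (ω + 1) ^ 2 * (9 * ω - 4) * (4 * ω + 1) := by
    linear_combination 4 * hG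
  rw [div_pow, div_eq_iff (pow_ne_zero 2 hω1)]
  linear_combination (1296 * ω) * key

/-- Transfer of the `j`-relation to the integers. -/
theorem endgame_Q_cast (W : WeierstrassCurve ℤ) (hW : W.IsSemistableModel) (num den : ℤ)
    (hj : (den : ℚ) * (W.c₄ : ℚ) ^ 3 = (num : ℚ) * (W.Δ : ℚ))
    (h : (num = -25 ∧ den = 2) ∨ (num = -349938025 ∧ den = 8) ∨ (num = -121945 ∧ den = 32) ∨
      (num = 46969655 ∧ den = 32768)) : False := by
  refine false_of_j W hW num den ?_ h
  exact_mod_cast hj

/-- T4 : the rational endgame. -/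
theorem endgame_Q (W : WeierstrassCurve ℤ) (hW : W.IsSemistableModel) (ω B θ : ℚ)
    (hG : cG ω B = 0) (hω0 : ω ≠ 0) (hθ : θ ^ 2 = (4 * ω + 1) * (B ^ 2 + 4)) (hB : B ≠ 11)
    (hj : (W.c₄ : ℚ) ^ 3 * (B - 11) = (W.Δ : ℚ) * (B ^ 2 - 12 * B + 16) ^ 3)
    (E15 : ∀ x y : ℚ, y ^ 2 = x * (x - 16) * (x + 9) →
      x = 0 ∨ x = 16 ∨ x = -9 ∨ x = -4 ∨ x = 36) : False := by
  by_cases hω1 : ω + 1 = 0
  · -- the isolated singular point `(ω, B) = (-1, 3)`
    have hω : ω = -1 := by linear_combination hω1
    subst hω
    have hB3 : (B - 3) ^ 2 = 0 := by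
      unfold cG at hG
      linear_combination -hG
    have hB3' : B = 3 := by
      have := pow_eq_zero_iff (two_ne_zero) |>.mp hB3
      linear_combination this
    subst hB3'
    have h39 : θ ^ 2 = -39 := by rw [hθ]; norm_num
    have := sq_nonneg θ
    rw [h39] at this
    norm_num at this
  · have hpt := e15_point_of_cG hG hω1
    have hB11 : B - 11 ≠ 0 := sub_ne_zero.mpr hB
    rcases E15 _ _ hpt with h | h | h | h | h
    · -- `ω = 0`
      exact hω0 (by linear_combination h / 36)
    · -- `ω = 4/9`, `B = 63/8`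
      have hω : ω = 4 / 9 := by linear_combination h / 36
      subst hω
      have hB' : (8 * B - 63) ^ 2 = 0 := by
        unfold cG at hG
        linear_combination 729 * hG
      have hB'' : B = 63 / 8 := by
        have := pow_eq_zero_iff (two_ne_zero) |>.mp hB'
        linear_combination this / 8
      subst hB''
      refine endgame_Q_cast W hW 46969655 32768 ?_ (Or.inr (Or.inr (Or.inr ⟨rfl, rfl⟩)))
      push_cast
      linear_combination (-(262144 / 25 : ℚ)) * hj
    · -- `ω = -1/4`, `B = -3/2`
      have hω : ω = -1 / 4 := by linear_combination h / 36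
      subst hω
      have hB' : (2 * B + 3) ^ 2 = 0 := by
        unfold cG at hG
        linear_combination -256 * hG
      have hB'' : B = -3 / 2 := by
        have := pow_eq_zero_iff (two_ne_zero) |>.mp hB'
        linear_combination this / 2
      subst hB''
      refine endgame_Q_cast W hW (-121945) 32 ?_ (Or.inr (Or.inr (Or.inl ⟨rfl, rfl⟩)))
      push_cast
      linear_combination (-(64 / 25 : ℚ)) * hj
    · -- `ω = -1/9`, `B = 11` or `B = -29`
      have hω : ω = -1 / 9 := by linear_combination h / 36
      subst hω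
      have hB' : (B - 11) * (B + 29) = 0 := by
        unfold cG at hG
        linear_combination -729 * hG
      have hB'' : B = -29 := by
        rcases mul_eq_zero.mp hB' with h0 | h0
        · exact absurd h0 hB11
        · linear_combination h0
      subst hB''
      refine endgame_Q_cast W hW (-349938025) 8 ?_ (Or.inr (Or.inl ⟨rfl, rfl⟩))
      push_cast
      linear_combination (-(1 / 5 : ℚ)) * hj
    · -- `ω = 1`, `B = 11` or `B = 1`
      have hω : ω = 1 := by linear_combination h / 36
      subst hω
      have hB' : (B - 11) * (B - 1) = 0 := by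
        unfold cG at hG
        linear_combination hG
      have hB'' : B = 1 := by
        rcases mul_eq_zero.mp hB' with h0 | h0
        · exact absurd h0 hB11
        · linear_combination h0
      subst hB''
      refine endgame_Q_cast W hW (-25) 2 ?_ (Or.inl ⟨rfl, rfl⟩)
      push_cast
      linear_combination (-(1 / 5 : ℚ)) * hj

end Fermat.Agent.S51
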