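import Mathlib
import Fermat.Agent.S51.GroupLaw

set_option autoImplicit false
set_option linter.unusedSectionVars false

/-! x-coordinates of the multiples of a point of order 3 or 5 -/

namespace Fermat.Agent.S51

open WeierstrassCurve WeierstrassCurve.Affine

variable {F : Type*} [Field F] [DecidableEq F] [CharZero F] {W : WeierstrassCurve F}

lemma nsmul_mod_of_nsmul_eq_zero {A : Type*} [AddCommGroup A] {n : ℕ} {P : A} (h : n • P = 0)
    (k : ℕ) : k • P = (k % n) • P := by
  conv_lhs => rw [← Nat.mod_add_div k n]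
  rw [add_nsmul, mul_nsmul, h, nsmul_zero, add_zero]

/-- multiples of a point of order 3 have the same x-coordinate (or are zero). -/
lemma px_nsmul_three {P : W.toAffine.Point} {x : F} (hP : px W P = some x) (h3 : 3 • P = 0)
    (k : ℕ) : k • P = 0 ∨ px W (k • P) = some x := by
  rw [nsmul_mod_of_nsmul_eq_zero h3 k]
  have hk : k % 3 < 3 := Nat.mod_lt _ (by norm_num)
  interval_cases (k % 3)
  · left; simp
  · right; simpa using hP
  · right
    have : (2 : ℕ) • P = -P := by
      have : (3 : ℕ) • P = (2 : ℕ) • P + P := by rw [succ_nsmul]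
      rw [this] at h3
      exact eq_neg_of_add_eq_zero_left h3
    rw [this, px_neg, hP]

/-- facts about the x-coordinate of a point of order 5 -/
lemma five_torsion_facts {P : W.toAffine.Point} {x : F} (hP : px W P = some x) (h5 : 5 • P = 0) :
    cf W.b₂ W.b₄ W.b₆ x ≠ 0 ∧ cq W.b₂ W.b₄ W.b₆ x ≠ 0 ∧ cR5 W.b₂ W.b₄ W.b₆ x = 0 := by
  have hR := (five_nsmul_eq_zero_iff hP).mp h5
  have hf : cf W.b₂ W.b₄ W.b₆ x ≠ 0 := by
    intro hf
    have hq := cq_ne_zero_of_cf_eq_zero' hP hf
    rw [cR5, hf] at hR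
    apply hq
    have : cq W.b₂ W.b₄ W.b₆ x ^ 3 = 0 := by linear_combination hR
    exact pow_eq_zero_iff (by norm_num) |>.mp this
  have hq : cq W.b₂ W.b₄ W.b₆ x ≠ 0 := by
    intro hq
    rw [cR5, hq] at hR
    apply hf
    have : cf W.b₂ W.b₄ W.b₆ x ^ 4 = 0 := by linear_combination (1 / 64 : F) * hR
    exact pow_eq_zero_iff (by norm_num) |>.mp this
  exact ⟨hf, hq, hR⟩

/-- multiples of a point of order 5 have x-coordinate `x` or `cdbl x` (or are zero). -/
lemma px_nsmul_five {P : W.toAffine.Point} {x : F} (hP : px W P = some x) (h5 : 5 • P = 0)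
    (k : ℕ) : k • P = 0 ∨ px W (k • P) = some x ∨
      px W (k • P) = some (cdbl W.b₂ W.b₄ W.b₆ x) := by
  obtain ⟨hf, hq, hR⟩ := five_torsion_facts hP h5
  have h2 : px W (2 • P) = some (cdbl W.b₂ W.b₄ W.b₆ x) := by
    rw [two_nsmul]; exact px_add_self hP hf
  rw [nsmul_mod_of_nsmul_eq_zero h5 k]
  have hk : k % 5 < 5 := Nat.mod_lt _ (by norm_num)
  interval_cases (k % 5)
  · left; simp
  · right; left; simpa using hP
  · right; right; exact h2
  · right; right
    have : (3 : ℕ) • P = -((2 : ℕ) • P) := by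
      have : (5 : ℕ) • P = (3 : ℕ) • P + (2 : ℕ) • P := by rw [← add_nsmul]
      rw [this] at h5
      exact eq_neg_of_add_eq_zero_left h5
    rw [this, px_neg, h2]
  · right; left
    have : (4 : ℕ) • P = -P := by
      have : (5 : ℕ) • P = (4 : ℕ) • P + P := by rw [succ_nsmul]
      rw [this] at h5
      exact eq_neg_of_add_eq_zero_left h5
    rw [this, px_neg, hP]

/-- a nonzero point cannot be killed by both 3 and 5 -/
lemma eq_zero_of_three_five {A : Type*} [AddCommGroup A] {P : A} (h3 : 3 • P = 0) (h5 : 5 • P = 0) :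
    P = 0 := by
  have h6 : (6 : ℕ) • P = 0 := by
    rw [show (6 : ℕ) = 3 * 2 by norm_num, mul_nsmul, h3, nsmul_zero]
  have : (6 : ℕ) • P = (5 : ℕ) • P + P := by rw [succ_nsmul]
  rw [this, h5, zero_add] at h6
  exact h6

end Fermat.Agent.S51
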