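import Fermat.Statements.S51
import Fermat.Agent.S51.Cubic
import Fermat.Agent.S51.GroupLaw
import Fermat.Agent.S51.Multiples
import Fermat.Agent.S51.Endgame

set_option autoImplicit false
open WeierstrassCurve WeierstrassCurve.Affine

namespace Fermat.Agent.S51.Main

open Fermat.Agent.S51

local notation "Qbar" => AlgebraicClosure ℚ

/-- the base change of `W` to `ℚ̄` -/
noncomputable abbrev EK (W : WeierstrassCurve ℤ) : WeierstrassCurve Qbar :=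
  (W.map (Int.castRingHom ℚ))⁄Qbar

theorem px_smul (W : WeierstrassCurve ℤ) (σ : Qbar ≃ₐ[ℚ] Qbar)
    (P : (EK W).toAffine.Point) : px (EK W) (σ • P) = (px (EK W) P).map σ := by
  cases P with
  | zero => rfl
  | some x y h => rfl

lemma EK_b₂ (W : WeierstrassCurve ℤ) :
    (EK W).b₂ = algebraMap ℚ Qbar ((W.b₂ : ℤ) : ℚ) := by
  simp [EK, WeierstrassCurve.baseChange, WeierstrassCurve.map_b₂]

lemma EK_b₄ (W : WeierstrassCurve ℤ) :
    (EK W).b₄ = algebraMap ℚ Qbar ((W.b₄ : ℤ) : ℚ) := by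
  simp [EK, WeierstrassCurve.baseChange, WeierstrassCurve.map_b₄]

lemma EK_b₆ (W : WeierstrassCurve ℤ) :
    (EK W).b₆ = algebraMap ℚ Qbar ((W.b₆ : ℤ) : ℚ) := by
  simp [EK, WeierstrassCurve.baseChange, WeierstrassCurve.map_b₆]

lemma EK_c₄ (W : WeierstrassCurve ℤ) :
    (EK W).c₄ = algebraMap ℚ Qbar ((W.c₄ : ℤ) : ℚ) := by
  simp [EK, WeierstrassCurve.baseChange, WeierstrassCurve.map_c₄]

lemma EK_Δ (W : WeierstrassCurve ℤ) :
    (EK W).Δ = algebraMap ℚ Qbar ((W.Δ : ℤ) : ℚ) := by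
  simp [EK, WeierstrassCurve.baseChange, WeierstrassCurve.map_Δ]

lemma cc4_eq (W : WeierstrassCurve Qbar) : cc4 W.b₂ W.b₄ = W.c₄ := by
  simp only [cc4, WeierstrassCurve.c₄]

lemma cD_eq (W : WeierstrassCurve Qbar) : cD W.b₂ W.b₄ W.b₆ = 4 * W.Δ := by
  have h := W.b_relation
  simp only [cD, WeierstrassCurve.Δ]
  linear_combination (W.b₂ ^ 2) * h

section galois

variable {B2 B4 B6 : Qbar} (σ : Qbar ≃ₐ[ℚ] Qbar)

lemma sigma_cf (h2 : σ B2 = B2) (h4 : σ B4 = B4) (h6 : σ B6 = B6) (x : Qbar) :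
    σ (cf B2 B4 B6 x) = cf B2 B4 B6 (σ x) := by
  simp only [cf, map_add, map_mul, map_pow, h2, h4, h6, map_ofNat]

lemma sigma_cq (h2 : σ B2 = B2) (h4 : σ B4 = B4) (h6 : σ B6 = B6) (x : Qbar) :
    σ (cq B2 B4 B6 x) = cq B2 B4 B6 (σ x) := by
  simp only [cq, map_add, map_sub, map_mul, map_pow, h2, h4, h6, map_ofNat]

lemma sigma_cdbl (h2 : σ B2 = B2) (h4 : σ B4 = B4) (h6 : σ B6 = B6) (x : Qbar) :
    σ (cdbl B2 B4 B6 x) = cdbl B2 B4 B6 (σ x) := by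
  simp only [cdbl, map_sub, map_div₀, map_mul, map_ofNat, sigma_cf σ h2 h4 h6,
    sigma_cq σ h2 h4 h6]

lemma sigma_cb (h2 : σ B2 = B2) (h4 : σ B4 = B4) (h6 : σ B6 = B6) (x : Qbar) :
    σ (cb B2 B4 B6 x) = cb B2 B4 B6 (σ x) := by
  simp only [cb, map_neg, map_div₀, map_mul, map_pow, map_ofNat, sigma_cf σ h2 h4 h6,
    sigma_cq σ h2 h4 h6]

end galois

/-- T4 : the rational endgame (statement; proved in `EndgameQ.lean`, passed in as hypothesis). -/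
def EndgameQ (W : WeierstrassCurve ℤ) : Prop :=
  ∀ ω B θ : ℚ, cG ω B = 0 → ω ≠ 0 → θ ^ 2 = (4 * ω + 1) * (B ^ 2 + 4) → B ≠ 11 →
    (W.c₄ : ℚ) ^ 3 * (B - 11) = (W.Δ : ℚ) * (B ^ 2 - 12 * B + 16) ^ 3 → False

/-- T6 : main argument. -/
theorem no_three_five (W : WeierstrassCurve ℤ) (hΔ : W.Δ ≠ 0) (hend : EndgameQ W)
    (P₃ P₅ : (EK W).toAffine.Point) (h3 : P₃ ≠ 0) (h3' : 3 • P₃ = 0)
    (hG3 : ∀ σ : Qbar ≃ₐ[ℚ] Qbar, ∃ k : ℕ, σ • P₃ = k • P₃)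
    (h5 : P₅ ≠ 0) (h5' : 5 • P₅ = 0)
    (hG5 : ∀ σ : Qbar ≃ₐ[ℚ] Qbar, ∃ k : ℕ, σ • P₅ = k • P₅) : False := by
  classical
  -- x-coordinates
  obtain ⟨x₃, hx₃⟩ : ∃ x, px (EK W) P₃ = Option.some x := by
    rcases hpx : px (EK W) P₃ with _ | x
    · exact absurd (px_eq_none_iff.mp hpx) h3
    · exact ⟨x, rfl⟩
  obtain ⟨x₁, hx₁⟩ : ∃ x, px (EK W) P₅ = Option.some x := by
    rcases hpx : px (EK W) P₅ with _ | x
    · exact absurd (px_eq_none_iff.mp hpx) h5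
    · exact ⟨x, rfl⟩
  set B2 := (EK W).b₂ with hB2
  set B4 := (EK W).b₄ with hB4
  set B6 := (EK W).b₆ with hB6
  -- Galois-fixedness of the invariants
  have s2 : ∀ σ : Qbar ≃ₐ[ℚ] Qbar, σ B2 = B2 := fun σ => by rw [hB2, EK_b₂]; exact σ.commutes _
  have s4 : ∀ σ : Qbar ≃ₐ[ℚ] Qbar, σ B4 = B4 := fun σ => by rw [hB4, EK_b₄]; exact σ.commutes _
  have s6 : ∀ σ : Qbar ≃ₐ[ℚ] Qbar, σ B6 = B6 := fun σ => by rw [hB6, EK_b₆]; exact σ.commutes _
  -- torsion polynomial conditions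
  have hq3 : cq B2 B4 B6 x₃ = 0 := (three_nsmul_eq_zero_iff hx₃).mp h3'
  obtain ⟨hf1, hq1, hR1⟩ := five_torsion_facts hx₁ h5'
  obtain ⟨hu, hb, hd, hf2, hq2, hR2, hdd, hbb, hc4, hD, hrel⟩ := five_data hf1 hq1 hR1
  set x₂ := cdbl B2 B4 B6 x₁ with hx₂def
  set u := cu B2 B4 B6 x₁ with hudef
  set b := cb B2 B4 B6 x₁ with hbdef
  have hx2P : px (EK W) (2 • P₅) = Option.some x₂ := by
    rw [two_nsmul]; exact px_add_self hx₁ hf1
  have hx21 : x₂ - x₁ = u * b := by rw [hd]; ring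
  have hx21ne : x₂ - x₁ ≠ 0 := by rw [hx21]; exact mul_ne_zero hu hb
  -- x₃ ≠ x₁, x₂
  have hx31 : x₃ ≠ x₁ := by
    intro h
    have : px (EK W) P₃ = px (EK W) P₅ := by rw [hx₃, hx₁, h]
    rcases px_eq_iff.mp this with h' | h'
    · exact h3 (eq_zero_of_three_five h3' (h' ▸ h5'))
    · apply h3
      apply eq_zero_of_three_five h3'
      rw [h', neg_nsmul, h5', neg_zero]
  have hx32 : x₃ ≠ x₂ := by
    intro h
    have : px (EK W) P₃ = px (EK W) (2 • P₅) := by rw [hx₃, hx2P, h]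
    have h52 : 5 • (2 • P₅) = 0 := by rw [smul_comm, h5', nsmul_zero]
    rcases px_eq_iff.mp this with h' | h'
    · exact h3 (eq_zero_of_three_five h3' (h' ▸ h52))
    · apply h3
      apply eq_zero_of_three_five h3'
      rw [h', neg_nsmul, h52, neg_zero]
  -- Galois action on x₃
  have g3 : ∀ σ : Qbar ≃ₐ[ℚ] Qbar, σ x₃ = x₃ := by
    intro σ
    obtain ⟨k, hk⟩ := hG3 σ
    have h1 : px (EK W) (σ • P₃) = Option.some (σ x₃) := by rw [px_smul, hx₃]; rfl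
    rcases px_nsmul_three hx₃ h3' k with h0 | h0
    · rw [hk, h0] at h1; simp at h1
    · rw [hk, h0] at h1; exact (Option.some.inj h1).symm
  -- Galois action on x₁, x₂
  have g5 : ∀ σ : Qbar ≃ₐ[ℚ] Qbar, (σ x₁ = x₁ ∧ σ x₂ = x₂) ∨ (σ x₁ = x₂ ∧ σ x₂ = x₁) := by
    intro σ
    obtain ⟨k, hk⟩ := hG5 σ
    have h1 : px (EK W) (σ • P₅) = Option.some (σ x₁) := by rw [px_smul, hx₁]; rfl
    have hs2 : σ x₂ = cdbl B2 B4 B6 (σ x₁) := sigma_cdbl σ (s2 σ) (s4 σ) (s6 σ) x₁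
    rcases px_nsmul_five hx₁ h5' k with h0 | h0 | h0
    · rw [hk, h0] at h1; simp at h1
    · rw [hk, h0] at h1
      have e : σ x₁ = x₁ := (Option.some.inj h1).symm
      left; exact ⟨e, by rw [hs2, e]⟩
    · rw [hk, h0] at h1
      have e : σ x₁ = x₂ := (Option.some.inj h1).symm
      right; exact ⟨e, by rw [hs2, e, hdd]⟩
  -- the invariants
  set b' := cb B2 B4 B6 x₂ with hb'def
  have hbb' : b' = -1 / b := hbb
  set ρ := (x₃ - x₁) / (x₂ - x₁) with hρdef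
  have hC1 : cC1 b ρ = 0 := hrel x₃ hq3
  have hρ0 : ρ ≠ 0 := div_ne_zero (sub_ne_zero.mpr hx31) hx21ne
  have hρ1 : ρ - 1 ≠ 0 := by
    have : ρ - 1 = (x₃ - x₂) / (x₂ - x₁) := by
      rw [hρdef]; field_simp; ring
    rw [this]; exact div_ne_zero (sub_ne_zero.mpr hx32) hx21ne
  set ω := ρ * (ρ - 1) with hωdef
  set Bp := b + b' with hBpdef
  set θ := (2 * ρ - 1) * (b - b') with hθdef
  have hBp : Bp = b - 1 / b := by rw [hBpdef, hbb']; ring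
  have hGK : cG ω Bp = 0 := by rw [hBp]; exact cG_of_cC1 hb hC1
  have hω0 : ω ≠ 0 := mul_ne_zero hρ0 hρ1
  have hθsq : θ ^ 2 = (4 * ω + 1) * (Bp ^ 2 + 4) := by
    rw [hθdef, hBpdef, hωdef, hbb']
    field_simp
    ring
  -- Δ ≠ 0 gives Bp ≠ 11
  have hΔK : (EK W).Δ ≠ 0 := by
    rw [EK_Δ]
    intro h
    apply hΔ
    have := (algebraMap ℚ Qbar).injective (h.trans (map_zero _).symm)
    exact_mod_cast this
  have hD' : 4 * (EK W).Δ = u ^ 6 * (4 * (b ^ 5 * (b ^ 2 - 11 * b - 1))) := by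
    rw [← cD_eq]; exact hD
  have hc4' : (EK W).c₄ = u ^ 2 * (b ^ 4 - 12 * b ^ 3 + 14 * b ^ 2 + 12 * b + 1) := by
    rw [← cc4_eq]; exact hc4
  have hb11 : b ^ 2 - 11 * b - 1 ≠ 0 := by
    intro h
    apply hΔK
    have : 4 * (EK W).Δ = 0 := by rw [hD', h]; ring
    simpa using this
  have hBp11 : Bp ≠ 11 := by
    intro h
    apply hb11
    rw [hBp] at h
    field_simp at h
    linear_combination h
  have hjK : (EK W).c₄ ^ 3 * (Bp - 11) = (EK W).Δ * (Bp ^ 2 - 12 * Bp + 16) ^ 3 := by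
    have h4 : (4 : Qbar) ≠ 0 := by norm_num
    have hΔe : (EK W).Δ = u ^ 6 * (b ^ 5 * (b ^ 2 - 11 * b - 1)) := by
      apply mul_left_cancel₀ h4
      rw [hD']; ring
    rw [hc4', hΔe, hBp]
    field_simp
    ring
  -- Galois invariance of ω, Bp, θ
  have sb : ∀ σ : Qbar ≃ₐ[ℚ] Qbar, ∀ x, σ (cb B2 B4 B6 x) = cb B2 B4 B6 (σ x) :=
    fun σ x => sigma_cb σ (s2 σ) (s4 σ) (s6 σ) x
  have key : ∀ σ : Qbar ≃ₐ[ℚ] Qbar, σ ω = ω ∧ σ Bp = Bp ∧ σ θ = θ := by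
    intro σ
    have hσρ : σ ρ = (x₃ - σ x₁) / (σ x₂ - σ x₁) := by
      rw [hρdef, map_div₀, map_sub, map_sub, g3 σ]
    have hσb : σ b = cb B2 B4 B6 (σ x₁) := sb σ x₁
    have hσb' : σ b' = cb B2 B4 B6 (σ x₂) := sb σ x₂
    rcases g5 σ with ⟨e1, e2⟩ | ⟨e1, e2⟩
    · have r : σ ρ = ρ := by rw [hσρ, e1, e2]
      have r1 : σ b = b := by rw [hσb, e1]
      have r2 : σ b' = b' := by rw [hσb', e2]
      refine ⟨?_, ?_, ?_⟩
      · rw [hωdef, map_mul, map_sub, map_one, r]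
      · rw [hBpdef, map_add, r1, r2]
      · rw [hθdef, map_mul, map_sub, map_sub, map_mul, map_ofNat, map_one, r, r1, r2]
    · have r : σ ρ = 1 - ρ := by
        rw [hσρ, e1, e2, hρdef]
        have : x₁ - x₂ ≠ 0 := by
          intro h; apply hx21ne; linear_combination -h
        field_simp
        ring
      have r1 : σ b = b' := by rw [hσb, e1]
      have r2 : σ b' = b := by rw [hσb', e2]
      refine ⟨?_, ?_, ?_⟩
      · rw [hωdef, map_mul, map_sub, map_one, r]; ring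
      · rw [hBpdef, map_add, r1, r2]; ring
      · rw [hθdef, map_mul, map_sub, map_sub, map_mul, map_ofNat, map_one, r, r1, r2]; ring
  obtain ⟨ω₀, hω₀⟩ := exists_rat_of_fixed ω (fun σ => (key σ).1)
  obtain ⟨B₀, hB₀⟩ := exists_rat_of_fixed Bp (fun σ => (key σ).2.1)
  obtain ⟨θ₀, hθ₀⟩ := exists_rat_of_fixed θ (fun σ => (key σ).2.2)
  have inj := (algebraMap ℚ Qbar).injective
  refine hend ω₀ B₀ θ₀ ?_ ?_ ?_ ?_ ?_
  · apply inj
    rw [map_zero]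
    simp only [cG] at hGK ⊢
    rw [← hω₀, ← hB₀] at hGK
    simpa using hGK
  · intro h
    apply hω0
    rw [← hω₀, h, map_zero]
  · apply inj
    rw [← hω₀, ← hB₀, ← hθ₀] at hθsq
    simpa using hθsq
  · intro h
    apply hBp11
    rw [← hB₀, h]
    simp
  · apply inj
    rw [EK_c₄, EK_Δ, ← hB₀] at hjK
    simpa using hjK

end Fermat.Agent.S51.Main
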