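import Fermat.Agent.S51.ThreeTorsionGalois
import Fermat.Prelude.Def_FLTPrelim_ModularRep

/-!
# Reducible mod `p` representation ⟹ a Galois-stable cyclic subgroup (S51, T1/T2)

* `exists_stable_point_of_card`: generic glue (any prime `p`), from `Nat.card E[p] ≤ p ^ 2`
  and `Nontrivial E[p]`.
* `exists_stable_point_three`: the case `p = 3` for a Weierstrass curve over `ℤ` with `Δ ≠ 0`.
-/

set_option autoImplicit false

namespace Fermat.Agent.S51

open Polynomial WeierstrassCurve WeierstrassCurve.Affine WeierstrassCurve.Affine.Point Module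
open scoped WeierstrassCurve.Affine

local notation "Qbar" => AlgebraicClosure ℚ

/-- Generic glue: if `E[p](ℚ̄)` is finite of cardinality at most `p ^ 2` and nontrivial, and the
mod `p` representation is not irreducible, there is a nonzero `p`-torsion point generating a
Galois-stable cyclic subgroup. -/
theorem exists_stable_point_of_card (E : WeierstrassCurve.Affine ℚ) (p : ℕ) [Fact p.Prime]
    (hfin : Finite (Submodule.torsionBy ℤ (E⁄Qbar).Point ((p : ℕ) : ℤ)))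
    (hcard : Nat.card (Submodule.torsionBy ℤ (E⁄Qbar).Point ((p : ℕ) : ℤ)) ≤ p ^ 2)
    (hnt : Nontrivial (Submodule.torsionBy ℤ (E⁄Qbar).Point ((p : ℕ) : ℤ)))
    (h : ¬ GaloisRepIsIrreducible (K := Qbar) ℚ E p) :
    ∃ P : (E⁄Qbar).Point, P ≠ 0 ∧ p • P = 0 ∧
      ∀ σ : Qbar ≃ₐ[ℚ] Qbar, ∃ k : ℕ, σ • P = k • P := by
  have hp : p.Prime := Fact.out
  -- extract the stable submodule
  have hN : ∃ N : Submodule (ZMod p) (Submodule.torsionBy ℤ (E⁄Qbar).Point ((p : ℕ) : ℤ)),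
      IsGaloisStable ℚ N ∧ N ≠ ⊥ ∧ N ≠ ⊤ := by
    by_contra hcon
    apply h
    refine ⟨hnt, fun N hN => ?_⟩
    by_contra hne
    push Not at hne
    exact hcon ⟨N, hN, hne.1, hne.2⟩
  obtain ⟨N, hN, hbot, htop⟩ := hN
  have hmf : Module.Finite (ZMod p) (Submodule.torsionBy ℤ (E⁄Qbar).Point ((p : ℕ) : ℤ)) :=
    Module.Finite.of_finite
  -- the dimension of `E[p]` is at most `2`
  have hpow := Module.natCard_eq_pow_finrank (K := ZMod p)
    (V := Submodule.torsionBy ℤ (E⁄Qbar).Point ((p : ℕ) : ℤ))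
  rw [Nat.card_zmod] at hpow
  have hrank : finrank (ZMod p) (Submodule.torsionBy ℤ (E⁄Qbar).Point ((p : ℕ) : ℤ)) ≤ 2 := by
    by_contra hlt
    push Not at hlt
    have h1 : p ^ 3 ≤
        p ^ finrank (ZMod p) (Submodule.torsionBy ℤ (E⁄Qbar).Point ((p : ℕ) : ℤ)) :=
      Nat.pow_le_pow_right hp.pos hlt
    have h2 : p ^ 2 < p ^ 3 := Nat.pow_lt_pow_right hp.one_lt (by norm_num)
    omega
  -- the dimension of `N` is `1`
  have hNlt : finrank (ZMod p) N <
      finrank (ZMod p) (Submodule.torsionBy ℤ (E⁄Qbar).Point ((p : ℕ) : ℤ)) :=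
    Submodule.finrank_lt htop
  have hNpos : 0 < finrank (ZMod p) N := by
    rw [Module.finrank_pos_iff]
    exact (Submodule.nontrivial_iff_ne_bot).mpr hbot
  have hN1 : finrank (ZMod p) N = 1 := by omega
  obtain ⟨v, hv0, hv⟩ := finrank_eq_one_iff'.mp hN1
  obtain ⟨⟨P, hPp⟩, hPN⟩ := v
  have hP0 : P ≠ 0 := by
    intro h
    apply hv0
    apply Subtype.ext
    apply Subtype.ext
    exact h
  refine ⟨P, hP0, ?_, fun σ => ?_⟩
  · have := (Submodule.mem_torsionBy_iff _ _).mp hPp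
    rw [← Nat.cast_smul_eq_nsmul ℤ]
    exact this
  · let Pt : Submodule.torsionBy ℤ (E⁄Qbar).Point ((p : ℕ) : ℤ) := ⟨P, hPp⟩
    have hσN : σ • Pt ∈ N := hN σ _ hPN
    obtain ⟨c, hc⟩ := hv ⟨_, hσN⟩
    refine ⟨c.val, ?_⟩
    have hc' : ((c • Pt : Submodule.torsionBy ℤ (E⁄Qbar).Point ((p : ℕ) : ℤ)) :
        (E⁄Qbar).Point) = σ • P := by
      have := congrArg (fun w : N => ((w : Submodule.torsionBy ℤ (E⁄Qbar).Point ((p : ℕ) : ℤ)) :
        (E⁄Qbar).Point)) hc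
      exact this
    rw [← hc']
    have hcval : c = ((c.val : ℕ) : ZMod p) := (ZMod.natCast_zmod_val c).symm
    conv_lhs => rw [hcval, Nat.cast_smul_eq_nsmul]
    simp [Pt]

/-- The case `p = 3` for an integral Weierstrass curve with nonzero discriminant. -/
theorem exists_stable_point_three (W : WeierstrassCurve ℤ) (hΔ : W.Δ ≠ 0)
    (h : ¬ W.ModRepIsIrreducible 3) :
    ∃ P : ((W.map (Int.castRingHom ℚ))⁄Qbar).Point, P ≠ 0 ∧ 3 • P = 0 ∧
      ∀ σ : Qbar ≃ₐ[ℚ] Qbar, ∃ k : ℕ, σ • P = k • P := by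
  have h3 : (3 : Qbar) ≠ 0 := by norm_num
  have h2 : (2 : Qbar) ≠ 0 := by norm_num
  have : Fact (Nat.Prime 3) := ⟨by norm_num⟩
  have hΔ' : ((W.map (Int.castRingHom ℚ))⁄Qbar).Δ ≠ 0 := by
    change ((W.map (Int.castRingHom ℚ)).map (algebraMap ℚ Qbar)).Δ ≠ 0
    rw [WeierstrassCurve.map_Δ, WeierstrassCurve.map_Δ]
    simpa using hΔ
  refine exists_stable_point_of_card (W.map (Int.castRingHom ℚ)) 3
    (finite_threeTorsion _ h3) (card_threeTorsion_le _ h3) ?_ h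
  obtain ⟨P, hP0, hP3⟩ := exists_three_torsion_ne_zero
    ((W.map (Int.castRingHom ℚ))⁄Qbar) h2 h3 hΔ'
  refine ⟨⟨⟨P, ?_⟩, 0, ?_⟩⟩
  · rw [Submodule.mem_torsionBy_iff]
    simpa using hP3
  · intro h
    apply hP0
    exact congrArg Subtype.val h

/-- Convenience form of `exists_stable_point_of_card` for an integral Weierstrass curve, with
nontriviality given by a nonzero `p`-torsion point. -/
theorem exists_stable_point_int (W : WeierstrassCurve ℤ) (p : ℕ) [Fact p.Prime]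
    (hfin : Finite (Submodule.torsionBy ℤ ((W.map (Int.castRingHom ℚ))⁄Qbar).Point
      ((p : ℕ) : ℤ)))
    (hcard : Nat.card (Submodule.torsionBy ℤ ((W.map (Int.castRingHom ℚ))⁄Qbar).Point
      ((p : ℕ) : ℤ)) ≤ p ^ 2)
    (hnt : ∃ P : ((W.map (Int.castRingHom ℚ))⁄Qbar).Point, P ≠ 0 ∧ p • P = 0)
    (h : ¬ W.ModRepIsIrreducible p) :
    ∃ P : ((W.map (Int.castRingHom ℚ))⁄Qbar).Point, P ≠ 0 ∧ p • P = 0 ∧
      ∀ σ : Qbar ≃ₐ[ℚ] Qbar, ∃ k : ℕ, σ • P = k • P := by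
  refine exists_stable_point_of_card (W.map (Int.castRingHom ℚ)) p hfin hcard ?_ h
  obtain ⟨P, hP0, hPp⟩ := hnt
  refine ⟨⟨⟨P, ?_⟩, 0, ?_⟩⟩
  · rw [Submodule.mem_torsionBy_iff, Nat.cast_smul_eq_nsmul]
    exact hPp
  · intro h
    apply hP0
    exact congrArg Subtype.val h

end Fermat.Agent.S51
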