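/-
S51 helper library: the doubling formula on a Weierstrass curve in terms of Mathlib's division
polynomials, and its consequences for `3`- and `5`-torsion points.

For a Weierstrass curve `W` over a field `K` write `D = W.Ψ₂Sq = 4x³ + b₂x² + 2b₄x + b₆` and
`N = dblNum W = x⁴ - b₄x² - 2b₆x - b₈ = x·D - Ψ₃`. Then for a nonzero point `P`:
* `P + P = 0 ↔ D(x(P)) = 0`;
* otherwise `x(P + P) · D(x(P)) = N(x(P))`.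
-/
import Mathlib

set_option autoImplicit false

open Polynomial WeierstrassCurve

namespace Fermat.Agent.S51.Dbl

section Poly

variable {R : Type*} [CommRing R] (W : WeierstrassCurve R)

/-- The numerator `x⁴ - b₄x² - 2b₆x - b₈` of the `x`-coordinate of `2P`
(the denominator being `W.Ψ₂Sq`). -/
noncomputable def dblNum : R[X] :=
  X ^ 4 - C W.b₄ * X ^ 2 - C (2 * W.b₆) * X - C W.b₈

lemma dblNum_eq : dblNum W = X * W.Ψ₂Sq - W.Ψ₃ := by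
  simp only [dblNum, Ψ₂Sq, Ψ₃, map_mul, map_ofNat]
  ring

lemma eval_dblNum (x : R) :
    (dblNum W).eval x = x ^ 4 - W.b₄ * x ^ 2 - 2 * W.b₆ * x - W.b₈ := by
  simp [dblNum]

lemma eval_Ψ₂Sq (x : R) :
    W.Ψ₂Sq.eval x = 4 * x ^ 3 + W.b₂ * x ^ 2 + 2 * W.b₄ * x + W.b₆ := by
  simp [Ψ₂Sq]

lemma eval_Ψ₃ (x : R) :
    W.Ψ₃.eval x = 3 * x ^ 4 + W.b₂ * x ^ 3 + 3 * W.b₄ * x ^ 2 + 3 * W.b₆ * x + W.b₈ := by
  simp [Ψ₃]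

lemma eval_Ψ₃_eq (x : R) : W.Ψ₃.eval x = x * W.Ψ₂Sq.eval x - (dblNum W).eval x := by
  rw [dblNum_eq]; simp

lemma preΨ'_five : W.preΨ' 5 = W.preΨ₄ * W.Ψ₂Sq ^ 2 - W.Ψ₃ ^ 3 := by
  have h := W.preΨ'_odd 0
  simpa using h

/-- `D(N/D)·D³`: the denominator of the `x`-coordinate of `4P` is `D · dblDen₂`. -/
noncomputable def dblDen₂ : R[X] :=
  C 4 * dblNum W ^ 3 + C W.b₂ * dblNum W ^ 2 * W.Ψ₂Sq + C (2 * W.b₄) * dblNum W * W.Ψ₂Sq ^ 2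
    + C W.b₆ * W.Ψ₂Sq ^ 3

set_option maxHeartbeats 1000000 in
lemma dblDen₂_eq : dblDen₂ W = W.preΨ₄ ^ 2 := by
  simp only [dblDen₂, dblNum, Ψ₂Sq, preΨ₄, b₂, b₄, b₆, b₈]
  simp only [map_mul, map_ofNat, map_add, map_sub, map_pow]
  ring

/-- `N(N/D)·D⁴`: the numerator of the `x`-coordinate of `4P`. -/
noncomputable def dblNum₂ : R[X] :=
  dblNum W ^ 4 - C W.b₄ * dblNum W ^ 2 * W.Ψ₂Sq ^ 2 - C (2 * W.b₆) * dblNum W * W.Ψ₂Sq ^ 3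
    - C W.b₈ * W.Ψ₂Sq ^ 4

set_option maxHeartbeats 4000000 in
/-- The polynomial identity behind `x(4P) - x(P) = -ψ₃ψ₅/ψ₄²`. -/
lemma dblNum₂_sub : dblNum₂ W - X * W.Ψ₂Sq * W.preΨ₄ ^ 2 = - (W.Ψ₃ * W.preΨ' 5) := by
  rw [preΨ'_five]
  simp only [dblNum₂, dblNum, Ψ₂Sq, Ψ₃, preΨ₄, b₂, b₄, b₆, b₈]
  simp only [map_mul, map_ofNat, map_add, map_sub, map_pow]
  ring

/-- If `x₂ · D(x) = N(x)` then `D(x₂) · D(x)³ = preΨ₄(x)²`. -/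
lemma eval_Ψ₂Sq_mul_pow {x x₂ : R} (h : x₂ * W.Ψ₂Sq.eval x = (dblNum W).eval x) :
    W.Ψ₂Sq.eval x₂ * W.Ψ₂Sq.eval x ^ 3 = W.preΨ₄.eval x ^ 2 := by
  have h1 : (dblDen₂ W).eval x = W.preΨ₄.eval x ^ 2 := by rw [dblDen₂_eq]; simp
  rw [← h1, eval_Ψ₂Sq W x₂]
  simp only [dblDen₂, eval_add, eval_mul, eval_pow, eval_C]
  rw [← h]
  ring

/-- If `x₂ · D(x) = N(x)` then `N(x₂) · D(x)⁴ = dblNum₂(x)`. -/
lemma eval_dblNum_mul_pow {x x₂ : R} (h : x₂ * W.Ψ₂Sq.eval x = (dblNum W).eval x) :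
    (dblNum W).eval x₂ * W.Ψ₂Sq.eval x ^ 4 = (dblNum₂ W).eval x := by
  rw [eval_dblNum W x₂]
  simp only [dblNum₂, eval_sub, eval_mul, eval_pow, eval_C]
  rw [← h]
  ring

/-- If `x₂ · D(x) = N(x)` and `x₄ · D(x₂) = N(x₂)` (so that `x₂ = x(2P)`, `x₄ = x(4P)`), then
`(x₄ - x) · D(x) · preΨ₄(x)² = -Ψ₃(x) · preΨ₅(x)`. -/
lemma sub_mul_eq_neg_Ψ₃_mul_preΨ'_five {x x₂ x₄ : R}
    (h : x₂ * W.Ψ₂Sq.eval x = (dblNum W).eval x)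
    (h' : x₄ * W.Ψ₂Sq.eval x₂ = (dblNum W).eval x₂) :
    (x₄ - x) * (W.Ψ₂Sq.eval x * W.preΨ₄.eval x ^ 2) =
      - (W.Ψ₃.eval x * (W.preΨ' 5).eval x) := by
  have h1 := eval_Ψ₂Sq_mul_pow W h
  have h2 := eval_dblNum_mul_pow W h
  have h3 : (dblNum₂ W).eval x - x * W.Ψ₂Sq.eval x * W.preΨ₄.eval x ^ 2 =
      - (W.Ψ₃.eval x * (W.preΨ' 5).eval x) := by
    rw [← eval_mul, ← eval_neg, ← dblNum₂_sub]; simp
  rw [← h3, ← h2, ← h', ← h1]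
  ring

end Poly

end Fermat.Agent.S51.Dbl
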