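/-
S51 helper library: point-level consequences of the doubling formula
(`Fermat/Agent/S51/Doubling.lean`) on `WeierstrassCurve.Affine.Point`.
-/
import Mathlib
import Fermat.Agent.S51.Doubling

set_option autoImplicit false

open Polynomial WeierstrassCurve

namespace Fermat.Agent.S51.Dbl

section Field

variable {K : Type*} [Field K] (W : WeierstrassCurve.Affine K)

/-- On the curve, `Ψ₂Sq(x) = (2y + a₁x + a₃)²`. -/
lemma eval_Ψ₂Sq_of_equation {x y : K} (h : W.Equation x y) :
    W.Ψ₂Sq.eval x = (y - W.negY x y) ^ 2 := by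
  rw [Affine.equation_iff] at h
  rw [eval_Ψ₂Sq]
  simp only [Affine.negY, b₂, b₄, b₆]
  linear_combination (-4) * h

section
variable [DecidableEq K]

/-- The tangent-line formula for `x(2P)`, with denominators cleared. -/
lemma addX_self_mul {x y : K} (h : W.Equation x y) (hy : y ≠ W.negY x y) :
    W.addX x x (W.slope x x y y) * W.Ψ₂Sq.eval x = (dblNum W).eval x := by
  have hψ : y - W.negY x y ≠ 0 := sub_ne_zero.mpr hy
  rw [eval_Ψ₂Sq_of_equation W h, Affine.slope_of_Y_ne rfl hy, eval_dblNum]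
  rw [Affine.equation_iff] at h
  simp only [Affine.addX]
  field_simp
  simp only [Affine.negY, b₄, b₆, b₈]
  linear_combination (-(8 * x + 4 * W.a₂ + W.a₁ ^ 2)) * h

end

variable {W}

/-- The `x`-coordinate of a point (junk value `0` at the point at infinity). -/
def xCoord : W.Point → K
  | .zero => 0
  | .some x _ _ => x

@[simp] lemma xCoord_zero : xCoord (0 : W.Point) = 0 := rfl

@[simp] lemma xCoord_some {x y : K} (h : W.Nonsingular x y) :
    xCoord (Affine.Point.some x y h) = x := rfl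

lemma xCoord_neg (P : W.Point) : xCoord (-P) = xCoord P := by
  cases P <;> rfl

lemma eq_or_eq_neg_of_xCoord_eq {P Q : W.Point} (hP : P ≠ 0) (hQ : Q ≠ 0)
    (h : xCoord P = xCoord Q) : P = Q ∨ P = -Q := by
  cases P with
  | zero => exact absurd rfl hP
  | some x y hxy =>
    cases Q with
    | zero => exact absurd rfl hQ
    | some x' y' hxy' => exact Affine.Point.X_eq_iff.mp h

variable [DecidableEq K]

/-- `2P = 0` iff `Ψ₂Sq` vanishes at `x(P)`. -/
theorem add_self_eq_zero_iff {P : W.Point} (hP : P ≠ 0) :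
    P + P = 0 ↔ W.Ψ₂Sq.eval (xCoord P) = 0 := by
  cases P with
  | zero => exact absurd rfl hP
  | some x y h =>
    rw [xCoord_some, eval_Ψ₂Sq_of_equation W h.1]
    constructor
    · intro h0
      by_contra hne
      have hy : y ≠ W.negY x y := fun e => hne (by rw [← e, sub_self]; ring)
      rw [Affine.Point.add_self_of_Y_ne hy] at h0
      exact Affine.Point.some_ne_zero _ h0
    · intro h0
      have : y = W.negY x y := sub_eq_zero.mp (pow_eq_zero_iff two_ne_zero |>.mp h0)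
      exact Affine.Point.add_self_of_Y_eq this

/-- The duplication formula: `x(2P) · Ψ₂Sq(x(P)) = dblNum(x(P))`. -/
theorem xCoord_add_self {P : W.Point} (hP : P ≠ 0) (h2 : P + P ≠ 0) :
    xCoord (P + P) * W.Ψ₂Sq.eval (xCoord P) = (dblNum W).eval (xCoord P) := by
  cases P with
  | zero => exact absurd rfl hP
  | some x y h =>
    have hy : y ≠ W.negY x y := fun e => h2 (Affine.Point.add_self_of_Y_eq e)
    rw [Affine.Point.add_self_of_Y_ne hy]
    exact addX_self_mul W h.1 hy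

/-! ### `3`-torsion -/

/-- A nonzero point killed by `3` has `Ψ₃(x(P)) = 0`. -/
theorem eval_Ψ₃_eq_zero_of_three_nsmul {P : W.Point} (hP : P ≠ 0) (h3 : 3 • P = 0) :
    W.Ψ₃.eval (xCoord P) = 0 := by
  have h2 : P + P = -P := by
    rw [eq_neg_iff_add_eq_zero, ← h3]; abel
  have h2ne : P + P ≠ 0 := by rw [h2]; exact neg_ne_zero.mpr hP
  have hx := xCoord_add_self hP h2ne
  rw [h2, xCoord_neg] at hx
  rw [eval_Ψ₃_eq, hx, sub_self]

omit [DecidableEq K] in
/-- At a nonsingular point, `Ψ₂Sq` and `Ψ₃` cannot both vanish (if `2 ≠ 0`). -/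
lemma eval_Ψ₂Sq_ne_zero_of_eval_Ψ₃ (h2 : (2 : K) ≠ 0) {x y : K} (h : W.Nonsingular x y)
    (h3 : W.Ψ₃.eval x = 0) : W.Ψ₂Sq.eval x ≠ 0 := by
  intro hD
  have hu : y - W.negY x y = 0 := by
    have := eval_Ψ₂Sq_of_equation W h.1
    rw [hD] at this
    exact pow_eq_zero_iff two_ne_zero |>.mp this.symm
  -- `D'(x)² = 2 D(x) D''(x) - 16 Ψ₃(x)`
  have hD' : (12 * x ^ 2 + 2 * W.b₂ * x + 2 * W.b₄) ^ 2 =
      2 * W.Ψ₂Sq.eval x * (24 * x + 2 * W.b₂) - 16 * W.Ψ₃.eval x := by
    rw [eval_Ψ₂Sq, eval_Ψ₃]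
    simp only [b₂, b₄, b₆, b₈]
    ring
  rw [hD, h3] at hD'
  have hD'0 : 12 * x ^ 2 + 2 * W.b₂ * x + 2 * W.b₄ = 0 := by
    apply pow_eq_zero_iff two_ne_zero |>.mp
    rw [hD']; ring
  rw [Affine.nonsingular_iff'] at h
  have h4 : (4 : K) ≠ 0 := by
    have : (4 : K) = 2 * 2 := by norm_num
    rw [this]; exact mul_ne_zero h2 h2
  rcases h.2 with hv | hu'
  · apply hv
    have : 4 * (W.a₁ * y - (3 * x ^ 2 + 2 * W.a₂ * x + W.a₄)) = 0 := by
      simp only [Affine.negY] at hu
      simp only [b₂, b₄] at hD'0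
      linear_combination 2 * W.a₁ * hu - hD'0
    exact (mul_eq_zero.mp this).resolve_left h4
  · apply hu'
    simp only [Affine.negY] at hu
    linear_combination hu

/-- A nonzero point with `Ψ₃(x(P)) = 0` is killed by `3` (if `2 ≠ 0`). -/
theorem three_nsmul_eq_zero_of_eval_Ψ₃ (h2 : (2 : K) ≠ 0) {P : W.Point} (hP : P ≠ 0)
    (h3 : W.Ψ₃.eval (xCoord P) = 0) : 3 • P = 0 := by
  have hD : W.Ψ₂Sq.eval (xCoord P) ≠ 0 := by
    cases P with
    | zero => exact absurd rfl hP
    | some x y h => exact eval_Ψ₂Sq_ne_zero_of_eval_Ψ₃ h2 h h3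
  have h2ne : P + P ≠ 0 := fun h0 => hD ((add_self_eq_zero_iff hP).mp h0)
  have hx := xCoord_add_self hP h2ne
  rw [eval_Ψ₃_eq, sub_eq_zero] at h3
  rw [← h3] at hx
  have hx' : xCoord (P + P) = xCoord P := mul_right_cancel₀ hD hx
  rcases eq_or_eq_neg_of_xCoord_eq h2ne hP hx' with h | h
  · exact absurd (by simpa using h) hP
  · rw [eq_neg_iff_add_eq_zero] at h
    rw [← h]; abel

end Field

end Fermat.Agent.S51.Dbl
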