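import Fermat.Agent.S51.E15Classify

namespace Fermat.Agent.S51

theorem descent {a q b c k : ℤ} (h : IsTuple a q b c k)
    (hk : k = 1 ∨ k = -1 ∨ k = 5 ∨ k = -5) :
    ∃ x' : ℚ, IsPt x' ∧ ht x' < ht ((a : ℚ) ^ 2 / (q : ℚ) ^ 2) := by
  rcases hk with rfl | rfl | rfl | rfl
  · exact descent_one h
  · exact descent_neg_one h
  · exact descent_five h
  · exact descent_neg_five h

theorem not_isPt (x : ℚ) : ¬ IsPt x := by
  induction hn : ht x using Nat.strong_induction_on generalizing x with
  | _ n ih =>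
    rintro ⟨y, hy, h⟩
    obtain ⟨a, q, b, c, k, ht, hk, rfl⟩ := classify x y hy h
    obtain ⟨x', hx', hlt⟩ := descent ht hk
    exact ih (Fermat.Agent.S51.ht x') (hn ▸ hlt) x' rfl hx'

/-- The curve `y² = x(x-1)(x-81)` has no rational points with `y ≠ 0`. -/
theorem no_points (x y : ℚ) (h : y ^ 2 = x * (x - 1) * (x - 81)) : y = 0 := by
  by_contra hy
  exact not_isPt x ⟨y, hy, h⟩

/-- Rational points on `y² = x(x-16)(x+9)` (a model of `X₀(15)`). -/
theorem E15_rational_points (x y : ℚ) (h : y ^ 2 = x * (x - 16) * (x + 9)) :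
    x = 0 ∨ x = 16 ∨ x = -9 ∨ x = -4 ∨ x = 36 := by
  by_cases hx : x = 16
  · exact Or.inr (Or.inl hx)
  have hx1 : x - 16 ≠ 0 := sub_ne_zero.mpr hx
  have key := no_points (x * (x + 9) / (x - 16)) (y * (400 - (x - 16) ^ 2) / (x - 16) ^ 2) (by
    field_simp
    linear_combination (400 - (x - 16) ^ 2) ^ 2 * h)
  have h2 : y * (400 - (x - 16) ^ 2) = 0 := by
    have := div_eq_zero_iff.mp key
    rcases this with h3 | h3
    · exact h3
    · exact absurd (pow_eq_zero_iff two_ne_zero |>.mp h3) hx1
  rcases mul_eq_zero.mp h2 with h3 | h3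
  · rw [h3] at h
    have h4 : x * (x - 16) * (x + 9) = 0 := by rw [← h]; ring
    rcases mul_eq_zero.mp h4 with h5 | h5
    · rcases mul_eq_zero.mp h5 with h6 | h6
      · exact Or.inl h6
      · exact absurd h6 hx1
    · right; right; left; linarith
  · have h4 : (x - 36) * (x + 4) = 0 := by linear_combination -h3
    rcases mul_eq_zero.mp h4 with h5 | h5
    · right; right; right; right; linarith
    · right; right; right; left; linarith

end Fermat.Agent.S51
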