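import Mathlib

namespace Fermat.Agent.S51

/-- Naive height of a rational number. -/
def ht (x : ℚ) : ℕ := max x.num.natAbs x.den

lemma ht_div_le (N D : ℤ) (hN : 0 < N) (hD : 0 < D) :
    ht ((N : ℚ) / D) ≤ max N.natAbs D.natAbs := by
  have hD' : D ≠ 0 := hD.ne'
  have h1 : ((N : ℚ) / D).num ∣ N := by
    rw [← Rat.divInt_eq_div]; exact Rat.num_dvd N hD'
  have h2 : (((N : ℚ) / D).den : ℤ) ∣ D := by
    rw [← Rat.divInt_eq_div]; exact Rat.den_dvd N D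
  have h3 : ((N : ℚ) / D).num.natAbs ≤ N.natAbs :=
    Nat.le_of_dvd (Int.natAbs_pos.mpr hN.ne') (Int.natAbs_dvd_natAbs.mpr h1)
  have h4 : ((N : ℚ) / D).den ≤ D.natAbs := by
    have := Int.natAbs_dvd_natAbs.mpr h2
    rw [Int.natAbs_natCast] at this
    exact Nat.le_of_dvd (Int.natAbs_pos.mpr hD') this
  exact max_le_max h3 h4

lemma ht_sq_div_sq (a q : ℤ) (hq : 0 < q) (h : IsCoprime a q) :
    ht ((a : ℚ) ^ 2 / (q : ℚ) ^ 2) = max (a.natAbs ^ 2) (q.natAbs ^ 2) := by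
  have hq2 : (0 : ℤ) < q ^ 2 := by positivity
  have hcop : Nat.Coprime (a ^ 2).natAbs (q ^ 2).natAbs := by
    rw [Int.natAbs_pow, Int.natAbs_pow]
    exact Nat.Coprime.pow 2 2 (Int.isCoprime_iff_gcd_eq_one.mp h)
  have e : ((a : ℚ) ^ 2 / (q : ℚ) ^ 2) = ((a ^ 2 : ℤ) : ℚ) / ((q ^ 2 : ℤ) : ℚ) := by push_cast; rfl
  have hden : (((a ^ 2 : ℤ) : ℚ) / ((q ^ 2 : ℤ) : ℚ)).den = (q ^ 2).natAbs := by
    have := Rat.den_div_eq_of_coprime hq2 hcop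
    have h5 := congrArg Int.natAbs this
    rwa [Int.natAbs_natCast] at h5
  unfold ht
  rw [e, Rat.num_div_eq_of_coprime hq2 hcop, hden, Int.natAbs_pow, Int.natAbs_pow]

end Fermat.Agent.S51
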