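import Fermat.Agent.S51.E15Descent
import Fermat.Agent.S51.E15Selmer

set_option autoImplicit false

namespace Fermat.Agent.S51

/-- Complete 2-descent on `y² = x(x-1)(x-81)` in the form used by `E15Descent.lean`:
a rational point with `y ≠ 0` has `x = a²/q²` with `(a, q, b, c, k)` an `IsTuple`,
`k ∈ {1, -1, 5, -5}`.  (Repackaging of `selmer81`.) -/
theorem classify (x y : ℚ) (hy : y ≠ 0) (h : y ^ 2 = x * (x - 1) * (x - 81)) :
    ∃ a q b c k : ℤ, IsTuple a q b c k ∧ (k = 1 ∨ k = -1 ∨ k = 5 ∨ k = -5) ∧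
      x = (a : ℚ) ^ 2 / (q : ℚ) ^ 2 := by
  obtain ⟨U, e, V, W, d, hU, he, hV, hW, hcop, hd, hx, h1, h2⟩ := selmer81 x y hy h
  refine ⟨(U : ℤ), (e : ℤ), (V : ℤ), (W : ℤ), d, ⟨?_, ?_, ?_, ?_, ?_, h1, h2⟩, hd, ?_⟩
  · exact_mod_cast hU
  · exact_mod_cast he
  · exact_mod_cast hV
  · exact_mod_cast hW
  · exact Nat.isCoprime_iff_coprime.mpr hcop
  · rw [hx]; push_cast; ring

end Fermat.Agent.S51
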