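import Mathlib

set_option autoImplicit false

namespace Fermat.Agent.S51.Desc

/-! ### Small arithmetic helpers -/

theorem three_dvd_of_sq_add_sq (x y : ℤ) (h : (3 : ℤ) ∣ x ^ 2 + y ^ 2) : (3 : ℤ) ∣ x := by
  have key : ∀ u v : ZMod 3, u ^ 2 + v ^ 2 = 0 → u = 0 := by decide
  have h1 : ((x ^ 2 + y ^ 2 : ℤ) : ZMod 3) = 0 := (ZMod.intCast_zmod_eq_zero_iff_dvd _ 3).mpr h
  push_cast at h1
  exact (ZMod.intCast_zmod_eq_zero_iff_dvd x 3).mp (key _ _ h1)

theorem coprime_legs {a b c : ℤ} (hab : IsCoprime a b) (h : a ^ 2 = b ^ 2 + c ^ 2) :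
    IsCoprime b c := by
  have h1 : IsCoprime (a ^ 2) b := hab.pow_left
  have h2 : a ^ 2 = c ^ 2 + b * b := by rw [h]; ring
  rw [h2] at h1
  have h3 : IsCoprime (c ^ 2) b := IsCoprime.of_add_mul_left_left h1
  exact ((IsCoprime.pow_left_iff (by norm_num : 0 < 2)).mp h3).symm

theorem four_numbers {p q r s : ℤ} (hp : 0 < p) (hq : 0 < q) (hr : 0 < r) (hs : 0 < s)
    (h : p * q = r * s) (hpq : IsCoprime p q) :
    ∃ A B C D : ℤ, 0 < A ∧ 0 < B ∧ 0 < C ∧ 0 < D ∧ p = A * B ∧ q = C * D ∧ r = A * C ∧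
      s = B * D ∧ IsCoprime B C ∧ IsCoprime A D := by
  have hg : 0 < Int.gcd p r := Int.gcd_pos_of_ne_zero_left _ hp.ne'
  obtain ⟨B, C, hBC, hpB, hrC⟩ := Int.exists_gcd_one hg
  set A : ℤ := (Int.gcd p r : ℤ) with hA
  have hApos : 0 < A := by rw [hA]; exact_mod_cast hg
  have hBpos : 0 < B := by
    by_contra hB
    replace hB := not_lt.mp hB
    have : B * A ≤ 0 := mul_nonpos_of_nonpos_of_nonneg hB hApos.le
    rw [← hpB] at this
    omega
  have hCpos : 0 < C := by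
    by_contra hC
    replace hC := not_lt.mp hC
    have : C * A ≤ 0 := mul_nonpos_of_nonpos_of_nonneg hC hApos.le
    rw [← hrC] at this
    omega
  have hcop : IsCoprime B C := Int.isCoprime_iff_gcd_eq_one.mpr hBC
  have h1 : B * q = C * s := by
    have : A * (B * q) = A * (C * s) := by
      calc A * (B * q) = (B * A) * q := by ring
        _ = p * q := by rw [← hpB]
        _ = r * s := h
        _ = (C * A) * s := by rw [← hrC]
        _ = A * (C * s) := by ring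
    exact mul_left_cancel₀ hApos.ne' this
  have h2 : B ∣ s := by
    have : B ∣ C * s := ⟨q, h1.symm⟩
    exact hcop.dvd_of_dvd_mul_left this
  obtain ⟨D, hD⟩ := h2
  have hq' : q = C * D := by
    have : B * q = B * (C * D) := by rw [h1, hD]; ring
    exact mul_left_cancel₀ hBpos.ne' this
  have hDpos : 0 < D := by
    by_contra hD0
    replace hD0 := not_lt.mp hD0
    have : B * D ≤ 0 := mul_nonpos_of_nonneg_of_nonpos hBpos.le hD0
    rw [← hD] at this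
    omega
  refine ⟨A, B, C, D, hApos, hBpos, hCpos, hDpos, by rw [hpB]; ring, hq', by rw [hrC]; ring,
    hD, hcop, ?_⟩
  have h3 : IsCoprime (A * B) (C * D) := by
    have : p = A * B := by rw [hpB]; ring
    rw [← this, ← hq']
    exact hpq
  exact (IsCoprime.of_mul_left_left h3).of_mul_right_right


theorem pos_of_mul_pos_left_aux {x y : ℤ} (hx : 0 < x) (hxy : 0 < x * y) : 0 < y := by
  by_contra h
  have hy : y ≤ 0 := not_lt.mp h
  have : x * y ≤ 0 := mul_nonpos_of_nonneg_of_nonpos hx.le hy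
  omega

theorem parity_aux {a b c : ℤ} (h : a ^ 2 = b ^ 2 + c ^ 2) : (Even a ↔ (Even b ↔ Even c)) := by
  have hE : Even (a ^ 2) ↔ Even (b ^ 2 + c ^ 2) := by rw [h]
  simpa [Int.even_add, Int.even_pow] using hE

theorem parity_aux' {a b d : ℤ} (h : a ^ 2 = 81 * b ^ 2 + d ^ 2) :
    (Even a ↔ (Even b ↔ Even d)) := by
  have hE : Even (a ^ 2) ↔ Even (81 * b ^ 2 + d ^ 2) := by rw [h]
  have h81 : ¬ Even (81 : ℤ) := by decide
  simpa [Int.even_add, Int.even_pow, Int.even_mul, h81] using hE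

theorem not_three_dvd_hyp {a b c : ℤ} (hab : IsCoprime a b) (h1 : a ^ 2 = b ^ 2 + c ^ 2) :
    ¬ (3 : ℤ) ∣ a := by
  intro h3
  have : (3 : ℤ) ∣ b ^ 2 + c ^ 2 := by rw [← h1]; exact dvd_pow h3 two_ne_zero
  have h3b := three_dvd_of_sq_add_sq b c this
  have hu := hab.isUnit_of_dvd' h3 h3b
  have : ¬ IsUnit (3 : ℤ) := by decide
  exact this hu

theorem coprime_nine_mul {a b c : ℤ} (hab : IsCoprime a b) (h1 : a ^ 2 = b ^ 2 + c ^ 2) :
    IsCoprime a (9 * b) := by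
  have h3a := not_three_dvd_hyp hab h1
  have h3 : IsCoprime a 3 := (Int.prime_three.coprime_iff_not_dvd.mpr h3a).symm
  have h9 : IsCoprime a 9 := by
    have := h3.pow_right (n := 2)
    norm_num at this
    exact this
  exact h9.mul_right hab

theorem odd_dvd_80 (k : ℤ) (hk : k ∣ 80) (hodd : k % 2 = 1) :
    k = 1 ∨ k = -1 ∨ k = 5 ∨ k = -5 := by
  have hco : IsCoprime k 2 := Int.isCoprime_two_right.mpr (Int.odd_iff.mpr hodd)
  have hco16 : IsCoprime k 16 := by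
    have := hco.pow_right (n := 4)
    norm_num at this
    exact this
  have h5 : k ∣ 5 := by
    have : k ∣ 16 * 5 := by norm_num; exact hk
    exact hco16.dvd_of_dvd_mul_left this
  have h1 : k ≤ 5 := Int.le_of_dvd (by norm_num) h5
  have h2 : -5 ≤ k := by
    have h3 : -k ∣ 5 := (neg_dvd).mpr h5
    have := Int.le_of_dvd (by norm_num) h3
    omega
  obtain ⟨m, hm⟩ := h5
  interval_cases k <;> omega

theorem divisors_80 (k k' : ℤ) (h : k * k' = 80) (hpar : ¬ (k % 2 = 0 ∧ k' % 2 = 0)) :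
    (k = 1 ∧ k' = 80) ∨ (k = -1 ∧ k' = -80) ∨ (k = 5 ∧ k' = 16) ∨ (k = -5 ∧ k' = -16) ∨
      (k = 80 ∧ k' = 1) ∨ (k = -80 ∧ k' = -1) ∨ (k = 16 ∧ k' = 5) ∨ (k = -16 ∧ k' = -5) := by
  by_cases hk : k % 2 = 1
  · rcases odd_dvd_80 k ⟨k', h.symm⟩ hk with rfl | rfl | rfl | rfl <;> omega
  · have hk' : k' % 2 = 1 := by omega
    rcases odd_dvd_80 k' ⟨k, by rw [mul_comm]; exact h.symm⟩ hk' with rfl | rfl | rfl | rfl <;>
      omega

theorem lt_two_mul_prod {A B C D : ℤ} (hA : 0 < A) (hB : 0 < B) (hC : 0 < C) (hD : 0 < D) :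
    A < 2 * (A * B) * (C * D) ∧ B < 2 * (A * B) * (C * D) ∧ C < 2 * (A * B) * (C * D) ∧
      D < 2 * (A * B) * (C * D) := by
  have hAB : 0 < A * B := mul_pos hA hB
  have hCD : 0 < C * D := mul_pos hC hD
  have hBCD : 1 ≤ B * (C * D) := by
    have := mul_pos hB hCD
    omega
  have hACD : 1 ≤ A * (C * D) := by
    have := mul_pos hA hCD
    omega
  have hABD : 1 ≤ (A * B) * D := by
    have := mul_pos hAB hD
    omega
  have hABC : 1 ≤ (A * B) * C := by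
    have := mul_pos hAB hC
    omega
  refine ⟨?_, ?_, ?_, ?_⟩
  · nlinarith
  · nlinarith
  · nlinarith
  · nlinarith


/-- Splitting `9pq = r's'` with `r', s'` coprime. -/
theorem split_nine {p q r' s' a : ℤ} (hp : 0 < p) (hq : 0 < q) (hr' : 0 < r') (hs' : 0 < s')
    (h : r' * s' = 9 * (p * q)) (hco : IsCoprime r' s') (ha : a = r' ^ 2 + s' ^ 2) :
    ∃ r s : ℤ, 0 < r ∧ 0 < s ∧ p * q = r * s ∧ a = r ^ 2 + 81 * s ^ 2 := by
  have h3 : (3 : ℤ) ∣ r' * s' := by rw [h]; exact ⟨3 * (p * q), by ring⟩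
  have h9 : (9 : ℤ) ∣ r' * s' := by rw [h]; exact ⟨p * q, rfl⟩
  rcases Int.prime_three.dvd_or_dvd h3 with h3r | h3s
  · have hns : ¬ (3 : ℤ) ∣ s' := by
      intro h3s
      have hu := hco.isUnit_of_dvd' h3r h3s
      have : ¬ IsUnit (3 : ℤ) := by decide
      exact this hu
    have hc3 : IsCoprime (3 : ℤ) s' := Int.prime_three.coprime_iff_not_dvd.mpr hns
    have hc9 : IsCoprime (9 : ℤ) s' := by
      have := hc3.pow_left (m := 2)
      norm_num at this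
      exact this
    obtain ⟨t, ht⟩ := hc9.dvd_of_dvd_mul_right h9
    have htpos : 0 < t := by
      by_contra h0
      have : t ≤ 0 := not_lt.mp h0
      omega
    refine ⟨s', t, hs', htpos, ?_, ?_⟩
    · have : 9 * (p * q) = 9 * (s' * t) := by rw [← h, ht]; ring
      linarith
    · rw [ha, ht]; ring
  · have hnr : ¬ (3 : ℤ) ∣ r' := by
      intro h3r
      have hu := hco.isUnit_of_dvd' h3r h3s
      have : ¬ IsUnit (3 : ℤ) := by decide
      exact this hu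
    have hc3 : IsCoprime (3 : ℤ) r' := Int.prime_three.coprime_iff_not_dvd.mpr hnr
    have hc9 : IsCoprime (9 : ℤ) r' := by
      have := hc3.pow_left (m := 2)
      norm_num at this
      exact this
    obtain ⟨t, ht⟩ := hc9.dvd_of_dvd_mul_left h9
    have htpos : 0 < t := by
      by_contra h0
      have : t ≤ 0 := not_lt.mp h0
      omega
    refine ⟨r', t, hr', htpos, ?_, ?_⟩
    · have : 9 * (p * q) = 9 * (r' * t) := by rw [← h, ht]; ring
      linarith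
    · rw [ha, ht]; ring


/-- The algebraic heart of the even case. -/
theorem even_core {A B C D : ℤ} (hA : 0 < A) (hB : 0 < B) (hC : 0 < C) (hD : 0 < D)
    (hBC : IsCoprime B C) (hAD : IsCoprime A D)
    (hpar : ¬ ((A * B) % 2 = 1 ∧ (C * D) % 2 = 1))
    (heq : (A * B) ^ 2 + (C * D) ^ 2 = (A * C) ^ 2 + 81 * (B * D) ^ 2) :
    ∃ a' b' c' d' : ℤ, 0 < b' ∧ b' < 2 * (A * B) * (C * D) ∧ a' ^ 2 = b' ^ 2 + c' ^ 2 ∧
      a' ^ 2 = 81 * b' ^ 2 + d' ^ 2 := by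
  obtain ⟨hAlt, hBlt, hClt, hDlt⟩ := lt_two_mul_prod hA hB hC hD
  -- k
  have e1 : A ^ 2 * (B ^ 2 - C ^ 2) = D ^ 2 * (81 * B ^ 2 - C ^ 2) := by
    linear_combination heq
  have hAD2 : IsCoprime (A ^ 2) (D ^ 2) := hAD.pow
  obtain ⟨k, hk⟩ : A ^ 2 ∣ 81 * B ^ 2 - C ^ 2 :=
    hAD2.dvd_of_dvd_mul_left ⟨B ^ 2 - C ^ 2, e1.symm⟩
  have hk2 : B ^ 2 - C ^ 2 = D ^ 2 * k := by
    have hA2 : A ^ 2 ≠ 0 := pow_ne_zero 2 hA.ne'
    have : A ^ 2 * (B ^ 2 - C ^ 2) = A ^ 2 * (D ^ 2 * k) := by rw [e1, hk]; ring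
    exact mul_left_cancel₀ hA2 this
  -- k'
  have e2 : B ^ 2 * (A ^ 2 - 81 * D ^ 2) = C ^ 2 * (A ^ 2 - D ^ 2) := by
    linear_combination heq
  have hBC2 : IsCoprime (B ^ 2) (C ^ 2) := hBC.pow
  obtain ⟨k', hk'⟩ : B ^ 2 ∣ A ^ 2 - D ^ 2 :=
    hBC2.dvd_of_dvd_mul_left ⟨A ^ 2 - 81 * D ^ 2, e2.symm⟩
  have hk'2 : A ^ 2 - 81 * D ^ 2 = C ^ 2 * k' := by
    have hB2 : B ^ 2 ≠ 0 := pow_ne_zero 2 hB.ne'
    have : B ^ 2 * (A ^ 2 - 81 * D ^ 2) = B ^ 2 * (C ^ 2 * k') := by rw [e2, hk']; ring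
    exact mul_left_cancel₀ hB2 this
  -- k * k' = 80
  have hkk : k * k' = 80 := by
    have hB2 : B ^ 2 ≠ 0 := pow_ne_zero 2 hB.ne'
    have : B ^ 2 * (k * k') = B ^ 2 * 80 := by
      have h1 : k * (A ^ 2 - D ^ 2) = 80 * B ^ 2 := by linear_combination (-1 : ℤ) * hk + hk2
      calc B ^ 2 * (k * k') = k * (B ^ 2 * k') := by ring
        _ = k * (A ^ 2 - D ^ 2) := by rw [hk']
        _ = B ^ 2 * 80 := by rw [h1]; ring
    exact mul_left_cancel₀ hB2 this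
  -- parity
  have hpar2 : ¬ (k % 2 = 0 ∧ k' % 2 = 0) := by
    rintro ⟨hke, hk'e⟩
    apply hpar
    have hkE : Even k := Int.even_iff.mpr hke
    have hk'E : Even k' := Int.even_iff.mpr hk'e
    -- B ≡ C mod 2 and A ≡ D mod 2
    have h1 : Even (B ^ 2 - C ^ 2) := by rw [hk2]; exact hkE.mul_left _
    have h2 : Even (A ^ 2 - D ^ 2) := by rw [hk']; exact hk'E.mul_left _
    have h1' : Even B ↔ Even C := by
      simpa [Int.even_sub, Int.even_pow] using h1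
    have h2' : Even A ↔ Even D := by
      simpa [Int.even_sub, Int.even_pow] using h2
    have hBodd : ¬ Even B := by
      intro hBe
      have hCe := h1'.mp hBe
      have hu := hBC.isUnit_of_dvd' (even_iff_two_dvd.mp hBe) (even_iff_two_dvd.mp hCe)
      have : ¬ IsUnit (2 : ℤ) := by decide
      exact this hu
    have hCodd : ¬ Even C := fun h => hBodd (h1'.mpr h)
    have hAodd : ¬ Even A := by
      intro hAe
      have hDe := h2'.mp hAe
      have hu := hAD.isUnit_of_dvd' (even_iff_two_dvd.mp hAe) (even_iff_two_dvd.mp hDe)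
      have : ¬ IsUnit (2 : ℤ) := by decide
      exact this hu
    have hDodd : ¬ Even D := fun h => hAodd (h2'.mpr h)
    have hAB : ¬ Even (A * B) := by simp [Int.even_mul, hAodd, hBodd]
    have hCD : ¬ Even (C * D) := by simp [Int.even_mul, hCodd, hDodd]
    rw [Int.even_iff] at hAB hCD
    omega
  rcases divisors_80 k k' hkk hpar2 with ⟨rfl, rfl⟩ | ⟨rfl, rfl⟩ | ⟨rfl, rfl⟩ | ⟨rfl, rfl⟩ |
    ⟨rfl, rfl⟩ | ⟨rfl, rfl⟩ | ⟨rfl, rfl⟩ | ⟨rfl, rfl⟩
  · exact ⟨9 * B, C, A, 9 * D, hC, hClt, by linear_combination hk, by linear_combination 81 * hk2⟩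
  · exact ⟨C, B, D, A, hB, hBlt, by linear_combination (-1 : ℤ) * hk2,
      by linear_combination (-1 : ℤ) * hk⟩
  · exact ⟨A, D, 4 * B, 4 * C, hD, hDlt, by linear_combination hk', by linear_combination hk'2⟩
  · exact ⟨9 * D, A, 4 * C, 36 * B, hA, hAlt, by linear_combination (-1 : ℤ) * hk'2,
      by linear_combination (-81 : ℤ) * hk'⟩
  · exact ⟨A, D, B, C, hD, hDlt, by linear_combination hk', by linear_combination hk'2⟩
  · exact ⟨9 * D, A, C, 9 * B, hA, hAlt, by linear_combination (-1 : ℤ) * hk'2,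
      by linear_combination (-81 : ℤ) * hk'⟩
  · exact ⟨9 * B, C, 4 * A, 36 * D, hC, hClt, by linear_combination hk,
      by linear_combination 81 * hk2⟩
  · exact ⟨C, B, 4 * D, 4 * A, hB, hBlt, by linear_combination (-1 : ℤ) * hk2,
      by linear_combination (-1 : ℤ) * hk⟩


theorem even_case {a b c d : ℤ} (ha : 0 < a) (hb : 0 < b) (hab : IsCoprime a b)
    (hbe : b % 2 = 0) (h1 : a ^ 2 = b ^ 2 + c ^ 2) (h2 : a ^ 2 = 81 * b ^ 2 + d ^ 2) :
    ∃ a' b' c' d' : ℤ, 0 < b' ∧ b' < b ∧ a' ^ 2 = b' ^ 2 + c' ^ 2 ∧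
      a' ^ 2 = 81 * b' ^ 2 + d' ^ 2 := by
  have hbc : IsCoprime b c := coprime_legs hab h1
  have ha9b : IsCoprime a (9 * b) := coprime_nine_mul hab h1
  have h2' : a ^ 2 = (9 * b) ^ 2 + d ^ 2 := by rw [h2]; ring
  have h9bd : IsCoprime (9 * b) d := coprime_legs ha9b h2'
  have hbE : Even b := Int.even_iff.mpr hbe
  have hcO : ¬ Even c := by
    intro hcE
    have hu := hbc.isUnit_of_dvd' (even_iff_two_dvd.mp hbE) (even_iff_two_dvd.mp hcE)
    have : ¬ IsUnit (2 : ℤ) := by decide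
    exact this hu
  have haO : ¬ Even a := by
    intro haE
    have := (parity_aux h1).mp haE
    exact hcO (this.mp hbE)
  have hdO : ¬ Even d := by
    intro hdE
    have := (parity_aux' h2).mpr ⟨fun _ => hdE, fun _ => hbE⟩
    exact haO this
  have hc1 : c % 2 = 1 := by
    rw [Int.even_iff] at hcO; omega
  have hd1 : d % 2 = 1 := by
    rw [Int.even_iff] at hdO; omega
  have ht1 : PythagoreanTriple c b a := by
    unfold PythagoreanTriple
    linear_combination (-1 : ℤ) * h1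
  have ht2 : PythagoreanTriple d (9 * b) a := by
    unfold PythagoreanTriple
    linear_combination (-1 : ℤ) * h2
  obtain ⟨p, q, hc, hb', ha', hpq, hpar, hp0⟩ :=
    ht1.coprime_classification' (Int.isCoprime_iff_gcd_eq_one.mp hbc.symm) hc1 ha
  obtain ⟨r', s', hd, h9b, ha'', hrs, hpar', hr0⟩ :=
    ht2.coprime_classification' (Int.isCoprime_iff_gcd_eq_one.mp h9bd.symm) hd1 ha
  have hpq_pos : 0 < p * q := by
    have : 0 < 2 * (p * q) := by rw [← mul_assoc, ← hb']; exact hb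
    linarith
  have hppos : 0 < p := by
    rcases hp0.lt_or_eq with h | h
    · exact h
    · rw [← h] at hpq_pos; simp at hpq_pos
  have hqpos : 0 < q := pos_of_mul_pos_left_aux hppos hpq_pos
  have hrs_pos : 0 < r' * s' := by
    have : 0 < 2 * (r' * s') := by rw [← mul_assoc, ← h9b]; linarith
    linarith
  have hrpos : 0 < r' := by
    rcases hr0.lt_or_eq with h | h
    · exact h
    · rw [← h] at hrs_pos; simp at hrs_pos
  have hspos : 0 < s' := pos_of_mul_pos_left_aux hrpos hrs_pos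
  have h9 : r' * s' = 9 * (p * q) := by
    have : 2 * (r' * s') = 2 * (9 * (p * q)) := by
      calc 2 * (r' * s') = 9 * b := by rw [h9b]; ring
        _ = 2 * (9 * (p * q)) := by rw [hb']; ring
    linarith
  obtain ⟨r, s, hr, hs, hpqrs, har⟩ := split_nine hppos hqpos hrpos hspos h9
    (Int.isCoprime_iff_gcd_eq_one.mpr hrs) ha''
  obtain ⟨A, B, C, D, hA, hB, hC, hD, hpAB, hqCD, hrAC, hsBD, hBC, hAD⟩ :=
    four_numbers hppos hqpos hr hs hpqrs (Int.isCoprime_iff_gcd_eq_one.mpr hpq)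
  have hparAB : ¬ ((A * B) % 2 = 1 ∧ (C * D) % 2 = 1) := by
    rw [← hpAB, ← hqCD]; omega
  have heq : (A * B) ^ 2 + (C * D) ^ 2 = (A * C) ^ 2 + 81 * (B * D) ^ 2 := by
    rw [← hpAB, ← hqCD, ← hrAC, ← hsBD, ← ha', har]
  obtain ⟨a', b', c', d', hb'pos, hb'lt, e1, e2⟩ := even_core hA hB hC hD hBC hAD hparAB heq
  refine ⟨a', b', c', d', hb'pos, ?_, e1, e2⟩
  have : b = 2 * (A * B) * (C * D) := by rw [hb', hpAB, hqCD]
  rw [this]; exact hb'lt


theorem sq_mod_four (x : ℤ) : x ^ 2 % 4 = 0 ∨ x ^ 2 % 4 = 1 := by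
  rcases Int.even_or_odd x with ⟨k, hk⟩ | hx
  · left
    have : x ^ 2 = 4 * (k * k) := by rw [hk]; ring
    rw [this]; exact Int.mul_emod_right _ _
  · right
    exact Int.sq_mod_four_eq_one_of_odd hx

/-- From a square value of `c ± d`, produce the new solution. -/
theorem odd_new_solution {p q r s K lam : ℤ} (hpq : p + q ≠ 0)
    (hid : ((r + s) ^ 2 - 81 * (p - q) ^ 2) * (p + q) ^ 2 = K * (r + s) ^ 2)
    (hK : (r + s) ^ 2 - (p - q) ^ 2 = K) (hlam : K = lam ^ 2) :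
    ∃ c' d' : ℤ, (r + s) ^ 2 = (p - q) ^ 2 + c' ^ 2 ∧ (r + s) ^ 2 = 81 * (p - q) ^ 2 + d' ^ 2 := by
  have h1 : (p + q) ^ 2 ∣ (lam * (r + s)) ^ 2 := by
    refine ⟨(r + s) ^ 2 - 81 * (p - q) ^ 2, ?_⟩
    rw [mul_pow, ← hlam, ← hid]; ring
  have h2 : (p + q) ∣ lam * (r + s) := (Int.pow_dvd_pow_iff two_ne_zero).mp h1
  obtain ⟨d', hd'⟩ := h2
  refine ⟨lam, d', by rw [← hlam, ← hK]; ring, ?_⟩
  have h3 : (p + q) ^ 2 ≠ 0 := pow_ne_zero 2 hpq
  have h4 : (p + q) ^ 2 * ((r + s) ^ 2 - 81 * (p - q) ^ 2) = (p + q) ^ 2 * d' ^ 2 := by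
    calc (p + q) ^ 2 * ((r + s) ^ 2 - 81 * (p - q) ^ 2)
        = K * (r + s) ^ 2 := by rw [← hid]; ring
      _ = (lam * (r + s)) ^ 2 := by rw [hlam]; ring
      _ = (p + q) ^ 2 * d' ^ 2 := by rw [hd']; ring
  have h5 := mul_left_cancel₀ h3 h4
  linarith


/-- Two coprime positive integers with product `5 b²`: one of them is a square. -/
theorem sq_of_mul_eq_five_sq {m₁ m₂ b : ℤ} (h1 : 0 < m₁) (h2 : 0 < m₂) (hco : IsCoprime m₁ m₂)
    (h : m₁ * m₂ = 5 * b ^ 2) : (∃ k : ℤ, m₁ = k ^ 2) ∨ (∃ k : ℤ, m₂ = k ^ 2) := by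
  have h5 : (5 : ℤ) ∣ m₁ * m₂ := ⟨b ^ 2, h⟩
  have hp5 : Prime (5 : ℤ) := by
    rw [Int.prime_iff_natAbs_prime]; norm_num
  rcases hp5.dvd_or_dvd h5 with ⟨n, hn⟩ | ⟨n, hn⟩
  · right
    have hnm : m₂ * n = b ^ 2 := by
      have : 5 * (m₂ * n) = 5 * b ^ 2 := by rw [← h, hn]; ring
      linarith
    have hco' : IsCoprime m₂ n := by
      rw [hn] at hco
      exact (IsCoprime.of_mul_left_right hco).symm
    obtain ⟨k, hk | hk⟩ := Int.sq_of_isCoprime hco' hnm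
    · exact ⟨k, hk⟩
    · exfalso
      have : 0 ≤ k ^ 2 := sq_nonneg k
      omega
  · left
    have hnm : m₁ * n = b ^ 2 := by
      have : 5 * (m₁ * n) = 5 * b ^ 2 := by rw [← h, hn]; ring
      linarith
    have hco' : IsCoprime m₁ n := by
      rw [hn] at hco
      exact IsCoprime.of_mul_right_right hco
    obtain ⟨k, hk | hk⟩ := Int.sq_of_isCoprime hco' hnm
    · exact ⟨k, hk⟩
    · exfalso
      have : 0 ≤ k ^ 2 := sq_nonneg k
      omega

theorem coprime_of_sum_coprime {m₁ m₂ b : ℤ} (hb : IsCoprime (m₁ + m₂) b)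
    (h : m₁ * m₂ = 5 * b ^ 2) : IsCoprime m₁ m₂ := by
  rw [Int.isCoprime_iff_gcd_eq_one]
  set g : ℤ := (Int.gcd m₁ m₂ : ℤ) with hg
  have hg1 : g ∣ m₁ := Int.gcd_dvd_left _ _
  have hg2 : g ∣ m₂ := Int.gcd_dvd_right _ _
  have hgs : g ∣ m₁ + m₂ := dvd_add hg1 hg2
  have hgb : IsCoprime g b := IsCoprime.of_isCoprime_of_dvd_left hb hgs
  have hgg : g * g ∣ 5 * b ^ 2 := by rw [← h]; exact mul_dvd_mul hg1 hg2
  have hco2 : IsCoprime (g * g) (b ^ 2) := (hgb.mul_left hgb).pow_right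
  have h5 : g * g ∣ 5 := hco2.dvd_of_dvd_mul_right hgg
  have hg0 : 0 ≤ g := by rw [hg]; exact Int.natCast_nonneg _
  have hle : g * g ≤ 5 := Int.le_of_dvd (by norm_num) h5
  have hg2' : g ≤ 2 := by nlinarith
  obtain ⟨x, hx⟩ := h5
  have hg1' : g = 1 := by
    interval_cases g <;> omega
  have : (Int.gcd m₁ m₂ : ℤ) = 1 := by rw [← hg]; exact hg1'
  exact_mod_cast this


theorem four_dvd_two_mul {p q : ℤ} (hpar : p % 2 = 0 ∧ q % 2 = 1 ∨ p % 2 = 1 ∧ q % 2 = 0) :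
    ∃ m : ℤ, 2 * p * q = 4 * m := by
  rcases hpar with ⟨hp, -⟩ | ⟨-, hq⟩
  · obtain ⟨k, hk⟩ := Int.dvd_of_emod_eq_zero hp
    exact ⟨k * q, by rw [hk]; ring⟩
  · obtain ⟨k, hk⟩ := Int.dvd_of_emod_eq_zero hq
    exact ⟨p * k, by rw [hk]; ring⟩

theorem odd_case {a b c d : ℤ} (ha : 0 < a) (hb : 0 < b) (hc0 : 0 ≤ c) (hd0 : 0 ≤ d)
    (hab : IsCoprime a b) (hbo : b % 2 = 1) (h1 : a ^ 2 = b ^ 2 + c ^ 2)
    (h2 : a ^ 2 = 81 * b ^ 2 + d ^ 2) :
    ∃ a' b' c' d' : ℤ, 0 < b' ∧ b' < b ∧ a' ^ 2 = b' ^ 2 + c' ^ 2 ∧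
      a' ^ 2 = 81 * b' ^ 2 + d' ^ 2 := by
  have hbc : IsCoprime b c := coprime_legs hab h1
  have ha9b : IsCoprime a (9 * b) := coprime_nine_mul hab h1
  have h2' : a ^ 2 = (9 * b) ^ 2 + d ^ 2 := by rw [h2]; ring
  have h9bd : IsCoprime (9 * b) d := coprime_legs ha9b h2'
  have h9b1 : (9 * b) % 2 = 1 := by omega
  have ht1 : PythagoreanTriple b c a := by
    unfold PythagoreanTriple
    linear_combination (-1 : ℤ) * h1
  have ht2 : PythagoreanTriple (9 * b) d a := by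
    unfold PythagoreanTriple
    linear_combination (-1 : ℤ) * h2
  obtain ⟨p, q, hbpq, hc, ha', hpq, hpar, hp0⟩ :=
    ht1.coprime_classification' (Int.isCoprime_iff_gcd_eq_one.mp hbc) hbo ha
  obtain ⟨r, s, h9b, hd, ha'', hrs, hpar', hr0⟩ :=
    ht2.coprime_classification' (Int.isCoprime_iff_gcd_eq_one.mp h9bd) h9b1 ha
  -- c and d are multiples of 4
  obtain ⟨c₄, hc4⟩ := four_dvd_two_mul hpar
  obtain ⟨d₄, hd4⟩ := four_dvd_two_mul hpar'
  rw [← hc] at hc4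
  rw [← hd] at hd4
  -- the two factors
  have hprod : (c₄ + d₄) * (c₄ - d₄) = 5 * b ^ 2 := by
    have : 16 * ((c₄ + d₄) * (c₄ - d₄)) = 16 * (5 * b ^ 2) := by
      have h3 : c ^ 2 - d ^ 2 = 80 * b ^ 2 := by linear_combination h2 - h1
      calc 16 * ((c₄ + d₄) * (c₄ - d₄)) = (4 * c₄) ^ 2 - (4 * d₄) ^ 2 := by ring
        _ = c ^ 2 - d ^ 2 := by rw [← hc4, ← hd4]
        _ = 16 * (5 * b ^ 2) := by rw [h3]; ring
    linarith
  have hc4nn : 0 ≤ c₄ := by omega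
  have hd4nn : 0 ≤ d₄ := by omega
  have hsum_nn : 0 ≤ c₄ + d₄ := by omega
  have hprod_pos : 0 < (c₄ + d₄) * (c₄ - d₄) := by
    rw [hprod]; positivity
  have hsum_pos : 0 < c₄ + d₄ := by
    rcases hsum_nn.lt_or_eq with h | h
    · exact h
    · rw [← h] at hprod_pos; simp at hprod_pos
  have hdiff_pos : 0 < c₄ - d₄ := pos_of_mul_pos_left_aux hsum_pos hprod_pos
  -- coprimality of the factors
  have hsum_co : IsCoprime ((c₄ + d₄) + (c₄ - d₄)) b := by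
    have hb2 : IsCoprime b 2 := Int.isCoprime_two_right.mpr (Int.odd_iff.mpr hbo)
    have hbc4 : IsCoprime b c₄ := by
      rw [hc4] at hbc
      exact IsCoprime.of_mul_right_right hbc
    have : (c₄ + d₄) + (c₄ - d₄) = 2 * c₄ := by ring
    rw [this]
    exact (hb2.mul_right hbc4).symm
  have hco : IsCoprime (c₄ + d₄) (c₄ - d₄) := coprime_of_sum_coprime hsum_co hprod
  -- positivity of p, q
  have hcpos : 0 < c := by omega
  have hpq_pos : 0 < p * q := by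
    have : 0 < 2 * (p * q) := by rw [← mul_assoc, ← hc]; exact hcpos
    linarith
  have hppos : 0 < p := by
    rcases hp0.lt_or_eq with h | h
    · exact h
    · rw [← h] at hpq_pos; simp at hpq_pos
  have hqpos : 0 < q := pos_of_mul_pos_left_aux hppos hpq_pos
  have hpqsum : p + q ≠ 0 := by omega
  have hb_fact : b = (p - q) * (p + q) := by rw [hbpq]; ring
  have hpmq_pos : 0 < p - q := by
    by_contra h
    have h' : p - q ≤ 0 := not_lt.mp h
    have : (p - q) * (p + q) ≤ 0 := mul_nonpos_of_nonpos_of_nonneg h' (by omega)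
    omega
  have hpmq_lt : p - q < b := by
    rw [hb_fact]; nlinarith
  -- identities
  have E1 : p ^ 2 + q ^ 2 = r ^ 2 + s ^ 2 := by rw [← ha', ← ha'']
  have E2 : 9 * (p ^ 2 - q ^ 2) = r ^ 2 - s ^ 2 := by rw [← hbpq, ← h9b]
  rcases sq_of_mul_eq_five_sq hsum_pos hdiff_pos hco hprod with ⟨k, hk⟩ | ⟨k, hk⟩
  · -- c + d = (2k)^2
    have hK : (r + s) ^ 2 - (p - q) ^ 2 = c + d := by
      rw [hc, hd]; linear_combination (-1 : ℤ) * E1
    have hid : ((r + s) ^ 2 - 81 * (p - q) ^ 2) * (p + q) ^ 2 = (c + d) * (r + s) ^ 2 := by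
      rw [hc, hd]
      linear_combination ((r + s) ^ 2) * E1 - (9 * (p ^ 2 - q ^ 2) + (r ^ 2 - s ^ 2)) * E2
    have hlam : c + d = (2 * k) ^ 2 := by
      rw [hc4, hd4]
      have : 4 * c₄ + 4 * d₄ = 4 * (c₄ + d₄) := by ring
      rw [this, hk]; ring
    obtain ⟨c', d', e1, e2⟩ := odd_new_solution hpqsum hid hK hlam
    exact ⟨r + s, p - q, c', d', hpmq_pos, hpmq_lt, e1, e2⟩
  · -- c - d = (2k)^2
    have hK : (r + -s) ^ 2 - (p - q) ^ 2 = c - d := by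
      rw [hc, hd]; linear_combination (-1 : ℤ) * E1
    have hid : ((r + -s) ^ 2 - 81 * (p - q) ^ 2) * (p + q) ^ 2 = (c - d) * (r + -s) ^ 2 := by
      rw [hc, hd]
      linear_combination ((r - s) ^ 2) * E1 - (9 * (p ^ 2 - q ^ 2) + (r ^ 2 - s ^ 2)) * E2
    have hlam : c - d = (2 * k) ^ 2 := by
      rw [hc4, hd4]
      have : 4 * c₄ - 4 * d₄ = 4 * (c₄ - d₄) := by ring
      rw [this, hk]; ring
    obtain ⟨c', d', e1, e2⟩ := odd_new_solution hpqsum hid hK hlam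
    exact ⟨r + -s, p - q, c', d', hpmq_pos, hpmq_lt, e1, e2⟩


/-- One descent step for a coprime solution. -/
theorem descent_step {a b c d : ℤ} (hb : b ≠ 0) (hab : IsCoprime a b)
    (h1 : a ^ 2 = b ^ 2 + c ^ 2) (h2 : a ^ 2 = 81 * b ^ 2 + d ^ 2) :
    ∃ a' b' c' d' : ℤ, b' ≠ 0 ∧ b'.natAbs < b.natAbs ∧ a' ^ 2 = b' ^ 2 + c' ^ 2 ∧
      a' ^ 2 = 81 * b' ^ 2 + d' ^ 2 := by
  have hbpos : 0 < |b| := abs_pos.mpr hb
  have ha0 : a ≠ 0 := by
    intro h
    rw [h] at h1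
    have h3 : 0 < b ^ 2 := by positivity
    have h4 : 0 ≤ c ^ 2 := sq_nonneg c
    have : (0 : ℤ) ^ 2 = 0 := by norm_num
    omega
  have hapos : 0 < |a| := abs_pos.mpr ha0
  have hab' : IsCoprime |a| |b| := (IsCoprime.abs_abs_iff a b).mpr hab
  have h1' : |a| ^ 2 = |b| ^ 2 + |c| ^ 2 := by rw [sq_abs, sq_abs, sq_abs]; exact h1
  have h2' : |a| ^ 2 = 81 * |b| ^ 2 + |d| ^ 2 := by rw [sq_abs, sq_abs, sq_abs]; exact h2
  have key : ∃ a' b' c' d' : ℤ, 0 < b' ∧ b' < |b| ∧ a' ^ 2 = b' ^ 2 + c' ^ 2 ∧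
      a' ^ 2 = 81 * b' ^ 2 + d' ^ 2 := by
    rcases Int.emod_two_eq_zero_or_one |b| with he | ho
    · exact even_case hapos hbpos hab' he h1' h2'
    · exact odd_case hapos hbpos (abs_nonneg c) (abs_nonneg d) hab' ho h1' h2'
  obtain ⟨a', b', c', d', hb'pos, hb'lt, e1, e2⟩ := key
  refine ⟨a', b', c', d', hb'pos.ne', ?_, e1, e2⟩
  have habs : |b| = (b.natAbs : ℤ) := Int.abs_eq_natAbs b
  omega

theorem star_aux : ∀ n : ℕ, ∀ a b c d : ℤ, b.natAbs = n → b ≠ 0 → a ^ 2 = b ^ 2 + c ^ 2 →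
    a ^ 2 = 81 * b ^ 2 + d ^ 2 → False := by
  intro n
  induction n using Nat.strong_induction_on with
  | _ n ih =>
    intro a b c d hn hb h1 h2
    have hg : 0 < Int.gcd a b := Int.gcd_pos_of_ne_zero_right _ hb
    obtain ⟨a₁, b₁, hco, ha₁, hb₁⟩ := Int.exists_gcd_one hg
    set g : ℤ := (Int.gcd a b : ℤ) with hgdef
    have hgpos : 0 < g := by rw [hgdef]; exact_mod_cast hg
    have hg2 : g ^ 2 ≠ 0 := pow_ne_zero 2 hgpos.ne'
    have hgc : g ∣ c := by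
      have : g ^ 2 ∣ c ^ 2 := ⟨a₁ ^ 2 - b₁ ^ 2, by rw [ha₁, hb₁] at h1; linear_combination (-1 : ℤ) * h1⟩
      exact (Int.pow_dvd_pow_iff two_ne_zero).mp this
    have hgd : g ∣ d := by
      have : g ^ 2 ∣ d ^ 2 :=
        ⟨a₁ ^ 2 - 81 * b₁ ^ 2, by rw [ha₁, hb₁] at h2; linear_combination (-1 : ℤ) * h2⟩
      exact (Int.pow_dvd_pow_iff two_ne_zero).mp this
    obtain ⟨c₁, hc₁⟩ := hgc
    obtain ⟨d₁, hd₁⟩ := hgd
    have h1' : a₁ ^ 2 = b₁ ^ 2 + c₁ ^ 2 := by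
      have : g ^ 2 * a₁ ^ 2 = g ^ 2 * (b₁ ^ 2 + c₁ ^ 2) := by
        rw [ha₁, hb₁, hc₁] at h1; linear_combination h1
      exact mul_left_cancel₀ hg2 this
    have h2' : a₁ ^ 2 = 81 * b₁ ^ 2 + d₁ ^ 2 := by
      have : g ^ 2 * a₁ ^ 2 = g ^ 2 * (81 * b₁ ^ 2 + d₁ ^ 2) := by
        rw [ha₁, hb₁, hd₁] at h2; linear_combination h2
      exact mul_left_cancel₀ hg2 this
    have hb₁0 : b₁ ≠ 0 := by
      intro h; apply hb; rw [hb₁, h]; ring
    have hb₁le : b₁.natAbs ≤ n := by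
      rw [← hn, hb₁, Int.natAbs_mul]
      have : 0 < g.natAbs := Int.natAbs_pos.mpr hgpos.ne'
      exact Nat.le_mul_of_pos_right _ this
    obtain ⟨a', b', c', d', hb'0, hb'lt, e1, e2⟩ :=
      descent_step hb₁0 (Int.isCoprime_iff_gcd_eq_one.mpr hco) h1' h2'
    exact ih b'.natAbs (lt_of_lt_of_le hb'lt hb₁le) a' b' c' d' rfl hb'0 e1 e2

/-- STAR: no two Pythagorean triangles with the same hypotenuse and legs `b`, `9b`. -/
theorem star (a b c d : ℤ) (hb : b ≠ 0) (h1 : a ^ 2 = b ^ 2 + c ^ 2)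
    (h2 : a ^ 2 = 81 * b ^ 2 + d ^ 2) : False :=
  star_aux b.natAbs a b c d rfl hb h1 h2


/-- Rational form of STAR. -/
theorem star_rat (u v w : ℚ) (h1 : u ^ 2 - v ^ 2 = 1) (h2 : u ^ 2 - w ^ 2 = 81) : False := by
  set a : ℤ := u.num * v.den * w.den with ha
  set b : ℤ := u.den * v.den * w.den with hb
  set c : ℤ := v.num * u.den * w.den with hc
  set d : ℤ := w.num * u.den * v.den with hd
  have hu : (u.den : ℚ) ≠ 0 := by exact_mod_cast u.den_ne_zero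
  have hv : (v.den : ℚ) ≠ 0 := by exact_mod_cast v.den_ne_zero
  have hw : (w.den : ℚ) ≠ 0 := by exact_mod_cast w.den_ne_zero
  have hb0 : b ≠ 0 := by
    rw [hb]
    have h1 : (u.den : ℤ) ≠ 0 := by exact_mod_cast u.den_ne_zero
    have h2 : (v.den : ℤ) ≠ 0 := by exact_mod_cast v.den_ne_zero
    have h3 : (w.den : ℤ) ≠ 0 := by exact_mod_cast w.den_ne_zero
    exact mul_ne_zero (mul_ne_zero h1 h2) h3
  have haq : (a : ℚ) = u * b := by
    rw [ha, hb]; push_cast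
    rw [← Rat.mul_den_eq_num u]; ring
  have hcq : (c : ℚ) = v * b := by
    rw [hc, hb]; push_cast
    rw [← Rat.mul_den_eq_num v]; ring
  have hdq : (d : ℚ) = w * b := by
    rw [hd, hb]; push_cast
    rw [← Rat.mul_den_eq_num w]; ring
  have e1 : a ^ 2 = b ^ 2 + c ^ 2 := by
    have : (a : ℚ) ^ 2 = (b : ℚ) ^ 2 + (c : ℚ) ^ 2 := by
      rw [haq, hcq]; linear_combination ((b : ℚ) ^ 2) * h1
    exact_mod_cast this
  have e2 : a ^ 2 = 81 * b ^ 2 + d ^ 2 := by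
    have : (a : ℚ) ^ 2 = 81 * (b : ℚ) ^ 2 + (d : ℚ) ^ 2 := by
      rw [haq, hdq]; linear_combination ((b : ℚ) ^ 2) * h2
    exact_mod_cast this
  exact star a b c d hb0 e1 e2

/-- The curve `Y² = X(X-1)(X-81)` has only `2`-torsion rational points. -/
theorem EB_points (X Y : ℚ) (h : Y ^ 2 = X * (X - 1) * (X - 81)) : Y = 0 := by
  by_contra hY
  have h2Y : 2 * Y ≠ 0 := mul_ne_zero two_ne_zero hY
  refine star_rat ((X ^ 2 - 81) / (2 * Y)) (((X - 1) ^ 2 + 80) / (2 * Y))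
    (((X - 81) ^ 2 - 6480) / (2 * Y)) ?_ ?_
  · rw [div_pow, div_pow, ← sub_div, div_eq_one_iff_eq (pow_ne_zero 2 h2Y)]
    linear_combination (-4 : ℚ) * h
  · rw [div_pow, div_pow, ← sub_div, div_eq_iff (pow_ne_zero 2 h2Y)]
    linear_combination (-324 : ℚ) * h

/-- Rational points of `y² = x(x-16)(x+9)`. -/
theorem E15_rational_points (x y : ℚ) (h : y ^ 2 = x * (x - 16) * (x + 9)) :
    x = 0 ∨ x = 16 ∨ x = -9 ∨ x = -4 ∨ x = 36 := by
  by_cases hx : x = 16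
  · right; left; exact hx
  have hx₁ : x - 16 ≠ 0 := sub_ne_zero.mpr hx
  set x₁ : ℚ := x - 16 with hx₁def
  have h' : y ^ 2 = x₁ * (x₁ ^ 2 + 41 * x₁ + 400) := by
    rw [h, hx₁def]; ring
  have hE : (y * (400 - x₁ ^ 2) / x₁ ^ 2) ^ 2 =
      ((x₁ ^ 2 + 41 * x₁ + 400) / x₁) * ((x₁ ^ 2 + 41 * x₁ + 400) / x₁ - 1) *
        ((x₁ ^ 2 + 41 * x₁ + 400) / x₁ - 81) := by
    field_simp
    linear_combination ((400 - x₁ ^ 2) ^ 2) * h'
  have hY := EB_points _ _ hE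
  have hY' : y * (400 - x₁ ^ 2) = 0 := by
    rcases div_eq_zero_iff.mp hY with h0 | h0
    · exact h0
    · exact absurd h0 (pow_ne_zero 2 hx₁)
  rcases mul_eq_zero.mp hY' with hy | hx2
  · rw [hy] at h
    have h0 : x * (x - 16) * (x + 9) = 0 := by rw [← h]; ring
    rcases mul_eq_zero.mp h0 with h1 | h1
    · rcases mul_eq_zero.mp h1 with h2 | h2
      · left; exact h2
      · exact absurd h2 hx₁
    · right; right; left; linarith
  · have h0 : (x₁ - 20) * (x₁ + 20) = 0 := by linear_combination (-1 : ℚ) * hx2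
    rcases mul_eq_zero.mp h0 with h1 | h1
    · right; right; right; right
      rw [hx₁def] at h1; linarith
    · right; right; right; left
      rw [hx₁def] at h1; linarith

end Fermat.Agent.S51.Desc
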