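import Fermat.Agent.S51.E15Basic

namespace Fermat.Agent.S51

/-- Halving on `y² = x(x-1)(x-81)`: from `t² - v² = 1`, `t² - w² = 81` one gets a rational point
with `x = (t+v)(t+w)`. -/
lemma halve (t v w : ℚ) (h1 : t ^ 2 - v ^ 2 = 1) (h2 : t ^ 2 - w ^ 2 = 81) :
    ∃ y : ℚ, y ≠ 0 ∧
      y ^ 2 = ((t + v) * (t + w)) * ((t + v) * (t + w) - 1) * ((t + v) * (t + w) - 81) := by
  refine ⟨(t + v) * (t + w) * (v + w), ?_, ?_⟩
  · have hA : t + v ≠ 0 := by
      intro h0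
      have : t ^ 2 - v ^ 2 = (t + v) * (t - v) := by ring
      rw [this, h0, zero_mul] at h1
      exact zero_ne_one h1
    have hB : t + w ≠ 0 := by
      intro h0
      have : t ^ 2 - w ^ 2 = (t + w) * (t - w) := by ring
      rw [this, h0, zero_mul] at h2
      norm_num at h2
    have hC : v + w ≠ 0 := by
      intro h0
      have h3 : v ^ 2 - w ^ 2 = 80 := by linarith
      have : v ^ 2 - w ^ 2 = (v + w) * (v - w) := by ring
      rw [this, h0, zero_mul] at h3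
      norm_num at h3
    exact mul_ne_zero (mul_ne_zero hA hB) hC
  · have e1 : (t + v) * (t + w) - 1 = (t + v) * (v + w) := by
      have : (t + v) * (t + w) - (t + v) * (v + w) = t ^ 2 - v ^ 2 := by ring
      linarith
    have e2 : (t + v) * (t + w) - 81 = (t + w) * (v + w) := by
      have : (t + v) * (t + w) - (t + w) * (v + w) = t ^ 2 - w ^ 2 := by ring
      linarith
    rw [e1, e2]; ring

/-- The normal form of a rational point with `y ≠ 0` on `y² = x(x-1)(x-81)`. -/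
structure IsTuple (a q b c k : ℤ) : Prop where
  ha : 0 < a
  hq : 0 < q
  hb : 0 < b
  hc : 0 < c
  cop : IsCoprime a q
  e1 : a ^ 2 - q ^ 2 = k * b ^ 2
  e2 : a ^ 2 - 81 * q ^ 2 = k * c ^ 2

/-- The property of a rational number of being the `x`-coordinate of a point with `y ≠ 0`. -/
def IsPt (x : ℚ) : Prop := ∃ y : ℚ, y ≠ 0 ∧ y ^ 2 = x * (x - 1) * (x - 81)

lemma isPt_halve (t v w : ℚ) (h1 : t ^ 2 - v ^ 2 = 1) (h2 : t ^ 2 - w ^ 2 = 81) :
    IsPt ((t + v) * (t + w)) := halve t v w h1 h2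

/-- descent, class `k = 1`. -/
theorem descent_one {a q b c : ℤ} (h : IsTuple a q b c 1) :
    ∃ x' : ℚ, IsPt x' ∧ ht x' < ht ((a : ℚ) ^ 2 / (q : ℚ) ^ 2) := by
  obtain ⟨ha, hq, hb, hc, cop, e1, e2⟩ := h
  rw [one_mul] at e1 e2
  have hqQ : (q : ℚ) ≠ 0 := by exact_mod_cast hq.ne'
  have hba : b < a := by nlinarith
  have hca : c < a := by nlinarith
  have ha10 : 10 ≤ a := by nlinarith
  have hab : (0 : ℤ) < a + b := by linarith
  have habQ : ((a : ℚ) + b) ≠ 0 := by exact_mod_cast hab.ne'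
  have e1Q : (a : ℚ) ^ 2 - (q : ℚ) ^ 2 = (b : ℚ) ^ 2 := by exact_mod_cast e1
  have e2Q : (a : ℚ) ^ 2 - 81 * (q : ℚ) ^ 2 = (c : ℚ) ^ 2 := by exact_mod_cast e2
  refine ⟨((a - c : ℤ) : ℚ) / ((a + b : ℤ) : ℚ), ?_, ?_⟩
  · have key := isPt_halve ((a : ℚ) / q) (-(b : ℚ) / q) (-(c : ℚ) / q)
      (by field_simp; linarith) (by field_simp; linarith)
    have e : ((a : ℚ) / q + -(b : ℚ) / q) * ((a : ℚ) / q + -(c : ℚ) / q) =
        ((a - c : ℤ) : ℚ) / ((a + b : ℤ) : ℚ) := by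
      push_cast
      field_simp
      linear_combination ((a : ℚ) - c) * e1Q
    rwa [e] at key
  · rw [ht_sq_div_sq a q hq cop]
    refine lt_of_le_of_lt (ht_div_le (a - c) (a + b) (by linarith) hab) ?_
    have h1 : (a - c).natAbs < a.natAbs ^ 2 := by
      zify
      rw [abs_of_pos (by linarith : (0 : ℤ) < a - c), abs_of_pos ha]
      nlinarith
    have h2 : (a + b).natAbs < a.natAbs ^ 2 := by
      zify
      rw [abs_of_pos hab, abs_of_pos ha]
      nlinarith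
    exact lt_of_lt_of_le (max_lt h1 h2) (le_max_left _ _)

lemma small_neg_one {a q b c : ℤ} (ha : 0 < a) (hq : 0 < q) (hb : 0 < b) (hc : 0 < c)
    (hq8 : q ≤ 8)
    (e1 : a ^ 2 - q ^ 2 = -1 * b ^ 2) (e2 : a ^ 2 - 81 * q ^ 2 = -1 * c ^ 2) : False := by
  have haq : a < q := by nlinarith
  have hbq : b < q := by nlinarith
  interval_cases q <;> interval_cases a <;> interval_cases b <;> simp at e1 <;>
    first
      | omega
      | (have h1 : c ≤ 44 ∨ 45 ≤ c := by omega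
         rcases h1 with h1 | h1 <;> nlinarith)

/-- descent, class `k = -1`. -/
theorem descent_neg_one {a q b c : ℤ} (h : IsTuple a q b c (-1)) :
    ∃ x' : ℚ, IsPt x' ∧ ht x' < ht ((a : ℚ) ^ 2 / (q : ℚ) ^ 2) := by
  obtain ⟨ha, hq, hb, hc, cop, e1, e2⟩ := h
  have hq9 : 9 ≤ q := by
    by_contra hlt
    exact small_neg_one ha hq hb hc (by omega) e1 e2
  have haQ : (a : ℚ) ≠ 0 := by exact_mod_cast ha.ne'
  have hbq : b < q := by nlinarith
  have hcq : c < 9 * q := by nlinarith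
  have hD : (0 : ℤ) < 9 * q - c := by linarith
  have hDQ : ((9 * q - c : ℤ) : ℚ) ≠ 0 := by exact_mod_cast hD.ne'
  have e1Q : (a : ℚ) ^ 2 - (q : ℚ) ^ 2 = -1 * (b : ℚ) ^ 2 := by exact_mod_cast e1
  have e2Q : (a : ℚ) ^ 2 - 81 * (q : ℚ) ^ 2 = -1 * (c : ℚ) ^ 2 := by exact_mod_cast e2
  refine ⟨((9 * (q - b) : ℤ) : ℚ) / ((9 * q - c : ℤ) : ℚ), ?_, ?_⟩
  · have key := isPt_halve (9 * (q : ℚ) / a) ((c : ℚ) / a) (-(9 * (b : ℚ)) / a)
      (by field_simp; linarith) (by field_simp; linarith)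
    have e : (9 * (q : ℚ) / a + (c : ℚ) / a) * (9 * (q : ℚ) / a + -(9 * (b : ℚ)) / a) =
        ((9 * (q - b) : ℤ) : ℚ) / ((9 * q - c : ℤ) : ℚ) := by
      push_cast at hDQ ⊢
      rw [← add_div, ← add_div, div_mul_div_comm, div_eq_div_iff (mul_ne_zero haQ haQ) hDQ]
      linear_combination (-9 * ((q : ℚ) - b)) * e2Q
    rwa [e] at key
  · rw [ht_sq_div_sq a q hq cop]
    refine lt_of_le_of_lt (ht_div_le (9 * (q - b)) (9 * q - c) (by linarith) hD) ?_
    have h1 : (9 * (q - b)).natAbs < q.natAbs ^ 2 := by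
      zify
      rw [abs_of_pos (by linarith : (0 : ℤ) < 9 * (q - b)), abs_of_pos hq]
      nlinarith
    have h2 : (9 * q - c).natAbs < q.natAbs ^ 2 := by
      zify
      rw [abs_of_pos hD, abs_of_pos hq]
      nlinarith
    exact lt_of_lt_of_le (max_lt h1 h2) (le_max_right _ _)

/-- descent, class `k = 5`. -/
theorem descent_five {a q b c : ℤ} (h : IsTuple a q b c 5) :
    ∃ x' : ℚ, IsPt x' ∧ ht x' < ht ((a : ℚ) ^ 2 / (q : ℚ) ^ 2) := by
  obtain ⟨ha, hq, hb, hc, cop, e1, e2⟩ := h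
  have hcQ : (c : ℚ) ≠ 0 := by exact_mod_cast hc.ne'
  have ha10 : 10 ≤ a := by nlinarith
  have h3 : 81 * b ^ 2 - 16 * a ^ 2 = c ^ 2 := by linarith
  have h4 : b ^ 2 - 16 * q ^ 2 = c ^ 2 := by linarith
  have hN : (0 : ℤ) < 9 * b - 4 * a := by nlinarith
  have hN5 : 9 * b < 5 * a := by nlinarith
  have hba : b < a := by nlinarith
  have hqa : 9 * q < a := by nlinarith
  have hD : (0 : ℤ) < b + 4 * q := by linarith
  have hDQ : ((b + 4 * q : ℤ) : ℚ) ≠ 0 := by exact_mod_cast hD.ne'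
  have h3Q : 81 * (b : ℚ) ^ 2 - 16 * (a : ℚ) ^ 2 = (c : ℚ) ^ 2 := by exact_mod_cast h3
  have h4Q : (b : ℚ) ^ 2 - 16 * (q : ℚ) ^ 2 = (c : ℚ) ^ 2 := by exact_mod_cast h4
  refine ⟨((9 * (9 * b - 4 * a) : ℤ) : ℚ) / ((b + 4 * q : ℤ) : ℚ), ?_, ?_⟩
  · have key := isPt_halve (9 * (b : ℚ) / c) (-(4 * (a : ℚ)) / c) (-(36 * (q : ℚ)) / c)
      (by field_simp; linarith) (by field_simp; linarith)
    have e : (9 * (b : ℚ) / c + -(4 * (a : ℚ)) / c) * (9 * (b : ℚ) / c + -(36 * (q : ℚ)) / c) =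
        ((9 * (9 * b - 4 * a) : ℤ) : ℚ) / ((b + 4 * q : ℤ) : ℚ) := by
      push_cast at hDQ ⊢
      field_simp
      linear_combination (9 * (9 * (b : ℚ) - 4 * a)) * h4Q
    rwa [e] at key
  · rw [ht_sq_div_sq a q hq cop]
    refine lt_of_le_of_lt (ht_div_le (9 * (9 * b - 4 * a)) (b + 4 * q) (by linarith) hD) ?_
    have h1 : (9 * (9 * b - 4 * a)).natAbs < a.natAbs ^ 2 := by
      zify
      rw [abs_of_pos (by linarith : (0 : ℤ) < 9 * (9 * b - 4 * a)), abs_of_pos ha]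
      nlinarith
    have h2 : (b + 4 * q).natAbs < a.natAbs ^ 2 := by
      zify
      rw [abs_of_pos hD, abs_of_pos ha]
      nlinarith
    exact lt_of_lt_of_le (max_lt h1 h2) (le_max_left _ _)

lemma small_neg_five {a q b c : ℤ} (ha : 0 < a) (hq : 0 < q) (hb : 0 < b) (hc : 0 < c)
    (hq4 : q ≤ 4)
    (e1 : a ^ 2 - q ^ 2 = -5 * b ^ 2) (e2 : a ^ 2 - 81 * q ^ 2 = -5 * c ^ 2) : False := by
  have haq : a < q := by nlinarith
  have hbq : b < q := by nlinarith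
  interval_cases q <;> interval_cases a <;> interval_cases b <;> simp at e1 <;>
    first
      | omega
      | (have h1 : c ≤ 12 ∨ 13 ≤ c := by omega
         rcases h1 with h1 | h1 <;> nlinarith)

/-- descent, class `k = -5`. -/
theorem descent_neg_five {a q b c : ℤ} (h : IsTuple a q b c (-5)) :
    ∃ x' : ℚ, IsPt x' ∧ ht x' < ht ((a : ℚ) ^ 2 / (q : ℚ) ^ 2) := by
  obtain ⟨ha, hq, hb, hc, cop, e1, e2⟩ := h
  have hq5 : 5 ≤ q := by
    by_contra hlt
    exact small_neg_five ha hq hb hc (by omega) e1 e2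
  have hbQ : (b : ℚ) ≠ 0 := by exact_mod_cast hb.ne'
  have h3 : c ^ 2 - 16 * q ^ 2 = b ^ 2 := by linarith
  have h4 : c ^ 2 - 16 * a ^ 2 = 81 * b ^ 2 := by linarith
  have hN : (0 : ℤ) < c - 4 * a := by nlinarith
  have hD : (0 : ℤ) < c - 4 * q := by nlinarith
  have hc5 : c < 5 * q := by nlinarith
  have hDQ : ((c - 4 * q : ℤ) : ℚ) ≠ 0 := by exact_mod_cast hD.ne'
  have h3Q : (c : ℚ) ^ 2 - 16 * (q : ℚ) ^ 2 = (b : ℚ) ^ 2 := by exact_mod_cast h3
  have h4Q : (c : ℚ) ^ 2 - 16 * (a : ℚ) ^ 2 = 81 * (b : ℚ) ^ 2 := by exact_mod_cast h4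
  refine ⟨((c - 4 * a : ℤ) : ℚ) / ((c - 4 * q : ℤ) : ℚ), ?_, ?_⟩
  · have key := isPt_halve ((c : ℚ) / b) (4 * (q : ℚ) / b) (-(4 * (a : ℚ)) / b)
      (by field_simp; linarith) (by field_simp; linarith)
    have e : ((c : ℚ) / b + 4 * (q : ℚ) / b) * ((c : ℚ) / b + -(4 * (a : ℚ)) / b) =
        ((c - 4 * a : ℤ) : ℚ) / ((c - 4 * q : ℤ) : ℚ) := by
      push_cast at hDQ ⊢
      field_simp
      linear_combination ((c : ℚ) - 4 * a) * h3Q
    rwa [e] at key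
  · rw [ht_sq_div_sq a q hq cop]
    refine lt_of_le_of_lt (ht_div_le (c - 4 * a) (c - 4 * q) hN hD) ?_
    have h1 : (c - 4 * a).natAbs < q.natAbs ^ 2 := by
      zify
      rw [abs_of_pos hN, abs_of_pos hq]
      nlinarith
    have h2 : (c - 4 * q).natAbs < q.natAbs ^ 2 := by
      zify
      rw [abs_of_pos hD, abs_of_pos hq]
      nlinarith
    exact lt_of_lt_of_le (max_lt h1 h2) (le_max_right _ _)

end Fermat.Agent.S51
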