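import Mathlib

set_option autoImplicit false

namespace Fermat.Agent.S51

/-- The 2-isogeny `E15 → E81`: a rational point of `y² = x(x-16)(x+9)` with `x ≠ 16` gives the
rational point `(y²/(x-16)², y(400-(x-16)²)/(x-16)²)` of `Y² = X(X-1)(X-81)`. -/
theorem E15_isogeny (x y : ℚ) (h : y ^ 2 = x * (x - 16) * (x + 9)) (hx : x ≠ 16) :
    (y * (400 - (x - 16) ^ 2) / (x - 16) ^ 2) ^ 2 =
      (y ^ 2 / (x - 16) ^ 2) * (y ^ 2 / (x - 16) ^ 2 - 1) * (y ^ 2 / (x - 16) ^ 2 - 81) := by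
  have ht : x - 16 ≠ 0 := sub_ne_zero.mpr hx
  rw [div_pow, mul_pow, h]
  field_simp
  ring

/-- Reduction of the determination of the rational points of `y² = x(x-16)(x+9)` (`15a1`-type
model of `X₀(15)`) to the statement that `Y² = X(X-1)(X-81)` has only the points with `Y = 0`. -/
theorem E15_of_E81 (hE : ∀ X Y : ℚ, Y ^ 2 = X * (X - 1) * (X - 81) → Y = 0) (x y : ℚ)
    (h : y ^ 2 = x * (x - 16) * (x + 9)) :
    x = 0 ∨ x = 16 ∨ x = -9 ∨ x = -4 ∨ x = 36 := by
  by_cases hx : x = 16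
  · exact Or.inr (Or.inl hx)
  have ht : x - 16 ≠ 0 := sub_ne_zero.mpr hx
  have hY := hE _ _ (E15_isogeny x y h hx)
  have ht2 : (x - 16) ^ 2 ≠ 0 := pow_ne_zero _ ht
  rw [div_eq_zero_iff] at hY
  rcases hY with hY | hY
  swap
  · exact absurd hY ht2
  rcases mul_eq_zero.mp hY with hy | hq
  · -- `y = 0`
    rw [hy] at h
    have h0 : x * (x - 16) * (x + 9) = 0 := by rw [← h]; ring
    rcases mul_eq_zero.mp h0 with h1 | h1
    · rcases mul_eq_zero.mp h1 with h2 | h2
      · exact Or.inl h2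
      · exact absurd h2 ht
    · exact Or.inr (Or.inr (Or.inl (by linarith)))
  · -- `(x - 16)² = 400`
    have h0 : (x - 36) * (x + 4) = 0 := by linear_combination -hq
    rcases mul_eq_zero.mp h0 with h1 | h1
    · exact Or.inr (Or.inr (Or.inr (Or.inr (by linarith))))
    · exact Or.inr (Or.inr (Or.inr (Or.inl (by linarith))))

end Fermat.Agent.S51
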