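import Fermat.Statements.S51
import Fermat.Agent.S51.GroupLaw

set_option autoImplicit false
set_option linter.unusedSectionVars false

/-!
S51, piece T3: the Galois action on x-coordinates of points of the base change `EK W` of an
integral Weierstrass curve to `ℚ̄`, Galois-equivariance of the cubic algebra of `Cubic.lean`,
and the bridge between the invariants of `EK W` and those of `W`.
-/

namespace Fermat.Agent.S51

open WeierstrassCurve WeierstrassCurve.Affine WeierstrassCurve.Affine.Point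

/-! ### ring homomorphisms commute with the cubic algebra -/

section maps

variable {F F' : Type*} [Field F] [Field F'] (σ : F →+* F')

lemma map_cf (B2 B4 B6 x : F) : σ (cf B2 B4 B6 x) = cf (σ B2) (σ B4) (σ B6) (σ x) := by
  simp only [cf, map_add, map_mul, map_pow, map_ofNat]

lemma map_cf1 (B2 B4 x : F) : σ (cf1 B2 B4 x) = cf1 (σ B2) (σ B4) (σ x) := by
  simp only [cf1, map_add, map_mul, map_pow, map_ofNat]

lemma map_cq (B2 B4 B6 x : F) : σ (cq B2 B4 B6 x) = cq (σ B2) (σ B4) (σ B6) (σ x) := by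
  simp only [cq, map_add, map_sub, map_mul, map_pow, map_ofNat]

lemma map_cR5 (B2 B4 B6 x : F) : σ (cR5 B2 B4 B6 x) = cR5 (σ B2) (σ B4) (σ B6) (σ x) := by
  simp only [cR5, map_add, map_sub, map_mul, map_pow, map_ofNat, map_cf, map_cf1, map_cq]

lemma map_cdbl (B2 B4 B6 x : F) : σ (cdbl B2 B4 B6 x) = cdbl (σ B2) (σ B4) (σ B6) (σ x) := by
  simp only [cdbl, map_sub, map_div₀, map_mul, map_ofNat, map_cf, map_cq]

lemma map_cb (B2 B4 B6 x : F) : σ (cb B2 B4 B6 x) = cb (σ B2) (σ B4) (σ B6) (σ x) := by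
  simp only [cb, map_neg, map_div₀, map_mul, map_pow, map_ofNat, map_cf, map_cq]

lemma map_cu (B2 B4 B6 x : F) : σ (cu B2 B4 B6 x) = cu (σ B2) (σ B4) (σ B6) (σ x) := by
  simp only [cu, map_div₀, map_mul, map_pow, map_ofNat, map_cf, map_cq]

lemma map_cc4 (B2 B4 : F) : σ (cc4 B2 B4) = cc4 (σ B2) (σ B4) := by
  simp only [cc4, map_sub, map_mul, map_pow, map_ofNat]

lemma map_cD (B2 B4 B6 : F) : σ (cD B2 B4 B6) = cD (σ B2) (σ B4) (σ B6) := by
  simp only [cD, map_add, map_sub, map_neg, map_mul, map_pow, map_ofNat]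

lemma map_cC1 (b ρ : F) : σ (cC1 b ρ) = cC1 (σ b) (σ ρ) := by
  simp only [cC1, map_add, map_sub, map_mul, map_pow, map_ofNat, map_one]

lemma map_cG (ω Bp : F) : σ (cG ω Bp) = cG (σ ω) (σ Bp) := by
  simp only [cG, map_add, map_sub, map_mul, map_pow, map_ofNat, map_one]

end maps

/-! ### invariants of a general Weierstrass curve in terms of the cubic algebra -/

section general

variable {F : Type*} [Field F] (E : WeierstrassCurve F)

lemma cc4_eq_c₄ : cc4 E.b₂ E.b₄ = E.c₄ := by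
  simp only [cc4, WeierstrassCurve.c₄]

lemma cD_eq_four_mul_Δ : cD E.b₂ E.b₄ E.b₆ = 4 * E.Δ := by
  have h := E.b_relation
  simp only [cD, WeierstrassCurve.Δ]
  linear_combination (E.b₂ ^ 2) * h

end general

/-! ### the base change to `ℚ̄` -/

/-- the base change of `W` to `ℚ̄` (this is the curve whose points appear in
`ModRepIsIrreducible`) -/
noncomputable abbrev EK (W : WeierstrassCurve ℤ) : WeierstrassCurve (AlgebraicClosure ℚ) :=
  (W.map (Int.castRingHom ℚ))⁄(AlgebraicClosure ℚ)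

/-- the Galois group of `ℚ̄ / ℚ` -/
abbrev GalQ : Type := AlgebraicClosure ℚ ≃ₐ[ℚ] AlgebraicClosure ℚ

variable (W : WeierstrassCurve ℤ)

lemma EK_eq_map : EK W = W.map (algebraMap ℤ (AlgebraicClosure ℚ)) := by
  show (W.map (Int.castRingHom ℚ)).map (algebraMap ℚ (AlgebraicClosure ℚ)) = _
  rw [WeierstrassCurve.map_map]
  congr 1

lemma EK_b₂ : (EK W).b₂ = algebraMap ℚ (AlgebraicClosure ℚ) ((W.b₂ : ℤ) : ℚ) := by
  simp [EK, WeierstrassCurve.baseChange, WeierstrassCurve.map_b₂]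

lemma EK_b₄ : (EK W).b₄ = algebraMap ℚ (AlgebraicClosure ℚ) ((W.b₄ : ℤ) : ℚ) := by
  simp [EK, WeierstrassCurve.baseChange, WeierstrassCurve.map_b₄]

lemma EK_b₆ : (EK W).b₆ = algebraMap ℚ (AlgebraicClosure ℚ) ((W.b₆ : ℤ) : ℚ) := by
  simp [EK, WeierstrassCurve.baseChange, WeierstrassCurve.map_b₆]

lemma EK_b₈ : (EK W).b₈ = algebraMap ℚ (AlgebraicClosure ℚ) ((W.b₈ : ℤ) : ℚ) := by
  simp [EK, WeierstrassCurve.baseChange, WeierstrassCurve.map_b₈]

lemma EK_c₄ : (EK W).c₄ = algebraMap ℚ (AlgebraicClosure ℚ) ((W.c₄ : ℤ) : ℚ) := by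
  simp [EK, WeierstrassCurve.baseChange, WeierstrassCurve.map_c₄]

lemma EK_c₆ : (EK W).c₆ = algebraMap ℚ (AlgebraicClosure ℚ) ((W.c₆ : ℤ) : ℚ) := by
  simp [EK, WeierstrassCurve.baseChange, WeierstrassCurve.map_c₆]

lemma EK_Δ : (EK W).Δ = algebraMap ℚ (AlgebraicClosure ℚ) ((W.Δ : ℤ) : ℚ) := by
  simp [EK, WeierstrassCurve.baseChange, WeierstrassCurve.map_Δ]

lemma EK_Δ_ne_zero (hΔ : W.Δ ≠ 0) : (EK W).Δ ≠ 0 := by
  rw [EK_Δ]
  intro h
  have h0 : ((W.Δ : ℤ) : ℚ) = 0 :=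
    (algebraMap ℚ (AlgebraicClosure ℚ)).injective (by rw [h, _root_.map_zero])
  exact hΔ (by exact_mod_cast h0)

variable (σ : GalQ)

lemma smul_EK_b₂ : σ (EK W).b₂ = (EK W).b₂ := by rw [EK_b₂, σ.commutes]
lemma smul_EK_b₄ : σ (EK W).b₄ = (EK W).b₄ := by rw [EK_b₄, σ.commutes]
lemma smul_EK_b₆ : σ (EK W).b₆ = (EK W).b₆ := by rw [EK_b₆, σ.commutes]
lemma smul_EK_b₈ : σ (EK W).b₈ = (EK W).b₈ := by rw [EK_b₈, σ.commutes]
lemma smul_EK_c₄ : σ (EK W).c₄ = (EK W).c₄ := by rw [EK_c₄, σ.commutes]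
lemma smul_EK_Δ : σ (EK W).Δ = (EK W).Δ := by rw [EK_Δ, σ.commutes]

/-- Galois-equivariance of the two-division cubic of `EK W`. -/
lemma galois_cf (x : AlgebraicClosure ℚ) :
    σ (cf (EK W).b₂ (EK W).b₄ (EK W).b₆ x) = cf (EK W).b₂ (EK W).b₄ (EK W).b₆ (σ x) := by
  have := map_cf (σ : AlgebraicClosure ℚ →+* AlgebraicClosure ℚ) (EK W).b₂ (EK W).b₄ (EK W).b₆ x
  simpa only [RingHom.coe_coe, smul_EK_b₂, smul_EK_b₄, smul_EK_b₆] using this

lemma galois_cq (x : AlgebraicClosure ℚ) :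
    σ (cq (EK W).b₂ (EK W).b₄ (EK W).b₆ x) = cq (EK W).b₂ (EK W).b₄ (EK W).b₆ (σ x) := by
  have := map_cq (σ : AlgebraicClosure ℚ →+* AlgebraicClosure ℚ) (EK W).b₂ (EK W).b₄ (EK W).b₆ x
  simpa only [RingHom.coe_coe, smul_EK_b₂, smul_EK_b₄, smul_EK_b₆] using this

lemma galois_cR5 (x : AlgebraicClosure ℚ) :
    σ (cR5 (EK W).b₂ (EK W).b₄ (EK W).b₆ x) = cR5 (EK W).b₂ (EK W).b₄ (EK W).b₆ (σ x) := by
  have := map_cR5 (σ : AlgebraicClosure ℚ →+* AlgebraicClosure ℚ) (EK W).b₂ (EK W).b₄ (EK W).b₆ x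
  simpa only [RingHom.coe_coe, smul_EK_b₂, smul_EK_b₄, smul_EK_b₆] using this

lemma galois_cdbl (x : AlgebraicClosure ℚ) :
    σ (cdbl (EK W).b₂ (EK W).b₄ (EK W).b₆ x) = cdbl (EK W).b₂ (EK W).b₄ (EK W).b₆ (σ x) := by
  have := map_cdbl (σ : AlgebraicClosure ℚ →+* AlgebraicClosure ℚ) (EK W).b₂ (EK W).b₄ (EK W).b₆ x
  simpa only [RingHom.coe_coe, smul_EK_b₂, smul_EK_b₄, smul_EK_b₆] using this

lemma galois_cb (x : AlgebraicClosure ℚ) :
    σ (cb (EK W).b₂ (EK W).b₄ (EK W).b₆ x) = cb (EK W).b₂ (EK W).b₄ (EK W).b₆ (σ x) := by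
  have := map_cb (σ : AlgebraicClosure ℚ →+* AlgebraicClosure ℚ) (EK W).b₂ (EK W).b₄ (EK W).b₆ x
  simpa only [RingHom.coe_coe, smul_EK_b₂, smul_EK_b₄, smul_EK_b₆] using this

lemma galois_cu (x : AlgebraicClosure ℚ) :
    σ (cu (EK W).b₂ (EK W).b₄ (EK W).b₆ x) = cu (EK W).b₂ (EK W).b₄ (EK W).b₆ (σ x) := by
  have := map_cu (σ : AlgebraicClosure ℚ →+* AlgebraicClosure ℚ) (EK W).b₂ (EK W).b₄ (EK W).b₆ x
  simpa only [RingHom.coe_coe, smul_EK_b₂, smul_EK_b₄, smul_EK_b₆] using this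

/-! ### the Galois action on points -/

lemma smul_zero_point : σ • (0 : (EK W).toAffine.Point) = 0 := rfl

lemma smul_some {x y : AlgebraicClosure ℚ} (h : (EK W).toAffine.Nonsingular x y) :
    ∃ h' : (EK W).toAffine.Nonsingular (σ x) (σ y),
      σ • (Point.some x y h : (EK W).toAffine.Point) = Point.some (σ x) (σ y) h' :=
  ⟨_, rfl⟩

/-- T3 : Galois acts on x-coordinates. -/
theorem px_smul (P : (EK W).toAffine.Point) : px (EK W) (σ • P) = (px (EK W) P).map σ := by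
  cases P with
  | zero => rfl
  | some x y h => rfl

lemma px_smul_of_eq_some {P : (EK W).toAffine.Point} {x : AlgebraicClosure ℚ}
    (hP : px (EK W) P = Option.some x) : px (EK W) (σ • P) = Option.some (σ x) := by
  rw [px_smul, hP]; rfl

lemma smul_add_point (P Q : (EK W).toAffine.Point) : σ • (P + Q) = σ • P + σ • Q :=
  (Point.map σ.toAlgHom).map_add P Q

lemma smul_nsmul_point (k : ℕ) (P : (EK W).toAffine.Point) : σ • (k • P) = k • (σ • P) :=
  (Point.map σ.toAlgHom).map_nsmul k P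

lemma smul_neg_point (P : (EK W).toAffine.Point) : σ • (-P) = -(σ • P) :=
  (Point.map σ.toAlgHom).map_neg P

lemma smul_eq_zero_iff_point (P : (EK W).toAffine.Point) : σ • P = 0 ↔ P = 0 := by
  constructor
  · intro h
    exact Point.map_injective (W' := W.map (Int.castRingHom ℚ)) σ.toAlgHom
      (h.trans (smul_zero_point W σ).symm)
  · rintro rfl
    rfl

end Fermat.Agent.S51
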