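import Fermat.Prelude.Def_FLTPrelim_GaloisRep
import Fermat.Prelude.Def_FLTPrelim_Modularity
import Fermat.Agent.S51.Cubic
import Fermat.Agent.S51.GroupLaw
import Fermat.Agent.S51.Endgame
import Fermat.Agent.S51.EndgameQ

set_option autoImplicit false
open WeierstrassCurve WeierstrassCurve.Affine WeierstrassCurve.Affine.Point

namespace Fermat.Agent.S51.NTF

local notation "K" => AlgebraicClosure ℚ
local notation "Γ" => (AlgebraicClosure ℚ ≃ₐ[ℚ] AlgebraicClosure ℚ)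

/-- the base change of `W` to `ℚ̄` -/
noncomputable abbrev EK (W : WeierstrassCurve ℤ) : WeierstrassCurve K :=
  (W.map (Int.castRingHom ℚ))⁄K

theorem px_smul (W : WeierstrassCurve ℤ) (σ : Γ) (P : (EK W).toAffine.Point) :
    px (EK W) (σ • P) = (px (EK W) P).map σ := by
  cases P with
  | zero => rfl
  | some x y h => rfl

lemma smul_zero' (W : WeierstrassCurve ℤ) (σ : Γ) : σ • (0 : (EK W).toAffine.Point) = 0 := rfl

lemma inv_smul_smul' (W : WeierstrassCurve ℤ) (σ : Γ) (P : (EK W).toAffine.Point) :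
    σ⁻¹ • (σ • P) = P := by
  cases P with
  | zero => rfl
  | some x y h =>
    show Point.map _ (Point.map _ _) = _
    simp only [Point.map_some]
    congr 1 <;> exact σ.symm_apply_apply _

lemma smul_eq_zero_iff (W : WeierstrassCurve ℤ) (σ : Γ) (P : (EK W).toAffine.Point) :
    σ • P = 0 ↔ P = 0 := by
  constructor
  · intro h
    rw [← inv_smul_smul' W σ P, h]
    rfl
  · rintro rfl
    rfl

lemma b₂_fixed (W : WeierstrassCurve ℤ) (σ : Γ) : σ (EK W).b₂ = (EK W).b₂ := by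
  simp only [EK, WeierstrassCurve.baseChange, WeierstrassCurve.map_b₂]
  exact σ.commutes _

lemma b₄_fixed (W : WeierstrassCurve ℤ) (σ : Γ) : σ (EK W).b₄ = (EK W).b₄ := by
  simp only [EK, WeierstrassCurve.baseChange, WeierstrassCurve.map_b₄]
  exact σ.commutes _

lemma b₆_fixed (W : WeierstrassCurve ℤ) (σ : Γ) : σ (EK W).b₆ = (EK W).b₆ := by
  simp only [EK, WeierstrassCurve.baseChange, WeierstrassCurve.map_b₆]
  exact σ.commutes _


lemma map_cf (σ : Γ) (B2 B4 B6 x : K) :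
    σ (cf B2 B4 B6 x) = cf (σ B2) (σ B4) (σ B6) (σ x) := by
  simp only [cf, map_add, map_mul, map_pow, map_ofNat]

lemma map_cq (σ : Γ) (B2 B4 B6 x : K) :
    σ (cq B2 B4 B6 x) = cq (σ B2) (σ B4) (σ B6) (σ x) := by
  simp only [cq, map_add, map_sub, map_mul, map_pow, map_ofNat]

lemma map_cdbl (σ : Γ) (B2 B4 B6 x : K) :
    σ (cdbl B2 B4 B6 x) = cdbl (σ B2) (σ B4) (σ B6) (σ x) := by
  simp only [cdbl, map_sub, map_div₀, map_mul, map_ofNat, map_cf, map_cq]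

lemma map_cb (σ : Γ) (B2 B4 B6 x : K) :
    σ (cb B2 B4 B6 x) = cb (σ B2) (σ B4) (σ B6) (σ x) := by
  simp only [cb, map_neg, map_div₀, map_mul, map_pow, map_ofNat, map_cf, map_cq]

lemma nsmul_mod' {A : Type*} [AddCommMonoid A] (n k : ℕ) (P : A) (h : n • P = 0) :
    k • P = (k % n) • P := by
  conv_lhs => rw [← Nat.div_add_mod k n]
  rw [add_nsmul, mul_nsmul, h, smul_zero, zero_add]

/-- abstract rationality of swap-invariant expressions -/
lemma rat_of_fix_or_swap (x1 x2 : K) (f : K → K → K)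
    (hf : ∀ σ : Γ, σ (f x1 x2) = f (σ x1) (σ x2))
    (hsym : f x1 x2 = f x2 x1)
    (h : ∀ σ : Γ, (σ x1 = x1 ∧ σ x2 = x2) ∨ (σ x1 = x2 ∧ σ x2 = x1)) :
    ∃ q : ℚ, algebraMap ℚ K q = f x1 x2 := by
  apply exists_rat_of_fixed
  intro σ
  rw [hf]
  rcases h σ with ⟨h1, h2⟩ | ⟨h1, h2⟩
  · rw [h1, h2]
  · rw [h1, h2, hsym]


lemma five_galois (W : WeierstrassCurve ℤ) (P : (EK W).toAffine.Point)
    (h5 : (5 : ℕ) • P = 0) (x1 : K) (hx1 : px (EK W) P = Option.some x1)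
    (hf : cf (EK W).b₂ (EK W).b₄ (EK W).b₆ x1 ≠ 0)
    (σ : Γ) (hσ : ∃ k : ℕ, σ • P = k • P) :
    σ x1 = x1 ∨ σ x1 = cdbl (EK W).b₂ (EK W).b₄ (EK W).b₆ x1 := by
  obtain ⟨k, hk⟩ := hσ
  have hpx : px (EK W) (k • P) = Option.some (σ x1) := by rw [← hk, px_smul, hx1]; rfl
  rw [nsmul_mod' 5 k P h5] at hpx
  have h2 := px_add_self hx1 hf
  have hr : k % 5 < 5 := Nat.mod_lt _ (by norm_num)
  interval_cases hrr : k % 5
  · simp at hpx
  · rw [one_nsmul, hx1] at hpx; left; exact (Option.some.inj hpx).symm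
  · rw [two_nsmul, h2] at hpx; right; exact (Option.some.inj hpx).symm
  · have h3 : (3 : ℕ) • P = -(P + P) := by
      have : (3 : ℕ) • P + (P + P) = 0 := by rw [← h5]; abel
      exact eq_neg_of_add_eq_zero_left this
    rw [h3, px_neg, h2] at hpx; right; exact (Option.some.inj hpx).symm
  · have h4 : (4 : ℕ) • P = -P := by
      have : (4 : ℕ) • P + P = 0 := by rw [← h5]; abel
      exact eq_neg_of_add_eq_zero_left this
    rw [h4, px_neg, hx1] at hpx; left; exact (Option.some.inj hpx).symm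

lemma three_galois (W : WeierstrassCurve ℤ) (P : (EK W).toAffine.Point)
    (h3 : (3 : ℕ) • P = 0) (x3 : K) (hx3 : px (EK W) P = Option.some x3)
    (σ : Γ) (hσ : ∃ k : ℕ, σ • P = k • P) : σ x3 = x3 := by
  obtain ⟨k, hk⟩ := hσ
  have hpx : px (EK W) (k • P) = Option.some (σ x3) := by rw [← hk, px_smul, hx3]; rfl
  rw [nsmul_mod' 3 k P h3] at hpx
  have hr : k % 3 < 3 := Nat.mod_lt _ (by norm_num)
  interval_cases hrr : k % 3
  · simp at hpx
  · rw [one_nsmul, hx3] at hpx; exact (Option.some.inj hpx).symm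
  · have h2 : (2 : ℕ) • P = -P := by
      have : (2 : ℕ) • P + P = 0 := by rw [← h3]; abel
      exact eq_neg_of_add_eq_zero_left this
    rw [h2, px_neg, hx3] at hpx; exact (Option.some.inj hpx).symm


lemma cc4_eq (W : WeierstrassCurve K) : cc4 W.b₂ W.b₄ = W.c₄ := by
  simp only [cc4, WeierstrassCurve.c₄]

lemma cD_eq (W : WeierstrassCurve K) : cD W.b₂ W.b₄ W.b₆ = 4 * W.Δ := by
  simp only [cD, WeierstrassCurve.Δ]
  linear_combination (W.b₂ ^ 2) * W.b_relation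

lemma c₄_EK (W : WeierstrassCurve ℤ) : (EK W).c₄ = algebraMap ℚ K (W.c₄ : ℚ) := by
  simp only [EK, WeierstrassCurve.baseChange, WeierstrassCurve.map_c₄, eq_intCast]

lemma Δ_EK (W : WeierstrassCurve ℤ) : (EK W).Δ = algebraMap ℚ K (W.Δ : ℚ) := by
  simp only [EK, WeierstrassCurve.baseChange, WeierstrassCurve.map_Δ, eq_intCast]


/-- pure algebra: the identities satisfied by `B = b - 1/b`, `θ = (2ρ-1)(b+1/b)`. -/
lemma algebra_core {F : Type*} [Field F] [CharZero F] (u b ρ c4 D : F) (hu : u ≠ 0) (hb : b ≠ 0)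
    (hc4 : c4 = u ^ 2 * (b ^ 4 - 12 * b ^ 3 + 14 * b ^ 2 + 12 * b + 1))
    (hD : 4 * D = u ^ 6 * (4 * (b ^ 5 * (b ^ 2 - 11 * b - 1)))) :
    ((2 * ρ - 1) * (b - (-1 / b))) ^ 2 = (4 * (ρ * (ρ - 1)) + 1) * ((b + (-1 / b)) ^ 2 + 4) ∧
    c4 ^ 3 * ((b + (-1 / b)) - 11) =
      D * ((b + (-1 / b)) ^ 2 - 12 * (b + (-1 / b)) + 16) ^ 3 ∧
    (D ≠ 0 → b + (-1 / b) ≠ 11) := by
  have hD' : D = u ^ 6 * (b ^ 5 * (b ^ 2 - 11 * b - 1)) := by linear_combination (1 / 4 : F) * hD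
  refine ⟨?_, ?_, ?_⟩
  · field_simp
    ring
  · rw [hc4, hD']
    field_simp
    ring
  · intro hD0 h11
    apply hD0
    rw [hD']
    have : b ^ 2 - 11 * b - 1 = 0 := by
      field_simp at h11
      linear_combination h11
    rw [this]; ring


/-- T6 : a semistable curve cannot have both a Galois-stable cyclic subgroup of order 3 and one
of order 5 (given the rational points of `15a1`). -/
theorem no_three_five (W : WeierstrassCurve ℤ) (hΔ : W.Δ ≠ 0) (hW : W.IsSemistableModel)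
    (E15 : ∀ x y : ℚ, y ^ 2 = x * (x - 16) * (x + 9) →
      x = 0 ∨ x = 16 ∨ x = -9 ∨ x = -4 ∨ x = 36)
    (P₃ P₅ : (EK W).toAffine.Point) (h3 : P₃ ≠ 0) (h3' : (3 : ℕ) • P₃ = 0)
    (hG3 : ∀ σ : Γ, ∃ k : ℕ, σ • P₃ = k • P₃)
    (h5 : P₅ ≠ 0) (h5' : (5 : ℕ) • P₅ = 0)
    (hG5 : ∀ σ : Γ, ∃ k : ℕ, σ • P₅ = k • P₅) : False := by
  -- x-coordinates
  obtain ⟨x1, hx1⟩ : ∃ x1, px (EK W) P₅ = Option.some x1 := by
    rcases hpx : px (EK W) P₅ with _ | x
    · exact absurd (px_eq_none_iff.mp hpx) h5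
    · exact ⟨x, rfl⟩
  obtain ⟨x3, hx3⟩ : ∃ x3, px (EK W) P₃ = Option.some x3 := by
    rcases hpx : px (EK W) P₃ with _ | x
    · exact absurd (px_eq_none_iff.mp hpx) h3
    · exact ⟨x, rfl⟩
  have hR := (five_nsmul_eq_zero_iff hx1).mp h5'
  have hq3 := (three_nsmul_eq_zero_iff hx3).mp h3'
  have hf : cf (EK W).b₂ (EK W).b₄ (EK W).b₆ x1 ≠ 0 := by
    intro hf
    have hq := cq_ne_zero_of_cf_eq_zero' hx1 hf
    rw [cR5, hf] at hR
    apply hq
    have : cq (EK W).b₂ (EK W).b₄ (EK W).b₆ x1 ^ 3 = 0 := by linear_combination hR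
    exact pow_eq_zero_iff (by norm_num) |>.mp this
  have hq : cq (EK W).b₂ (EK W).b₄ (EK W).b₆ x1 ≠ 0 := by
    intro hq
    rw [cR5, hq] at hR
    apply hf
    have : cf (EK W).b₂ (EK W).b₄ (EK W).b₆ x1 ^ 4 = 0 := by
      linear_combination (1 / 64 : K) * hR
    exact pow_eq_zero_iff (by norm_num) |>.mp this
  -- Galois action on the x-coordinates
  have hσ3 : ∀ σ : Γ, σ x3 = x3 := fun σ => three_galois W P₃ h3' x3 hx3 σ (hG3 σ)
  have hcd : ∀ (σ : Γ) (x : K), σ (cdbl (EK W).b₂ (EK W).b₄ (EK W).b₆ x) =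
      cdbl (EK W).b₂ (EK W).b₄ (EK W).b₆ (σ x) := by
    intro σ x; rw [map_cdbl, b₂_fixed, b₄_fixed, b₆_fixed]
  have hcb : ∀ (σ : Γ) (x : K), σ (cb (EK W).b₂ (EK W).b₄ (EK W).b₆ x) =
      cb (EK W).b₂ (EK W).b₄ (EK W).b₆ (σ x) := by
    intro σ x; rw [map_cb, b₂_fixed, b₄_fixed, b₆_fixed]
  have hc4K := c₄_EK W
  have hΔK := Δ_EK W
  have hc4' := cc4_eq (EK W)
  have hD' := cD_eq (EK W)
  obtain ⟨hu, hb, hd, hf2, hq2, hR2, hdd, hb2, hc4, hD, hC⟩ := five_data hf hq hR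
  have hg5 := fun σ => five_galois W P₅ h5' x1 hx1 hf σ (hG5 σ)
  -- abbreviations
  generalize (EK W).c₄ = c4 at *
  generalize (EK W).Δ = Dl at *
  generalize (EK W).b₂ = B2 at *
  generalize (EK W).b₄ = B4 at *
  generalize (EK W).b₆ = B6 at *
  obtain ⟨x2, hx2⟩ : ∃ x2, cdbl B2 B4 B6 x1 = x2 := ⟨_, rfl⟩
  obtain ⟨u, hudef⟩ : ∃ u, cu B2 B4 B6 x1 = u := ⟨_, rfl⟩
  obtain ⟨b, hbdef⟩ : ∃ b, cb B2 B4 B6 x1 = b := ⟨_, rfl⟩
  rw [hx2] at hd hf2 hq2 hR2 hdd hb2 hC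
  rw [hudef] at hu hd hf2 hq2 hc4 hD
  rw [hbdef] at hb hd hf2 hq2 hb2 hc4 hD hC
  have h21 : x2 - x1 = u * b := by rw [hd]; ring
  have h21ne : x2 - x1 ≠ 0 := by rw [h21]; exact mul_ne_zero hu hb
  have h12ne : x1 - x2 ≠ 0 := by
    intro h; apply h21ne; linear_combination -h
  have hσ5 : ∀ σ : Γ, (σ x1 = x1 ∧ σ x2 = x2) ∨ (σ x1 = x2 ∧ σ x2 = x1) := by
    intro σ
    rcases hg5 σ with h | h
    · left; exact ⟨h, by rw [← hx2, hcd, h]⟩
    · right; rw [hx2] at h; exact ⟨h, by rw [← hx2, hcd, h, hdd]⟩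
  -- the three invariants are rational
  obtain ⟨qω, hqω⟩ := rat_of_fix_or_swap x1 x2
    (fun a c => (x3 - a) / (c - a) * ((x3 - a) / (c - a) - 1))
    (fun σ => by simp only [map_mul, map_sub, map_div₀, map_one, hσ3 σ])
    (by field_simp; ring) hσ5
  obtain ⟨qB, hqB⟩ := rat_of_fix_or_swap x1 x2
    (fun a c => cb B2 B4 B6 a + cb B2 B4 B6 c)
    (fun σ => by simp only [map_add, hcb]) (by ring) hσ5
  obtain ⟨qθ, hqθ⟩ := rat_of_fix_or_swap x1 x2
    (fun a c => (2 * ((x3 - a) / (c - a)) - 1) * (cb B2 B4 B6 a - cb B2 B4 B6 c))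
    (fun σ => by simp only [map_mul, map_sub, map_div₀, map_one, map_ofNat, hσ3 σ, hcb])
    (by field_simp; ring) hσ5
  rw [hbdef, hb2] at hqB hqθ
  obtain ⟨ρ, hρ⟩ : ∃ ρ, (x3 - x1) / (x2 - x1) = ρ := ⟨_, rfl⟩
  rw [hρ] at hqω hqθ
  have hCρ : cC1 b ρ = 0 := by rw [← hρ]; exact hC x3 hq3
  have hG := cG_of_cC1 hb hCρ
  have hDl : Dl ≠ 0 := by
    rw [hΔK]
    intro h
    apply hΔ
    have := (algebraMap ℚ K).injective (h.trans (_root_.map_zero _).symm)
    exact_mod_cast this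
  obtain ⟨e1, e2, e3⟩ := algebra_core u b ρ c4 Dl hu hb (by rw [← hc4', hc4]) (by rw [← hD', hD])
  have e3 := e3 hDl
  have hinj := (algebraMap ℚ K).injective
  -- ρ ≠ 0, ρ ≠ 1
  have hρ0 : ρ ≠ 0 := by
    intro h0
    rw [h0] at hρ
    have : x3 = x1 := by
      rcases div_eq_zero_iff.mp hρ with h | h
      · linear_combination h
      · exact absurd h h21ne
    rw [this] at hq3
    exact hq hq3
  have hρ1 : ρ - 1 ≠ 0 := by
    intro h1
    have h1' : ρ = 1 := by linear_combination h1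
    rw [h1'] at hρ
    have : x3 = x2 := by
      have := (div_eq_one_iff_eq h21ne).mp hρ
      linear_combination this
    rw [this, hq2] at hq3
    exact mul_ne_zero (mul_ne_zero (by norm_num) (pow_ne_zero _ hu)) (pow_ne_zero _ hb) hq3
  -- descend to ℚ
  refine endgame_Q W hW qω qB qθ ?_ ?_ ?_ ?_ ?_ E15
  · apply hinj
    have : cG (algebraMap ℚ K qω) (algebraMap ℚ K qB) = 0 := by
      rw [hqω, hqB]
      have : b + -1 / b = b - 1 / b := by ring
      rw [this]; exact hG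
    rw [_root_.map_zero, ← this]
    simp only [cG, map_add, map_sub, map_mul, map_pow, map_ofNat, map_one]
  · intro h0
    rw [h0, _root_.map_zero] at hqω
    rcases mul_eq_zero.mp hqω.symm with h | h
    · exact hρ0 h
    · exact hρ1 h
  · apply hinj
    simp only [map_add, map_mul, map_pow, map_ofNat, map_one]
    rw [hqθ, hqω, hqB]
    exact e1
  · intro h11
    apply e3
    rw [← hqB, h11, map_ofNat]
  · apply hinj
    simp only [map_add, map_sub, map_mul, map_pow, map_ofNat]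
    rw [hqB, ← hc4K, ← hΔK]
    exact e2

end Fermat.Agent.S51.NTF
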