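import Fermat.Agent.S51.StablePoint
import Fermat.Agent.S51.Exists

/-!
# Reducible mod `5` representation ⟹ a Galois-stable cyclic subgroup of order `5` (S51, T1/T2)

* `card_fiveTorsion_le`: `E[5]` has at most `25` elements (char `0`), via the `x`-coordinates
  being roots of the degree-`12` polynomial `Exists.r5Poly` (`= -64 ψ₅`).
* `exists_stable_point_five`: the case `p = 5` of `exists_stable_point`.
-/

set_option autoImplicit false
set_option linter.unusedSectionVars false

namespace Fermat.Agent.S51

open Polynomial WeierstrassCurve WeierstrassCurve.Affine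

section Count5

variable {K : Type*} [Field K] [DecidableEq K] [CharZero K] (E : WeierstrassCurve K)

/-- The finite set containing the coordinates of all `5`-torsion points. -/
noncomputable def fiveTorsionCoords : Finset (Option (K × K)) :=
  insert none (((Exists.r5Poly E.b₂ E.b₄ E.b₆).roots.toFinset).biUnion fun x =>
    ((yPoly E.toAffine x).roots.toFinset).image fun y => Option.some (x, y))

theorem r5Poly_ne_zero : Exists.r5Poly E.b₂ E.b₄ E.b₆ ≠ 0 := by
  intro h
  have := Exists.degree_r5Poly E.b₂ E.b₄ E.b₆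
  rw [h] at this
  simp at this

theorem natDegree_r5Poly_le : (Exists.r5Poly E.b₂ E.b₄ E.b₆).natDegree ≤ 12 :=
  natDegree_le_of_degree_le (Exists.degree_r5Poly E.b₂ E.b₄ E.b₆).le

theorem card_fiveTorsionCoords_le : (fiveTorsionCoords E).card ≤ 25 := by
  unfold fiveTorsionCoords
  refine (Finset.card_insert_le _ _).trans ?_
  have h1 : (((Exists.r5Poly E.b₂ E.b₄ E.b₆).roots.toFinset).biUnion fun x =>
      ((yPoly E.toAffine x).roots.toFinset).image fun y => Option.some (x, y)).card ≤
      ((Exists.r5Poly E.b₂ E.b₄ E.b₆).roots.toFinset).card * 2 := by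
    apply Finset.card_biUnion_le_card_mul
    intro x _
    refine Finset.card_image_le.trans ?_
    refine (Multiset.toFinset_card_le _).trans ?_
    exact (Polynomial.card_roots' _).trans (yPoly_natDegree E.toAffine x).le
  have h2 : ((Exists.r5Poly E.b₂ E.b₄ E.b₆).roots.toFinset).card ≤ 12 :=
    (Multiset.toFinset_card_le _).trans ((Polynomial.card_roots' _).trans (natDegree_r5Poly_le E))
  omega

theorem coords_mem_fiveTorsionCoords {P : E.toAffine.Point} (hP : (5 : ℕ) • P = 0) :
    coords E.toAffine P ∈ fiveTorsionCoords E := by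
  unfold fiveTorsionCoords
  rcases P with _ | ⟨x, y, h⟩
  · exact Finset.mem_insert_self _ _
  · apply Finset.mem_insert_of_mem
    rw [Finset.mem_biUnion]
    refine ⟨x, ?_, ?_⟩
    · rw [Multiset.mem_toFinset, Polynomial.mem_roots (r5Poly_ne_zero E), IsRoot.def,
        Exists.eval_r5Poly]
      exact (five_nsmul_eq_zero_iff (W := E) (P := Point.some x y h) (x := x) rfl).mp hP
    · rw [Finset.mem_image]
      refine ⟨y, ?_, rfl⟩
      rw [Multiset.mem_toFinset, Polynomial.mem_roots (yPoly_ne_zero E.toAffine x)]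
      exact isRoot_yPoly E.toAffine h.1

/-- The map from `E[5]` to the finite set of coordinates. -/
noncomputable def fiveTorsionToCoords :
    Submodule.torsionBy ℤ E.toAffine.Point ((5 : ℕ) : ℤ) → fiveTorsionCoords E := fun P =>
  ⟨coords E.toAffine P.1, coords_mem_fiveTorsionCoords E (by
    have := (Submodule.mem_torsionBy_iff _ _).mp P.2
    rw [Nat.cast_smul_eq_nsmul] at this
    exact this)⟩

theorem fiveTorsionToCoords_injective : Function.Injective (fiveTorsionToCoords E) := by
  intro P Q h
  apply Subtype.ext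
  apply coords_injective E.toAffine
  exact congrArg Subtype.val h

/-- The `5`-torsion is finite. -/
theorem finite_fiveTorsion :
    Finite (Submodule.torsionBy ℤ E.toAffine.Point ((5 : ℕ) : ℤ)) :=
  Finite.of_injective _ (fiveTorsionToCoords_injective E)

/-- The `5`-torsion has at most `25` elements. -/
theorem card_fiveTorsion_le :
    Nat.card (Submodule.torsionBy ℤ E.toAffine.Point ((5 : ℕ) : ℤ)) ≤ 25 := by
  have := Nat.card_le_card_of_injective _ (fiveTorsionToCoords_injective E)
  have h2 : Nat.card (fiveTorsionCoords E) = (fiveTorsionCoords E).card := by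
    rw [Nat.card_eq_fintype_card, Fintype.card_coe]
  rw [h2] at this
  exact this.trans (card_fiveTorsionCoords_le E)

end Count5

local notation "Qbar" => AlgebraicClosure ℚ

open scoped WeierstrassCurve.Affine

/-- The case `p = 5` for an integral Weierstrass curve with nonzero discriminant. -/
theorem exists_stable_point_five (W : WeierstrassCurve ℤ) (hΔ : W.Δ ≠ 0)
    (h : ¬ W.ModRepIsIrreducible 5) :
    ∃ P : ((W.map (Int.castRingHom ℚ))⁄Qbar).Point, P ≠ 0 ∧ 5 • P = 0 ∧
      ∀ σ : Qbar ≃ₐ[ℚ] Qbar, ∃ k : ℕ, σ • P = k • P := by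
  have : Fact (Nat.Prime 5) := ⟨by norm_num⟩
  have hΔ' : ((W.map (Int.castRingHom ℚ))⁄Qbar).Δ ≠ 0 := by
    change ((W.map (Int.castRingHom ℚ)).map (algebraMap ℚ Qbar)).Δ ≠ 0
    rw [WeierstrassCurve.map_Δ, WeierstrassCurve.map_Δ]
    simpa using hΔ
  exact exists_stable_point_int W 5
    (finite_fiveTorsion ((W.map (Int.castRingHom ℚ))⁄Qbar))
    (card_fiveTorsion_le ((W.map (Int.castRingHom ℚ))⁄Qbar))
    (exists_torsion_point ((W.map (Int.castRingHom ℚ))⁄Qbar) hΔ' 5 (Or.inr rfl)) h

end Fermat.Agent.S51
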