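import Mathlib

set_option autoImplicit false
set_option linter.unnecessarySimpa false

namespace Fermat.Agent.S51

open WeierstrassCurve WeierstrassCurve.Affine Polynomial

variable {K : Type*} [Field K] (E : WeierstrassCurve.Affine K)

/-- Evaluation of the `3`-division polynomial. -/
theorem eval_Ψ₃ (x : K) : (E.Ψ₃).eval x =
    3 * x ^ 4 + E.b₂ * x ^ 3 + 3 * E.b₄ * x ^ 2 + 3 * E.b₆ * x + E.b₈ := by
  simp [WeierstrassCurve.Ψ₃]

/-- The key identity behind `x(2P) - x(P) = -Ψ₃(x)/ψ₂²`. -/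
theorem doubling_identity (x y : K) (h : E.Equation x y) :
    (3 * x ^ 2 + 2 * E.a₂ * x + E.a₄ - E.a₁ * y) ^ 2 +
      E.a₁ * (3 * x ^ 2 + 2 * E.a₂ * x + E.a₄ - E.a₁ * y) * (y - E.negY x y) -
      (E.a₂ + 3 * x) * (y - E.negY x y) ^ 2 = -(E.Ψ₃).eval x := by
  rw [equation_iff] at h
  rw [eval_Ψ₃, negY]
  simp only [WeierstrassCurve.b₂, WeierstrassCurve.b₄, WeierstrassCurve.b₆, WeierstrassCurve.b₈]
  linear_combination (-(12 * x + E.a₁ ^ 2 + 4 * E.a₂)) * h

variable [DecidableEq K]

/-- If `y ≠ negY`, the `x`-coordinate of `2P` minus `x` equals `-Ψ₃(x)/ψ₂(x,y)²`. -/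
theorem addX_self_sub (x y : K) (h : E.Equation x y) (hy : y ≠ E.negY x y) :
    (E.addX x x (E.slope x x y y) - x) * (y - E.negY x y) ^ 2 = -(E.Ψ₃).eval x := by
  have hd : y - E.negY x y ≠ 0 := sub_ne_zero.mpr hy
  rw [slope_of_Y_ne rfl hy, addX, ← doubling_identity E x y h]
  field_simp
  ring

/-- A nonzero point of order dividing `3` has `x`-coordinate a root of `Ψ₃`. -/
theorem eval_Ψ₃_eq_zero_of_three_smul {x y : K} (h : E.Nonsingular x y)
    (h3 : (3 : ℤ) • (Point.some x y h) = 0) : (E.Ψ₃).eval x = 0 := by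
  have h3' : Point.some x y h + Point.some x y h = -Point.some x y h := by
    have : (3 : ℤ) • (Point.some x y h) =
        Point.some x y h + Point.some x y h + Point.some x y h := by
      rw [show (3 : ℤ) = 1 + 1 + 1 by norm_num, add_smul, add_smul, one_smul]
    rw [this] at h3
    exact eq_neg_of_add_eq_zero_left h3
  by_cases hy : y = E.negY x y
  · -- then `2P = 0`, so `-P = 0`, impossible
    rw [Point.add_self_of_Y_eq hy] at h3'
    have : Point.some x y h = 0 := by
      have := congrArg Neg.neg h3'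
      simpa using this.symm
    exact absurd this (Point.some_ne_zero h)
  · rw [Point.add_self_of_Y_ne hy, Point.neg_some] at h3'
    have hX : E.addX x x (E.slope x x y y) = x := by
      have := h3'
      simp only [Point.some.injEq] at this
      exact this.1
    have := addX_self_sub E x y h.1 hy
    rw [hX, sub_self, zero_mul] at this
    simpa using this.symm

omit [DecidableEq K] in
/-- At a point of the curve with `ψ₂ = 0` (a `2`-torsion point), `2(F_x² + Ψ₃) = 0`. -/
theorem two_mul_sq_add_eval_Ψ₃ (x y : K) (h : E.Equation x y) (hy : y = E.negY x y) :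
    2 * ((E.a₁ * y - (3 * x ^ 2 + 2 * E.a₂ * x + E.a₄)) ^ 2 + (E.Ψ₃).eval x) = 0 := by
  rw [equation_iff] at h
  rw [negY] at hy
  have hψ : 2 * y + E.a₁ * x + E.a₃ = 0 := by linear_combination hy
  rw [eval_Ψ₃]
  simp only [WeierstrassCurve.b₂, WeierstrassCurve.b₄, WeierstrassCurve.b₆, WeierstrassCurve.b₈]
  linear_combination (-24 * x - 2 * E.a₁ ^ 2 - 8 * E.a₂) * h +
    (12 * x * y - 2 * x * E.a₁ * E.a₂ + 6 * x * E.a₃ + 2 * y * E.a₁ ^ 2 + 4 * y * E.a₂ -
      2 * E.a₁ * E.a₄ + 2 * E.a₂ * E.a₃) * hψ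

omit [DecidableEq K] in
/-- A nonsingular point whose `x`-coordinate is a root of `Ψ₃` is not `2`-torsion
(characteristic `≠ 2`). -/
theorem Y_ne_negY_of_eval_Ψ₃ {x y : K} (h : E.Nonsingular x y) (h2 : (2 : K) ≠ 0)
    (hΨ : (E.Ψ₃).eval x = 0) : y ≠ E.negY x y := by
  intro hy
  have h0 := two_mul_sq_add_eval_Ψ₃ E x y h.1 hy
  rw [hΨ, add_zero] at h0
  have hFx : E.a₁ * y - (3 * x ^ 2 + 2 * E.a₂ * x + E.a₄) = 0 := by
    have := (mul_eq_zero.mp h0).resolve_left h2
    exact pow_eq_zero_iff (two_ne_zero) |>.mp this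
  rw [nonsingular_iff] at h
  rcases h.2 with h' | h'
  · exact h' (by linear_combination hFx)
  · exact h' (by rw [negY] at hy; exact hy)

/-- Converse: a nonsingular point whose `x`-coordinate is a root of `Ψ₃` is `3`-torsion. -/
theorem three_smul_eq_zero_of_eval_Ψ₃ {x y : K} (h : E.Nonsingular x y) (h2 : (2 : K) ≠ 0)
    (hΨ : (E.Ψ₃).eval x = 0) : (3 : ℤ) • (Point.some x y h) = 0 := by
  have hy := Y_ne_negY_of_eval_Ψ₃ E h h2 hΨ
  have hd : y - E.negY x y ≠ 0 := sub_ne_zero.mpr hy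
  have hX : E.addX x x (E.slope x x y y) = x := by
    have := addX_self_sub E x y h.1 hy
    rw [hΨ, neg_zero] at this
    have := (mul_eq_zero.mp this).resolve_right (pow_ne_zero 2 hd)
    exact sub_eq_zero.mp this
  have hsum := Point.add_self_of_Y_ne (h₁ := h) hy
  have h2P : Point.some x y h + Point.some x y h = Point.some x y h ∨
      Point.some x y h + Point.some x y h = -Point.some x y h := by
    rw [hsum]
    exact Point.X_eq_iff.mp hX
  have key : Point.some x y h + Point.some x y h = -Point.some x y h := by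
    rcases h2P with h' | h'
    · exfalso
      have : Point.some x y h = 0 := by
        have := congrArg (fun Q => Q - Point.some x y h) h'
        simpa using this
      exact Point.some_ne_zero h this
    · exact h'
  rw [show (3 : ℤ) = 1 + 1 + 1 by norm_num, add_smul, add_smul, one_smul, key]
  exact neg_add_cancel _

/-- Over an algebraically closed field of characteristic `≠ 2, 3`, an elliptic curve has a
nonzero `3`-torsion point. -/
theorem exists_three_torsion_ne_zero [IsAlgClosed K] (h2 : (2 : K) ≠ 0) (h3 : (3 : K) ≠ 0)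
    (hΔ : E.Δ ≠ 0) : ∃ P : E.Point, P ≠ 0 ∧ (3 : ℤ) • P = 0 := by
  -- a root of `Ψ₃`
  have hdeg : (E.Ψ₃).degree = 4 := by
    rw [WeierstrassCurve.Ψ₃]
    compute_degree!
  obtain ⟨x₀, hx₀⟩ := IsAlgClosed.exists_root E.Ψ₃ (by rw [hdeg]; norm_num)
  -- a `y`-coordinate
  let q : K[X] := X ^ 2 + C (E.a₁ * x₀ + E.a₃) * X - C (x₀ ^ 3 + E.a₂ * x₀ ^ 2 + E.a₄ * x₀ + E.a₆)
  have hqdeg : q.degree = 2 := by
    simp only [q]
    compute_degree!
  obtain ⟨y₀, hy₀⟩ := IsAlgClosed.exists_root q (by rw [hqdeg]; norm_num)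
  have heq : E.Equation x₀ y₀ := by
    rw [equation_iff]
    simp only [q, IsRoot.def, eval_sub, eval_add, eval_pow, eval_X, eval_mul, eval_C] at hy₀
    linear_combination hy₀
  have hns : E.Nonsingular x₀ y₀ := (equation_iff_nonsingular_of_Δ_ne_zero hΔ).mp heq
  exact ⟨Point.some x₀ y₀ hns, Point.some_ne_zero hns,
    three_smul_eq_zero_of_eval_Ψ₃ E hns h2 hx₀⟩

end Fermat.Agent.S51
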