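import Mathlib
import Fermat.Prelude.Def_FLTPrelim_GaloisRep
import Fermat.Agent.S51.Endgame
import Fermat.Agent.S51.ThreeTorsion

set_option autoImplicit false
set_option linter.unusedSectionVars false
set_option linter.unnecessarySimpa false

namespace Fermat.Agent.S51

open WeierstrassCurve WeierstrassCurve.Affine Polynomial

section Count

variable {K : Type*} [Field K] [DecidableEq K] (E : WeierstrassCurve.Affine K)

/-- Coordinates of a point, as an element of `Option (K × K)`. -/
def coords : E.Point → Option (K × K)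
  | .zero => none
  | .some x y _ => Option.some (x, y)

theorem coords_injective : Function.Injective (coords E) := by
  rintro (_ | ⟨x₁, y₁, h₁⟩) (_ | ⟨x₂, y₂, h₂⟩) h <;>
    simp only [coords, Option.some.injEq, Prod.mk.injEq, reduceCtorEq] at h
  · rfl
  · obtain ⟨rfl, rfl⟩ := h; rfl

/-- The quadratic polynomial in `Y` cutting out the points with given `x`-coordinate. -/
noncomputable def yPoly (x : K) : K[X] :=
  X ^ 2 + C (E.a₁ * x + E.a₃) * X - C (x ^ 3 + E.a₂ * x ^ 2 + E.a₄ * x + E.a₆)

theorem yPoly_ne_zero (x : K) : yPoly E x ≠ 0 := by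
  have : (yPoly E x).degree = 2 := by
    unfold yPoly
    compute_degree!
  intro h
  rw [h] at this
  simp at this

theorem yPoly_natDegree (x : K) : (yPoly E x).natDegree = 2 := by
  unfold yPoly
  compute_degree!

theorem isRoot_yPoly {x y : K} (h : E.Equation x y) : (yPoly E x).IsRoot y := by
  rw [equation_iff] at h
  simp only [yPoly, IsRoot.def, eval_sub, eval_add, eval_pow, eval_X, eval_mul, eval_C]
  linear_combination h

/-- The finite set containing the coordinates of all `3`-torsion points. -/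
noncomputable def threeTorsionCoords : Finset (Option (K × K)) :=
  insert none ((E.Ψ₃.roots.toFinset).biUnion fun x =>
    ((yPoly E x).roots.toFinset).image fun y => Option.some (x, y))

theorem card_threeTorsionCoords_le (hdeg : E.Ψ₃.natDegree ≤ 4) :
    (threeTorsionCoords E).card ≤ 9 := by
  unfold threeTorsionCoords
  refine (Finset.card_insert_le _ _).trans ?_
  have h1 : ((E.Ψ₃.roots.toFinset).biUnion fun x =>
      ((yPoly E x).roots.toFinset).image fun y => Option.some (x, y)).card ≤
      (E.Ψ₃.roots.toFinset).card * 2 := by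
    apply Finset.card_biUnion_le_card_mul
    intro x _
    refine Finset.card_image_le.trans ?_
    refine (Multiset.toFinset_card_le _).trans ?_
    exact (Polynomial.card_roots' _).trans (yPoly_natDegree E x).le
  have h2 : (E.Ψ₃.roots.toFinset).card ≤ 4 :=
    (Multiset.toFinset_card_le _).trans ((Polynomial.card_roots' _).trans hdeg)
  omega

theorem coords_mem_threeTorsionCoords (hΨ : E.Ψ₃ ≠ 0) {P : E.Point} (hP : (3 : ℤ) • P = 0) :
    coords E P ∈ threeTorsionCoords E := by
  unfold threeTorsionCoords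
  rcases P with _ | ⟨x, y, h⟩
  · exact Finset.mem_insert_self _ _
  · apply Finset.mem_insert_of_mem
    rw [Finset.mem_biUnion]
    refine ⟨x, ?_, ?_⟩
    · rw [Multiset.mem_toFinset, Polynomial.mem_roots hΨ]
      exact eval_Ψ₃_eq_zero_of_three_smul E h hP
    · rw [Finset.mem_image]
      refine ⟨y, ?_, rfl⟩
      rw [Multiset.mem_toFinset, Polynomial.mem_roots (yPoly_ne_zero E x)]
      exact isRoot_yPoly E h.1

theorem natDegree_Ψ₃_le : E.Ψ₃.natDegree ≤ 4 := by
  rw [WeierstrassCurve.Ψ₃]
  compute_degree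

theorem Ψ₃_ne_zero (h3 : (3 : K) ≠ 0) : E.Ψ₃ ≠ 0 := by
  have hdeg : (E.Ψ₃).degree = 4 := by
    rw [WeierstrassCurve.Ψ₃]
    compute_degree!
  intro h
  rw [h] at hdeg
  simp at hdeg

/-- The `3`-torsion is finite. -/
theorem finite_threeTorsion (h3 : (3 : K) ≠ 0) :
    Finite (Submodule.torsionBy ℤ E.Point ((3 : ℕ) : ℤ)) := by
  let g : Submodule.torsionBy ℤ E.Point ((3 : ℕ) : ℤ) → threeTorsionCoords E := fun P =>
    ⟨coords E P.1, coords_mem_threeTorsionCoords E (Ψ₃_ne_zero E h3) (by
      have := (Submodule.mem_torsionBy_iff _ _).mp P.2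
      simpa using this)⟩
  have hg : Function.Injective g := by
    intro P Q h
    apply Subtype.ext
    apply coords_injective E
    exact congrArg Subtype.val h
  exact Finite.of_injective g hg

/-- The `3`-torsion has at most `9` elements. -/
theorem card_threeTorsion_le (h3 : (3 : K) ≠ 0) :
    Nat.card (Submodule.torsionBy ℤ E.Point ((3 : ℕ) : ℤ)) ≤ 9 := by
  let g : Submodule.torsionBy ℤ E.Point ((3 : ℕ) : ℤ) → threeTorsionCoords E := fun P =>
    ⟨coords E P.1, coords_mem_threeTorsionCoords E (Ψ₃_ne_zero E h3) (by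
      have := (Submodule.mem_torsionBy_iff _ _).mp P.2
      simpa using this)⟩
  have hg : Function.Injective g := by
    intro P Q h
    apply Subtype.ext
    apply coords_injective E
    exact congrArg Subtype.val h
  have := Nat.card_le_card_of_injective g hg
  have h2 : Nat.card (threeTorsionCoords E) = (threeTorsionCoords E).card := by
    rw [Nat.card_eq_fintype_card, Fintype.card_coe]
  rw [h2] at this
  exact this.trans (card_threeTorsionCoords_le E (natDegree_Ψ₃_le E))

end Count

section Galois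

open WeierstrassCurve.Affine.Point Module
open scoped WeierstrassCurve.Affine

local notation "Qbar" => AlgebraicClosure ℚ

variable (E : WeierstrassCurve.Affine ℚ)

/-- The Galois action on a point given in coordinates. -/
theorem galois_smul_some_aux (σ : Qbar ≃ₐ[ℚ] Qbar) {x y : Qbar} (h : (E⁄Qbar).Nonsingular x y) :
    ∃ h' : (E⁄Qbar).Nonsingular (σ x) (σ y),
      σ • (Point.some x y h : (E⁄Qbar).Point) = Point.some (σ x) (σ y) h' :=
  ⟨_, rfl⟩

/-- A proper nonzero Galois-stable submodule of `E[3](ℚ̄)` yields a rational root of `Ψ₃`. -/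
theorem exists_rat_root_Ψ₃_of_stable
    (N : Submodule (ZMod 3) (Submodule.torsionBy ℤ (E⁄Qbar).Point ((3 : ℕ) : ℤ)))
    (hN : IsGaloisStable ℚ N) (hbot : N ≠ ⊥) (htop : N ≠ ⊤) :
    ∃ q : ℚ, (E.Ψ₃).eval q = 0 := by
  have h3 : (3 : Qbar) ≠ 0 := by norm_num
  have hfinite := finite_threeTorsion (E⁄Qbar) h3
  have hcard := card_threeTorsion_le (E⁄Qbar) h3
  have hmf : Module.Finite (ZMod 3) (Submodule.torsionBy ℤ (E⁄Qbar).Point ((3 : ℕ) : ℤ)) :=
    Module.Finite.of_finite
  -- the dimension of `E[3]` is at most `2`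
  have hpow := Module.natCard_eq_pow_finrank (K := ZMod 3)
    (V := Submodule.torsionBy ℤ (E⁄Qbar).Point ((3 : ℕ) : ℤ))
  rw [Nat.card_zmod] at hpow
  have hrank : finrank (ZMod 3) (Submodule.torsionBy ℤ (E⁄Qbar).Point ((3 : ℕ) : ℤ)) ≤ 2 := by
    by_contra hlt
    push Not at hlt
    have : 3 ^ 3 ≤ 3 ^ finrank (ZMod 3) (Submodule.torsionBy ℤ (E⁄Qbar).Point ((3 : ℕ) : ℤ)) :=
      Nat.pow_le_pow_right (by norm_num) hlt
    omega
  -- the dimension of `N` is `1`
  have hNlt : finrank (ZMod 3) N <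
      finrank (ZMod 3) (Submodule.torsionBy ℤ (E⁄Qbar).Point ((3 : ℕ) : ℤ)) :=
    Submodule.finrank_lt htop
  have hNpos : 0 < finrank (ZMod 3) N := by
    rw [Module.finrank_pos_iff]
    exact (Submodule.nontrivial_iff_ne_bot).mpr hbot
  have hN1 : finrank (ZMod 3) N = 1 := by omega
  obtain ⟨v, hv0, hv⟩ := finrank_eq_one_iff'.mp hN1
  -- `v` is a nonzero point of `N`
  obtain ⟨⟨P, hP3⟩, hPN⟩ := v
  have hP0 : P ≠ 0 := by
    intro h
    apply hv0
    apply Subtype.ext
    apply Subtype.ext
    exact h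
  rcases P with _ | ⟨x, y, h⟩
  · exact absurd rfl hP0
  -- every Galois conjugate of `x` equals `x`
  have hfix : ∀ σ : Qbar ≃ₐ[ℚ] Qbar, σ x = x := by
    intro σ
    let Pt : Submodule.torsionBy ℤ (E⁄Qbar).Point ((3 : ℕ) : ℤ) := ⟨Point.some x y h, hP3⟩
    have hσN : σ • Pt ∈ N := hN σ _ hPN
    obtain ⟨c, hc⟩ := hv ⟨_, hσN⟩
    have hc' : ((c • Pt : Submodule.torsionBy ℤ (E⁄Qbar).Point ((3 : ℕ) : ℤ)) :
        (E⁄Qbar).Point) = σ • (Point.some x y h : (E⁄Qbar).Point) := by
      have := congrArg (fun w : N => ((w : Submodule.torsionBy ℤ (E⁄Qbar).Point ((3 : ℕ) : ℤ)) :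
        (E⁄Qbar).Point)) hc
      exact this
    obtain ⟨h', hσ⟩ := galois_smul_some_aux E σ h
    rw [hσ] at hc'
    -- `c • P` is `0`, `P` or `-P`
    have h3P : (3 : ℤ) • (Point.some x y h : (E⁄Qbar).Point) = 0 := by
      have := (Submodule.mem_torsionBy_iff _ _).mp hP3
      simpa using this
    have h2P : (2 : ℕ) • (Point.some x y h : (E⁄Qbar).Point) = -Point.some x y h := by
      have h3' : (3 : ℕ) • (Point.some x y h : (E⁄Qbar).Point) = 0 := by
        rw [← Nat.cast_smul_eq_nsmul ℤ]
        simpa using h3P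
      rw [show (3 : ℕ) = 2 + 1 by norm_num, add_smul, one_smul] at h3'
      exact eq_neg_of_add_eq_zero_left h3'
    have hcases : ((c • Pt : Submodule.torsionBy ℤ (E⁄Qbar).Point ((3 : ℕ) : ℤ)) :
        (E⁄Qbar).Point) = 0 ∨
        ((c • Pt : Submodule.torsionBy ℤ (E⁄Qbar).Point ((3 : ℕ) : ℤ)) :
        (E⁄Qbar).Point) = Point.some x y h ∨
        ((c • Pt : Submodule.torsionBy ℤ (E⁄Qbar).Point ((3 : ℕ) : ℤ)) :
        (E⁄Qbar).Point) = -Point.some x y h := by
      have hcval : c = ((c.val : ℕ) : ZMod 3) := (ZMod.natCast_zmod_val c).symm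
      rw [hcval, Nat.cast_smul_eq_nsmul]
      have hlt : c.val < 3 := ZMod.val_lt c
      interval_cases c.val
      · left; simp
      · right; left; simp [Pt]
      · right; right
        rw [Submodule.coe_smul_of_tower]
        exact h2P
    rcases hcases with h0 | h1 | h2
    · rw [h0] at hc'
      exact absurd hc'.symm (Point.some_ne_zero h')
    · rw [h1] at hc'
      simp only [Point.some.injEq] at hc'
      exact hc'.1.symm
    · rw [h2, Point.neg_some] at hc'
      simp only [Point.some.injEq] at hc'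
      exact hc'.1.symm
  obtain ⟨q, hq⟩ := exists_rat_of_fixed x hfix
  refine ⟨q, ?_⟩
  -- `Ψ₃(x) = 0` over `ℚ̄`, hence over `ℚ`
  have hΨ : ((E⁄Qbar).Ψ₃).eval x = 0 := by
    apply eval_Ψ₃_eq_zero_of_three_smul (E⁄Qbar) h
    have := (Submodule.mem_torsionBy_iff _ _).mp hP3
    simpa using this
  have hmap : (E⁄Qbar).Ψ₃ = (E.Ψ₃).map (algebraMap ℚ Qbar) := WeierstrassCurve.map_Ψ₃ _ _
  rw [hmap, ← hq, Polynomial.eval_map_algebraMap, Polynomial.aeval_algebraMap_apply] at hΨ
  exact (map_eq_zero_iff _ (algebraMap ℚ Qbar).injective).mp hΨ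

end Galois

end Fermat.Agent.S51
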